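/-
Project MAZUR (S15), `r = 2` through the archimedean place (architect ruling R7; helper4).

THE INDEX LEMMA `L → L'`.  `W` a finite abelian group with an action of a group `Γ`, `c : Γ` an
involution (`c * c = 1`; complex conjugation).  Then `H¹(⟨c⟩, W)` has at most `#W[2]` elements
(`mzs_ri_card_H1_zpowers_le`), hence for EVERY subgroup `L ≤ H¹(Γ, W)` the subgroup
`L' = L ⊓ ker (res_{⟨c⟩})` of the classes which are trivial at the real place satisfies
`#L ≤ #W[2] · #L'` (`mzs_ri_real_index`): imposing the archimedean condition costs a factor bounded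
independently of the level `k` when `W = W_k ⊆ J[2^k]`.

[`Z¹(⟨c⟩, W) ∋ z ↦ z(c)` is injective; `2 z = d(-z(c))` is a coboundary, so
`#H¹ = (Z¹ : B¹) ∣ (Z¹ : 2 Z¹) = #Z¹[2] ≤ #W[2]`.]

Prefix `mzs_ri_`.  Mathlib + `MZ/H/Coh.lean` (helper9's elementary `H¹`) only.
-/
import Mathlib
import Fermat.Agent.MZ.H.Coh

set_option autoImplicit false

namespace Fermat.Agent.MZ

/-- general counting: for `f : G →+ G'` with `G'` finite and any subgroup `L ≤ G`,
`#L ≤ #G' · #(L ⊓ ker f)`. -/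
theorem mzs_ri_card_le_mul {G G' : Type*} [AddCommGroup G] [AddCommGroup G'] [Finite G']
    (f : G →+ G') (L : AddSubgroup G) :
    Nat.card ↥L ≤ Nat.card G' * Nat.card ↥(L ⊓ f.ker) := by
  set g : ↥L →+ G' := f.comp L.subtype with hg
  have h1 : Nat.card ↥g.ker * g.ker.index = Nat.card ↥L := AddSubgroup.card_mul_index g.ker
  have h2 : g.ker.index = Nat.card ↥g.range := AddSubgroup.index_ker g
  have h3 : Nat.card ↥g.range ≤ Nat.card G' :=
    Nat.card_le_card_of_injective (fun x => (x : G')) Subtype.val_injective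
  have h4 : Nat.card ↥g.ker = Nat.card ↥(L ⊓ f.ker) := by
    refine Nat.card_congr
      { toFun := fun x => ⟨(x : ↥L), (x : ↥L).2, x.2⟩
        invFun := fun y => ⟨⟨(y : G), y.2.1⟩, y.2.2⟩
        left_inv := fun x => rfl
        right_inv := fun y => rfl }
  rw [← h1, h2, h4, mul_comm]
  exact Nat.mul_le_mul_right _ h3

section Two

variable {Δ : Type*} [Group Δ] {W : Type*} [AddCommGroup W] [DistribMulAction Δ W]

/-- a cocycle on a group `{1, c}` is determined by its value at `c`. -/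
theorem mzs_ri_ev_injective (c : Δ) (hΔ : ∀ σ : Δ, σ = 1 ∨ σ = c) :
    Function.Injective (fun z : ↥(mzh_Z1 Δ W) => (z : Δ → W) c) := by
  intro z z' h
  apply Subtype.ext
  funext σ
  have h1 : ∀ y : ↥(mzh_Z1 Δ W), (y : Δ → W) 1 = 0 := by
    intro y
    have := y.2 1 1
    rw [one_mul, one_smul] at this
    exact left_eq_add.mp this
  rcases hΔ σ with hσ | hσ
  · rw [hσ, h1, h1]
  · rw [hσ]
    exact h

/-- on a group `{1, c}` twice a cocycle is a coboundary. -/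
theorem mzs_ri_two_nsmul_mem_B1 (c : Δ) (hΔ : ∀ σ : Δ, σ = 1 ∨ σ = c)
    (z : ↥(mzh_Z1 Δ W)) : (2 • z : ↥(mzh_Z1 Δ W)) ∈ (mzh_B1 Δ W).addSubgroupOf (mzh_Z1 Δ W) := by
  rw [AddSubgroup.mem_addSubgroupOf, mzh_mem_B1]
  have h1 : (z : Δ → W) 1 = 0 := by
    have := z.2 1 1
    rw [one_mul, one_smul] at this
    exact left_eq_add.mp this
  have hcc : c * c = 1 := by
    rcases hΔ (c * c) with h | h
    · exact h
    · have : c = 1 := by
        have := congrArg (fun t => c⁻¹ * t) h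
        simpa using this
      rw [this, one_mul]
  have h2 : (z : Δ → W) c + c • (z : Δ → W) c = 0 := by
    rw [← z.2 c c, hcc, h1]
  refine ⟨-(z : Δ → W) c, fun σ => ?_⟩
  have hcoe : ((2 • z : ↥(mzh_Z1 Δ W)) : Δ → W) σ = 2 • (z : Δ → W) σ := rfl
  rw [hcoe]
  rcases hΔ σ with hσ | hσ
  · rw [hσ, h1, one_smul, sub_self, smul_zero]
  · rw [hσ, smul_neg, two_nsmul]
    have : c • (z : Δ → W) c = -(z : Δ → W) c := eq_neg_of_add_eq_zero_right h2
    rw [this]
    abel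

/-- **`#H¹({1, c}, W) ≤ #W[2]`**. -/
theorem mzs_ri_card_H1_le [Finite W] (c : Δ) (hΔ : ∀ σ : Δ, σ = 1 ∨ σ = c) :
    Nat.card (mzh_H1 Δ W) ≤ Nat.card {x : W // 2 • x = 0} := by
  have hfinZ : Finite ↥(mzh_Z1 Δ W) := Finite.of_injective _ (mzs_ri_ev_injective (W := W) c hΔ)
  set B : AddSubgroup ↥(mzh_Z1 Δ W) := (mzh_B1 Δ W).addSubgroupOf (mzh_Z1 Δ W) with hB
  set t : ↥(mzh_Z1 Δ W) →+ ↥(mzh_Z1 Δ W) := nsmulAddMonoidHom 2 with ht
  have hle : t.range ≤ B := by
    rintro _ ⟨z, rfl⟩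
    exact mzs_ri_two_nsmul_mem_B1 c hΔ z
  have h1 : B.index ∣ t.range.index := AddSubgroup.index_dvd_of_le hle
  have h2 : t.range.index = Nat.card ↥t.ker := AddSubgroup.index_range
  have h3 : Nat.card (mzh_H1 Δ W) = B.index := (AddSubgroup.index_eq_card B).symm
  have hpos : 0 < Nat.card ↥t.ker := Nat.card_pos
  have h4 : B.index ≤ Nat.card ↥t.ker := by
    rw [← h2]
    exact Nat.le_of_dvd (by rw [h2]; exact hpos) h1
  have h5 : Nat.card ↥t.ker ≤ Nat.card {x : W // 2 • x = 0} := by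
    refine Nat.card_le_card_of_injective
      (fun z => ⟨((z : ↥(mzh_Z1 Δ W)) : Δ → W) c, ?_⟩) ?_
    · have hz : t (z : ↥(mzh_Z1 Δ W)) = 0 := z.2
      have : ((t (z : ↥(mzh_Z1 Δ W)) : ↥(mzh_Z1 Δ W)) : Δ → W) c = 0 := by rw [hz]; rfl
      exact this
    · intro z z' h
      have := congrArg Subtype.val h
      exact Subtype.ext (mzs_ri_ev_injective (W := W) c hΔ this)
  rw [h3]
  exact h4.trans h5

end Two

section Real

variable {Γ : Type*} [Group Γ] {W : Type*} [AddCommGroup W] [DistribMulAction Γ W]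

/-- the subgroup generated by an involution is `{1, c}`. -/
theorem mzs_ri_zpowers_cases (c : Γ) (hc : c * c = 1) (σ : ↥(Subgroup.zpowers c)) :
    σ = 1 ∨ σ = ⟨c, Subgroup.mem_zpowers c⟩ := by
  obtain ⟨k, hk⟩ := Subgroup.mem_zpowers_iff.mp σ.2
  have hc2 : c ^ (2 : ℤ) = 1 := by
    rw [zpow_ofNat, pow_two, hc]
  rcases Int.even_or_odd' k with ⟨m, hm | hm⟩
  · left
    apply Subtype.ext
    rw [← hk, hm, zpow_mul, hc2, one_zpow]
    rfl
  · right
    apply Subtype.ext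
    rw [← hk, hm, zpow_add, zpow_mul, hc2, one_zpow, one_mul, zpow_one]

/-- **`#H¹(⟨c⟩, W) ≤ #W[2]`** for an involution `c`. -/
theorem mzs_ri_card_H1_zpowers_le [Finite W] (c : Γ) (hc : c * c = 1) :
    Nat.card (mzh_H1 ↥(Subgroup.zpowers c) W) ≤ Nat.card {x : W // 2 • x = 0} :=
  mzs_ri_card_H1_le ⟨c, Subgroup.mem_zpowers c⟩ (mzs_ri_zpowers_cases c hc)

/-- `H¹(⟨c⟩, W)` is finite. -/
theorem mzs_ri_finite_H1_zpowers [Finite W] (c : Γ) (hc : c * c = 1) :
    Finite (mzh_H1 ↥(Subgroup.zpowers c) W) := by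
  have hfinZ : Finite ↥(mzh_Z1 ↥(Subgroup.zpowers c) W) :=
    Finite.of_injective _ (mzs_ri_ev_injective (W := W) ⟨c, Subgroup.mem_zpowers c⟩
      (mzs_ri_zpowers_cases c hc))
  infer_instance

/-- **THE INDEX LEMMA**: for an involution `c : Γ` and ANY subgroup `L ≤ H¹(Γ, W)`, the classes of
`L` which are trivial on `⟨c⟩` form a subgroup `L'` with `#L ≤ #W[2] · #L'`. -/
theorem mzs_ri_real_index [Finite W] (c : Γ) (hc : c * c = 1) (L : AddSubgroup (mzh_H1 Γ W)) :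
    Nat.card ↥L ≤ Nat.card {x : W // 2 • x = 0} *
      Nat.card ↥(L ⊓ (mzh_H1resSub (A := W) (Subgroup.zpowers c)).ker) := by
  have hfin := mzs_ri_finite_H1_zpowers (W := W) c hc
  refine (mzs_ri_card_le_mul (mzh_H1resSub (A := W) (Subgroup.zpowers c)) L).trans ?_
  exact Nat.mul_le_mul_right _ (mzs_ri_card_H1_zpowers_le c hc)

/-- membership in `L'`. -/
theorem mzs_ri_mem_real {c : Γ} {L : AddSubgroup (mzh_H1 Γ W)} {x : mzh_H1 Γ W} :
    x ∈ L ⊓ (mzh_H1resSub (A := W) (Subgroup.zpowers c)).ker ↔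
      x ∈ L ∧ mzh_H1resSub (Subgroup.zpowers c) x = 0 := by
  rw [AddSubgroup.mem_inf, AddMonoidHom.mem_ker]

end Real

end Fermat.Agent.MZ
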