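/-
MAZUR / (F-ASM), cell [DIV-m] (helper17, prefix `mzs_dv_`), part 2: DIVISIBILITY BY `m` DESCENDS FROM
`K` TO `K₀` — `mw_d2d_orbit_divisor` and `mw_d2d_desc` of `MW/Div2/Desc.lean` (helper15) with `2`
replaced by an arbitrary `m ≠ 0`.  Everything else of `MW/Div2` is imported unchanged.
-/
import Fermat.Agent.MW.Div2.Desc

set_option autoImplicit false
set_option linter.unusedSectionVars false
set_option linter.style.haveILetI false
set_option synthInstance.maxHeartbeats 400000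
set_option maxHeartbeats 1000000

noncomputable section

namespace Fermat.Agent.MZ

open AlgebraicCurve ModularCurve Fermat.Agent.JT3 Fermat.Agent.S24 IntermediateField Polynomial
open Fermat.Agent.FF Fermat.Agent.MW

section generic

universe u v
variable {K : Type u} {F : Type v} [Field K] [Field F] [Algebra K F] [IsAlgClosed K]
  {x : F} (hx : rt_IsSepGen K x)

include hx in
/-- a non-special effective divisor `M` whose `m`-fold class is fixed by a family of semilinear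
automorphisms fixing `O` has a finite orbit under this family (`Pic⁰[m]` finite) -/
theorem mzs_dv_orbit_divisor (m : ℕ) {Γ : Type*} (act : Γ → SemilinearAut K F) (O : Place K F)
    (hO : ∀ γ, act γ • O = O) (d : ℕ) {M : Divisor K F} (hM0 : 0 ≤ M)
    (hMdeg : Divisor.degree M = d) (hMl : Module.finrank K (riemannRochSpace M) = 1)
    (hT : Finite {y : Pic0 K F // m • y = 0})
    (hfix : ∀ γ, act γ • (m • mw_d2g_class O d M) = m • mw_d2g_class O d M) :
    (Set.range fun γ => act γ • M).Finite := by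
  set z := mw_d2g_class O d M with hz
  -- the orbit of the class is finite
  have h2 : ∀ γ, m • (act γ • z - z) = 0 := by
    intro γ
    have e : act γ • (m • z) = m • (act γ • z) :=
      map_nsmul (DistribSMul.toAddMonoidHom (Pic0 K F) (act γ)) m z
    rw [nsmul_sub, ← e, hfix γ, sub_self]
  have hfin : (Set.range fun γ => act γ • z).Finite := by
    refine (Set.finite_range fun y : {y : Pic0 K F // m • y = 0} => (y : Pic0 K F) + z).subset ?_
    rintro _ ⟨γ, rfl⟩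
    exact ⟨⟨act γ • z - z, h2 γ⟩, sub_add_cancel _ _⟩
  refine mw_d2g_finite_range_of_factor (fun γ => act γ • z) (fun γ => act γ • M) hfin ?_
  intro a b hab
  rw [hz, mw_d2g_smul_class (act a) O (hO a) d M, mw_d2g_smul_class (act b) O (hO b) d M] at hab
  exact mw_d2g_smul_eq_of_class_eq hx O d hM0 hMdeg hMl (act a) (act b) hab


end generic

section main

variable {K₀ K : Type} [Field K₀] [Field K] [Algebra K₀ K] [Algebra ℚ K₀] [Algebra ℚ K]
  [IsAlgClosed K₀] [IsAlgClosed K] [CharZero K₀] [CharZero K]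
  (F_ℚ : IntermediateField ℚ (LaurentSeries ℚ))
  (hres : ∀ P₀ : Place K₀ (laurentBaseChange K₀ F_ℚ),
    Function.Surjective (algebraMap K₀ P₀.ResidueField))
  {x₀ : F_ℚ} (hx₀ : rt_IsSepGen K₀ (mw_d2_bcQ K₀ F_ℚ x₀))
  (hx : rt_IsSepGen K (mw_d2_bcQ K F_ℚ x₀))

attribute [local instance] mw_d2d_isScalarTower

local notation "F₀" => laurentBaseChange K₀ F_ℚ
local notation "FK" => laurentBaseChange K F_ℚ

include hx₀ hx in
/-- divisibility by `m` descends from `K` to `K₀` -/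
theorem mzs_dv_desc (m : ℕ) (hm : m ≠ 0) (hORB : mw_d2_SeamORB K F_ℚ x₀)
    (hTORS : Finite {y : Pic0 K (laurentBaseChange K F_ℚ) // m • y = 0}) :
    ∀ D₀ : Divisor K₀ (laurentBaseChange K₀ F_ℚ), Divisor.degree D₀ = 0 →
      (∃ (E : Divisor K (laurentBaseChange K F_ℚ)) (f : laurentBaseChange K F_ℚ), f ≠ 0 ∧
        ∀ P : Place K (laurentBaseChange K F_ℚ),
          mw_d2_extDiv (K := K) F_ℚ hres D₀ P = (m : ℤ) * E P + P.ord f) →
      ∃ (E₀ : Divisor K₀ (laurentBaseChange K₀ F_ℚ)) (f₀ : laurentBaseChange K₀ F_ℚ), f₀ ≠ 0 ∧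
        ∀ P₀ : Place K₀ (laurentBaseChange K₀ F_ℚ), D₀ P₀ = (m : ℤ) * E₀ P₀ + P₀.ord f₀ := by
  classical
  rintro D₀ hD₀ ⟨E, f, hf0, hEf⟩
  set L : IntermediateField ℚ K := mw_d2d_L K₀ K with hL
  let act : L.fixingSubgroup → SemilinearAut K FK := fun γ =>
    arithmeticGalois F_ℚ (γ : K ≃ₐ[ℚ] K)
  have hγ : ∀ (γ : L.fixingSubgroup) (c₀ : K₀),
      (γ : K ≃ₐ[ℚ] K) (algebraMap K₀ K c₀) = algebraMap K₀ K c₀ := fun γ c₀ =>
    mw_d2d_fixing _ γ.2 c₀
  -- the divisor identity and the degrees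
  have hdiv : mw_d2_extDiv (K := K) F_ℚ hres D₀ = m • E + rt_div hx f := by
    ext P
    rw [hEf P, Finsupp.add_apply, Finsupp.smul_apply, rt_div_apply, nsmul_eq_mul]
  have hdegext : Divisor.degree (mw_d2_extDiv (K := K) F_ℚ hres D₀) = 0 :=
    (mw_d2e_degree_extDiv F_ℚ hres hx₀ hx D₀).trans hD₀
  have hE0 : Divisor.degree E = 0 := by
    have h1 := congrArg Divisor.degree hdiv
    rw [hdegext, map_add, map_nsmul, rt_degree_div, add_zero, nsmul_eq_mul] at h1
    have hm' : (m : ℤ) ≠ 0 := by exact_mod_cast hm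
    rcases mul_eq_zero.mp h1.symm with h | h
    · exact absurd h hm'
    · exact h
  -- a base place
  obtain ⟨O₀, -⟩ := ffg_exists_zero hx₀ (0 : K₀)
  set O : Place K FK := mw_d2_ext (K := K) F_ℚ hres O₀ with hOdef
  have hO : ∀ γ, act γ • O = O := fun γ => mw_d2e_smul_ext F_ℚ hres hx₀ hx _ (hγ γ) O₀
  -- the minimal representative
  obtain ⟨M, h, hh0, hM0, hMO, hMl, hMeq⟩ := mw_mr_exists hx O E hE0
  obtain ⟨d, hd⟩ := Int.eq_ofNat_of_zero_le (rt_degree_nonneg hx hM0)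
  rw [hd] at hMeq
  have hdegM : Divisor.degree (M - Finsupp.single O (d : ℤ)) = 0 := mw_d2g_degree_sub hx O d hd
  have hcls : mw_d2g_class O d M = Pic0.mk ⟨M - Finsupp.single O (d : ℤ), hdegM⟩ :=
    mw_d2g_class_eq O d M hdegM
  set u : FK := f * (h⁻¹) ^ m with hu
  have hu0 : u ≠ 0 := mul_ne_zero hf0 (pow_ne_zero _ (inv_ne_zero hh0))
  -- `extDiv D₀ - m (M - d O) = div u`
  have hkey : ∀ P : Place K FK, (mw_d2_extDiv (K := K) F_ℚ hres D₀ -
      m • (M - Finsupp.single O (d : ℤ))) P = P.ord u := by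
    intro P
    rw [hMeq, hdiv, hu, P.ord_mul hf0 (pow_ne_zero _ (inv_ne_zero hh0)), rt_ord_pow, P.ord_inv]
    simp only [Finsupp.sub_apply, Finsupp.add_apply, Finsupp.smul_apply, rt_div_apply,
      nsmul_eq_mul]
    ring
  -- the `m`-fold class is the class of the extended divisor
  have h2cls : m • mw_d2g_class O d M =
      mw_d2_cls (mw_d2_extDiv (K := K) F_ℚ hres D₀) hdegext := by
    rw [hcls]
    have h2deg : Divisor.degree (m • (M - Finsupp.single O (d : ℤ))) = 0 := by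
      rw [map_nsmul, hdegM, smul_zero]
    have h1 : m • Pic0.mk (⟨M - Finsupp.single O (d : ℤ), hdegM⟩ :
        Divisor.degZero (K := K) (F := FK)) =
        Pic0.mk ⟨m • (M - Finsupp.single O (d : ℤ)), h2deg⟩ := by
      unfold Pic0.mk
      exact (QuotientAddGroup.mk_nsmul _ _ m).symm
    rw [h1]
    unfold mw_d2_cls
    exact (mw_d2g_mk_eq_mk_iff h2deg hdegext).2 ⟨u, hu0, hkey⟩
  have hfix : ∀ γ, act γ • (m • mw_d2g_class O d M) = m • mw_d2g_class O d M := by
    intro γ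
    rw [h2cls, mw_d2_cls, SemilinearAut.pic0_smul_mk]
    congr 1
    apply Subtype.ext
    rw [SemilinearAut.coe_degZeroSMulHom]
    exact mw_d2e_smul_extDiv F_ℚ hres hx₀ hx _ (hγ γ) D₀
  have hfinM := mzs_dv_orbit_divisor hx m act O hO d hM0 hd hMl hTORS hfix
  -- the points of `M` are extended places
  have hMrange : ∀ Q, M Q ≠ 0 → Q ∈ Set.range (mw_d2_ext (K := K) F_ℚ hres) := by
    intro Q hQ
    have hfinQ := mw_d2d_orbit_point act hfinM hQ
    exact mw_d2d_isRat_range F_ℚ hres hx₀ hx (hORB hx L Q hfinQ)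
  obtain ⟨M₀, hM₀⟩ := mw_d2e_exists_extDiv F_ℚ hres M hMrange
  -- the new divisor
  set E₀ : Divisor K₀ F₀ := M₀ - Finsupp.single O₀ (d : ℤ) with hE₀
  have hextE₀ : mw_d2_extDiv (K := K) F_ℚ hres E₀ = M - Finsupp.single O (d : ℤ) := by
    rw [hE₀, mw_d2e_extDiv_sub, hM₀, mw_d2e_extDiv_single]
  have hD' : ∀ P : Place K FK,
      mw_d2_extDiv (K := K) F_ℚ hres (D₀ - m • E₀) P = P.ord u := by
    intro P
    rw [← hkey P, mw_d2e_extDiv_sub, ← natCast_zsmul, mw_d2e_extDiv_zsmul, hextE₀, natCast_zsmul]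
  -- normalisation
  set c : K := gd_lead F_ℚ u with hc
  have hc0 : c ≠ 0 := gd_lead_ne_zero F_ℚ u hu0
  set u' : FK := algebraMap K FK c⁻¹ * u with hu'
  have hci0 : algebraMap K FK c⁻¹ ≠ 0 := by
    rw [Ne, map_eq_zero]
    exact inv_ne_zero hc0
  have hu'0 : u' ≠ 0 := mul_ne_zero hci0 hu0
  have hlead : gd_lead F_ℚ u' = 1 := by
    rw [hu', gd_lead_smul, ← hc, inv_mul_cancel₀ hc0]
  have hD'' : ∀ P : Place K FK,
      mw_d2_extDiv (K := K) F_ℚ hres (D₀ - m • E₀) P = P.ord u' := by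
    intro P
    rw [hD' P, hu', P.ord_mul hci0 hu0, hw_ord_algebraMap, zero_add]
  -- `u'` is fixed by `Aut(K/K₀)`
  have hfixu : ∀ τ : K ≃ₐ[K₀] K, arithmeticGalois F_ℚ (gd_toRat τ) • u' = u' := by
    intro τ
    apply mw_d2d_fixed_of_div F_ℚ hx hu'0 hlead
    intro P
    have hτ : ∀ c₀ : K₀, gd_toRat τ (algebraMap K₀ K c₀) = algebraMap K₀ K c₀ := fun c₀ =>
      τ.commutes c₀
    set g := arithmeticGalois F_ℚ (gd_toRat τ) with hg
    have h1 := SemilinearAut.ord_smul g (g⁻¹ • P) u'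
    rw [smul_inv_smul] at h1
    rw [h1, ← hD'' (g⁻¹ • P), ← SemilinearAut.divisor_smul_apply,
      mw_d2e_smul_extDiv F_ℚ hres hx₀ hx _ hτ, hD'' P]
  -- descent of `u'`
  have horb : (Set.range fun τ : K ≃ₐ[K₀] K =>
      coeffMap (τ : K →+* K) (u' : LaurentSeries K)).Finite := by
    refine (Set.finite_singleton (u' : LaurentSeries K)).subset ?_
    rintro _ ⟨τ, rfl⟩
    have := congrArg (fun z : FK => (z : LaurentSeries K)) (hfixu τ)
    exact this
  obtain ⟨s₀, hs₀⟩ := gd_exists_coeffMap_eq_of_finite_orbit horb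
  have hs₀mem : s₀ ∈ laurentBaseChange K₀ F_ℚ := by
    apply gd_mem_of_coeffMap_mem (K := K) F_ℚ
    rw [hs₀]
    exact u'.2
  set f₀ : F₀ := ⟨s₀, hs₀mem⟩ with hf₀
  have hbc : mw_d2_bc (K := K) F_ℚ f₀ = u' := Subtype.ext hs₀
  have hf₀0 : f₀ ≠ 0 := by
    intro h0
    apply hu'0
    rw [← hbc, h0, map_zero]
  refine ⟨E₀, f₀, hf₀0, fun P₀ => ?_⟩
  have h1 := hD'' (mw_d2_ext (K := K) F_ℚ hres P₀)
  rw [mw_d2e_extDiv_ext, ← hbc, mw_d2_ext_ord, Finsupp.sub_apply, Finsupp.smul_apply,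
    nsmul_eq_mul] at h1
  linarith

end main

end Fermat.Agent.MZ

end
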