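/-
MAZUR / (F-ASM), cell [DIV-m] (helper17, prefix `mzs_dv_`), part 1: WEIL'S GENERIC-POINT ARGUMENT FOR
DIVISIBILITY BY AN ARBITRARY `m`.

`MW/Div2` (project MW, S17) proves that `J₀(N)(Q̄)` is `2`-divisible.  The number `2` enters only
through the finiteness of `Pic⁰[2]` and the hypothesis `2 • (σ η - η) = 0` of Weil's lemma.  This file
repeats `mw_d2g_W2` and `mw_d2g_gen` (helper19) with `2` replaced by `m`; every other leaf of
`MW/Div2` is imported unchanged.

* `mzs_dv_W m`   : Weil's lemma (a class over which a generic class is "`m`-algebraic" is generic);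
* `mzs_dv_gen m` : every class of `Pic⁰(F_K)` fixed by `Aut(K/ℚ̄)` is divisible by `m`.
-/
import Fermat.Agent.MW.Div2.GenMain

set_option autoImplicit false
set_option linter.unusedSectionVars false
set_option linter.unusedVariables false

noncomputable section

namespace Fermat.Agent.MZ

open AlgebraicCurve ModularCurve Fermat.Agent.JT3 Fermat.Agent.FF Fermat.Agent.S24 Fermat.Agent.MW

variable {K : Type} [Field K] [Algebra ℚ K] [IsAlgClosed K] [CharZero K]
  {F_ℚ : IntermediateField ℚ (LaurentSeries ℚ)} {x₀ : F_ℚ}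

set_option maxHeartbeats 1000000 in
/-- **Weil's lemma.** `η = [E - g∞]` generic (`E = ffg_sum s`); if every `σ ∈ Aut(K/ℚ̄)` fixing
`ζ` moves `η` by a `m`-torsion class, then `ζ` is generic. -/
theorem mzs_dv_W (m : ℕ) (hx : rt_IsSepGen K (mw_d2_bcQ K F_ℚ x₀))
    (hnt : ∃ f : laurentBaseChange K F_ℚ, f ≠ 0 ∧ gd_ordVal F_ℚ f ≠ 0) (g : ℕ) (c : ℤ)
    (hI : ∀ D : Divisor K (laurentBaseChange K F_ℚ),
      Divisor.degree D + 1 - g ≤ (Module.finrank K (riemannRochSpace D) : ℤ))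
    (hR : ∀ D : Divisor K (laurentBaseChange K F_ℚ), c ≤ Divisor.degree D →
      (Module.finrank K (riemannRochSpace D) : ℤ) = Divisor.degree D + 1 - g)
    (hT : Finite {z : Pic0 K (laurentBaseChange K F_ℚ) // m • z = 0}) (hTRD : mw_d2_SeamTRD K) (hFIX : mw_d2_SeamFIX K F_ℚ x₀)
    (hORB : mw_d2_SeamORB K F_ℚ x₀) (hNSP : mw_d2_SeamNSP K F_ℚ x₀)
    (s : Finset (Place K (laurentBaseChange K F_ℚ))) (hs : s.card = g)
    (hgen : mw_d2_IsGenSet F_ℚ x₀ s) (ζ : Pic0 K (laurentBaseChange K F_ℚ))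
    (hζ : ∀ σ ∈ (mw_d2_cl (∅ : Set K)).fixingSubgroup, σ • ζ = ζ →
      m • (σ • mw_d2g_class (mw_d2_Pinf F_ℚ hnt) g (ffg_sum s) -
        mw_d2g_class (mw_d2_Pinf F_ℚ hnt) g (ffg_sum s)) = 0) :
    ∃ s' : Finset (Place K (laurentBaseChange K F_ℚ)), s'.card = g ∧
      mw_d2_IsGenSet F_ℚ x₀ s' ∧ ζ = mw_d2g_class (mw_d2_Pinf F_ℚ hnt) g (ffg_sum s') := by
  classical
  set O := mw_d2_Pinf F_ℚ hnt with hO
  set x := mw_d2_bcQ K F_ℚ x₀ with hxdef
  set E := ffg_sum s with hE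
  set η := mw_d2g_class O g E with hη
  have hE0 : 0 ≤ E := ffg_sum_nonneg s
  have hEdeg : Divisor.degree E = g := by rw [hE, ffg_degree_sum hx, hs]
  have hEl : Module.finrank K (riemannRochSpace E) = 1 :=
    hNSP hx g c hR s hs.le hgen
  obtain ⟨t, ht, hti⟩ := hgen
  -- an effective representative of `ζ`
  obtain ⟨Q, hQ0, hQdeg, hQζ⟩ := mw_d2g_exists_class hx O g hI ζ
  -- the values of its points
  let v : Place K (laurentBaseChange K F_ℚ) → K := fun R =>
    if h : ∃ c : K, mw_d2_IsZero F_ℚ x₀ R c then h.choose else 0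
  have hv : ∀ R : Place K (laurentBaseChange K F_ℚ), 0 ≤ R.ord x →
      mw_d2_IsZero F_ℚ x₀ R (v R) := by
    intro R hR0
    have h := mw_d2g_exists_value hx R hR0
    show mw_d2_IsZero F_ℚ x₀ R (if h : ∃ c : K, mw_d2_IsZero F_ℚ x₀ R c then h.choose else 0)
    rw [dif_pos h]
    exact h.choose_spec
  set supp := Q.support with hsupp
  set np := supp.filter (fun R => 0 ≤ R.ord x) with hnp
  set T := np.image v with hTdef
  set L := mw_d2_cl (T : Set K) with hL
  have hrat : ∀ R ∈ supp, mw_d2_IsRat F_ℚ x₀ L R := by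
    intro R hR
    by_cases h0 : 0 ≤ R.ord x
    · right
      refine ⟨v R, ?_, hv R h0⟩
      apply mw_d2g_subset_cl
      rw [hTdef, Finset.coe_image]
      exact ⟨R, Finset.mem_coe.2 (Finset.mem_filter.2 ⟨hR, h0⟩), rfl⟩
    · left
      exact not_le.mp h0
  -- `Aut(K/L)` fixes `Q`, hence `ζ`
  have hfixQ : ∀ σ ∈ L.fixingSubgroup, arithmeticGalois F_ℚ σ • Q = Q := by
    intro σ hσ
    apply mw_d2g_smul_eq_self
    intro R hR
    exact hFIX hx L R (hrat R hR) σ hσ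
  have hfixζ : ∀ σ ∈ L.fixingSubgroup, σ • ζ = ζ := by
    intro σ hσ
    rw [← hQζ, mw_d2g_gal_smul_class hnt σ g Q, hfixQ σ hσ]
  have hle : L.fixingSubgroup ≤ (mw_d2_cl (∅ : Set K)).fixingSubgroup :=
    mw_d2g_fixing_le (mw_d2g_cl_mono (Set.empty_subset _))
  have htors : ∀ σ ∈ L.fixingSubgroup, m • (σ • η - η) = 0 := fun σ hσ =>
    hζ σ (hle hσ) (hfixζ σ hσ)
  -- the orbit of `η` is finite
  have horbη : (Set.range fun σ : L.fixingSubgroup => (σ : K ≃ₐ[ℚ] K) • η).Finite := by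
    have hfin : {z : Pic0 K (laurentBaseChange K F_ℚ) | m • z = 0}.Finite := by
      exact Set.finite_coe_iff.mp
        (hT : Finite ↥{z : Pic0 K (laurentBaseChange K F_ℚ) | m • z = 0})
    refine (hfin.image (fun z => z + η)).subset ?_
    rintro _ ⟨σ, rfl⟩
    exact ⟨(σ : K ≃ₐ[ℚ] K) • η - η, htors σ σ.2, sub_add_cancel _ _⟩
  -- hence the orbit of the divisor `E`
  have horbE : (Set.range fun σ : L.fixingSubgroup =>
      arithmeticGalois F_ℚ (σ : K ≃ₐ[ℚ] K) • E).Finite := by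
    refine mw_d2g_finite_range_of_factor _ _ horbη ?_
    intro a b hab
    have hab' : (a : K ≃ₐ[ℚ] K) • mw_d2g_class O g E = (b : K ≃ₐ[ℚ] K) • mw_d2g_class O g E :=
      hab
    rw [mw_d2g_gal_smul_class hnt _ g E, mw_d2g_gal_smul_class hnt _ g E] at hab'
    exact mw_d2g_smul_eq_of_class_eq hx O g hE0 hEdeg hEl _ _ hab'
  -- hence the orbits of the points of `s`
  have horbP : ∀ P ∈ s, (Set.range fun σ : L.fixingSubgroup =>
      arithmeticGalois F_ℚ (σ : K ≃ₐ[ℚ] K) • P).Finite := by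
    intro P hP
    refine (Finset.finite_toSet (horbE.toFinset.biUnion fun E' => E'.support)).subset ?_
    rintro _ ⟨σ, rfl⟩
    rw [Finset.mem_coe, Finset.mem_biUnion]
    refine ⟨arithmeticGalois F_ℚ (σ : K ≃ₐ[ℚ] K) • E, ?_, ?_⟩
    · rw [Set.Finite.mem_toFinset]
      exact ⟨σ, rfl⟩
    · rw [Finsupp.mem_support_iff, SemilinearAut.divisor_smul_apply_smul, hE, ffg_sum_apply,
        if_pos hP]
      exact one_ne_zero
  -- hence their values lie in `L`
  have htL : ∀ P ∈ s, t P ∈ L := by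
    intro P hP
    rcases hORB hx L P (horbP P hP) with hpole | ⟨c', hc'L, hc'⟩
    · have := mw_d2g_isZero_ord_nonneg (ht P hP)
      omega
    · rw [← mw_d2g_isZero_unique hc' (ht P hP)]
      exact hc'L
  -- the exchange lemma
  have hsuppcard : (supp.card : ℤ) ≤ g := by
    rw [← hQdeg, rt_degree_eq_sum hx Q supp (Finset.Subset.refl _), Finset.card_eq_sum_ones]
    push_cast
    apply Finset.sum_le_sum
    intro R hR
    have h1 : 0 ≤ Q R := by
      have := (Finsupp.le_def.mp hQ0) R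
      simpa using this
    have h2 : Q R ≠ 0 := Finsupp.mem_support_iff.mp hR
    omega
  have hnpcard : np.card ≤ supp.card := Finset.card_filter_le _ _
  have hTcard : T.card ≤ np.card := Finset.card_image_le
  have hTg : T.card ≤ g := by
    have : (T.card : ℤ) ≤ g := by
      have h1 : (T.card : ℤ) ≤ np.card := by exact_mod_cast hTcard
      have h2 : (np.card : ℤ) ≤ supp.card := by exact_mod_cast hnpcard
      linarith
    exact_mod_cast this
  let e : s ≃ Fin g := Finset.equivFinOfCardEq hs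
  have hind : AlgebraicIndependent ℚ (fun i : Fin g => t ((e.symm i : s) : _)) :=
    hti.comp e.symm e.symm.injective
  obtain ⟨hTeq, hTind⟩ := hTRD g _ hind T hTg (fun i => htL _ (e.symm i).2)
  -- consequences of `#T = g`
  have hnpeq : np.card = g := by
    have h1 : (np.card : ℤ) ≤ supp.card := by exact_mod_cast hnpcard
    have h2 : (g : ℤ) ≤ np.card := by rw [← hTeq]; exact_mod_cast hTcard
    have : (np.card : ℤ) = g := by linarith
    exact_mod_cast this
  have hsuppeq : supp.card = g := by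
    have h1 : (np.card : ℤ) ≤ supp.card := by exact_mod_cast hnpcard
    have : (supp.card : ℤ) = g := by rw [hnpeq] at h1; linarith
    exact_mod_cast this
  have hnpsupp : np = supp :=
    Finset.eq_of_subset_of_card_le (Finset.filter_subset _ _) (by rw [hnpeq, hsuppeq])
  have hvinj : Set.InjOn v (np : Set (Place K (laurentBaseChange K F_ℚ))) :=
    Finset.card_image_iff.mp (by rw [← hTdef, hTeq, hnpeq])
  have hQone : ∀ R ∈ supp, Q R = 1 := by
    have hle1 : ∀ R ∈ supp, (1 : ℤ) ≤ Q R := by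
      intro R hR
      have h1 : 0 ≤ Q R := by
        have := (Finsupp.le_def.mp hQ0) R
        simpa using this
      have h2 : Q R ≠ 0 := Finsupp.mem_support_iff.mp hR
      omega
    have hsum : ∑ R ∈ supp, (1 : ℤ) = ∑ R ∈ supp, Q R := by
      rw [← rt_degree_eq_sum hx Q supp (Finset.Subset.refl _), hQdeg, Finset.sum_const,
        hsuppeq]
      simp
    intro R hR
    exact ((Finset.sum_eq_sum_iff_of_le hle1).mp hsum R hR).symm
  have hQsum : Q = ffg_sum supp := by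
    ext w
    rw [ffg_sum_apply]
    by_cases hw : w ∈ supp
    · rw [if_pos hw, hQone w hw]
    · rw [if_neg hw]
      exact Finsupp.notMem_support_iff.mp hw
  refine ⟨supp, hsuppeq, ⟨v, ?_, ?_⟩, ?_⟩
  · intro P hP
    have hP' : P ∈ np := by rw [hnpsupp]; exact hP
    exact hv P (Finset.mem_filter.mp hP').2
  · have hmem : ∀ P : supp, v (P : _) ∈ T := by
      intro P
      rw [hTdef]
      exact Finset.mem_image.2 ⟨P, by rw [hnpsupp]; exact P.2, rfl⟩
    have hφ : Function.Injective (fun P : supp => (⟨v (P : _), hmem P⟩ : T)) := by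
      intro P P' h
      have h1 : v (P : _) = v (P' : _) := congrArg (fun z : T => (z : K)) h
      apply Subtype.ext
      apply hvinj _ _ h1
      · rw [hnpsupp]; exact P.2
      · rw [hnpsupp]; exact P'.2
    have hcomp := hTind.comp (fun P : supp => (⟨v (P : _), hmem P⟩ : T)) hφ
    exact hcomp
  · rw [← hQsum, hQζ]


open Classical in
set_option maxHeartbeats 1000000 in
/-- **[GEN]**: Weil's generic-point argument. -/
theorem mzs_dv_gen (m : ℕ) (hx : rt_IsSepGen K (mw_d2_bcQ K F_ℚ x₀))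
    (hnt : ∃ f : laurentBaseChange K F_ℚ, f ≠ 0 ∧ gd_ordVal F_ℚ f ≠ 0)
    (hT : Finite {z : Pic0 K (laurentBaseChange K F_ℚ) // m • z = 0}) (hAi : mw_d2_SeamAUTi K) (hTRD : mw_d2_SeamTRD K)
    (hFIX : mw_d2_SeamFIX K F_ℚ x₀) (hORB : mw_d2_SeamORB K F_ℚ x₀)
    (hTRANS : mw_d2_SeamTRANS K F_ℚ x₀) (hNSP : mw_d2_SeamNSP K F_ℚ x₀) :
    ∀ y : Pic0 K (laurentBaseChange K F_ℚ),
      (∀ σ ∈ (mw_d2_cl (∅ : Set K)).fixingSubgroup, σ • y = y) → ∃ z, m • z = y := by
  intro y hy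
  obtain ⟨g, c, hI, hR⟩ := mw_d2g_riemann_data hx
  obtain ⟨s₀, hs₀, hgen₀⟩ := mw_d2g_exists_genSet hx hAi g
  set O := mw_d2_Pinf F_ℚ hnt with hO
  set η₀ := mw_d2g_class O g (ffg_sum s₀) with hη₀
  have hcomm : ∀ (σ : K ≃ₐ[ℚ] K) (z : Pic0 K (laurentBaseChange K F_ℚ)),
      σ • (m • z) = m • (σ • z) := fun σ z =>
    map_nsmul (DistribSMul.toAddMonoidHom (Pic0 K (laurentBaseChange K F_ℚ)) σ) m z
  -- `m η₀` is generic
  obtain ⟨s₁, hs₁, hgen₁, h₁⟩ := mzs_dv_W m hx hnt g c hI hR hT hTRD hFIX hORB hNSP s₀ hs₀ hgen₀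
    (m • η₀) (by
      intro σ _ hσ
      rw [nsmul_sub, ← hcomm, hσ, sub_self])
  -- `y - η₀` is generic
  obtain ⟨s₂, hs₂, hgen₂, h₂⟩ := mzs_dv_W m hx hnt g c hI hR hT hTRD hFIX hORB hNSP s₀ hs₀ hgen₀
    (y - η₀) (by
      intro σ hσ hσy
      rw [smul_sub, hy σ hσ, sub_right_inj] at hσy
      rw [hσy, sub_self, nsmul_zero])
  -- conjugacy
  have hconj : ∀ (s s' : Finset (Place K (laurentBaseChange K F_ℚ))) (σ : K ≃ₐ[ℚ] K),
      s.image (fun P => arithmeticGalois F_ℚ σ • P) = s' →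
      σ • mw_d2g_class O g (ffg_sum s) = mw_d2g_class O g (ffg_sum s') := by
    intro s s' σ h
    rw [mw_d2g_gal_smul_class hnt σ g, mw_d2g_smul_ffg_sum, h]
  obtain ⟨σ₂, hσ₂⟩ := mw_d2g_trans_sets hx hFIX hTRANS g s₁ s₂ hs₁ hs₂ hgen₁ hgen₂
  obtain ⟨σ₀, hσ₀⟩ := mw_d2g_trans_sets hx hFIX hTRANS g s₁ s₀ hs₁ hs₀ hgen₁ hgen₀
  have e₂ : y - η₀ = m • (σ₂ • η₀) := by
    rw [h₂, ← hconj s₁ s₂ σ₂ hσ₂, ← h₁, hcomm]
  have e₀ : η₀ = m • (σ₀ • η₀) := by
    conv_lhs => rw [hη₀, ← hconj s₁ s₀ σ₀ hσ₀, ← h₁, hcomm]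
  refine ⟨σ₂ • η₀ + σ₀ • η₀, ?_⟩
  rw [nsmul_add, ← e₂, ← e₀, sub_add_cancel]


end Fermat.Agent.MZ
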