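/-
MAZUR / (F-ASM), cell [DIV-m] (helper17, prefix `mzs_dv_`), part 3: THE CLOSED CELL.

  `mzs_dv_div N m hm x : ∃ y : JZero N, m • y = x`     (`m ≠ 0`)

`J₀(N)(Q̄)` is `m`-divisible for every `m ≥ 1`: Weil's generic-point argument of `MW/Div2` (which is
the case `m = 2`), with the two `2`-dependent leaves replaced by `MZ/S/DivGen.lean` and
`MZ/S/DivDesc.lean`; [TORS] at `m` from the gateway (`gw_fin` is generic in `n`).
Consumers: the Kummer map `J(ℚ)/r^k → H¹(ℚ, J[r^k])` of (F-ASM), the torsor `[r^k]⁻¹(P)` of [GEO],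
[MZ-F'].
-/
import Fermat.Agent.MW.Div2.Main
import Fermat.Agent.MZ.S.DivGen
import Fermat.Agent.MZ.S.DivDesc

set_option autoImplicit false
set_option linter.unusedSectionVars false

noncomputable section

namespace Fermat.Agent.MZ

open AlgebraicCurve ModularCurve Fermat.Agent.JT3 Fermat.Agent.S24 Fermat.Agent.FF Fermat.Agent.MW

section generic

variable {K₀ K : Type} [Field K₀] [Field K] [Algebra K₀ K] [Algebra ℚ K₀] [Algebra ℚ K]
  (F_ℚ : IntermediateField ℚ (LaurentSeries ℚ))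
  (hres : ∀ P₀ : Place K₀ (laurentBaseChange K₀ F_ℚ),
    Function.Surjective (algebraMap K₀ P₀.ResidueField))

/-- **the assembly**: `Pic⁰(F_{K₀})` is `m`-divisible. -/
theorem mzs_dv_asm_generic (m : ℕ) (hm : m ≠ 0) [IsAlgClosed K₀] {x' : laurentBaseChange K₀ F_ℚ}
    (hx' : rt_IsSepGen K₀ x')
    (hDEG : mw_d2_SeamDEG K₀ K F_ℚ hres) (hLINK : mw_d2_SeamLINK K₀ K F_ℚ hres)
    (hDESC : ∀ D₀ : Divisor K₀ (laurentBaseChange K₀ F_ℚ), Divisor.degree D₀ = 0 →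
      (∃ (E : Divisor K (laurentBaseChange K F_ℚ)) (f : laurentBaseChange K F_ℚ), f ≠ 0 ∧
        ∀ P : Place K (laurentBaseChange K F_ℚ),
          mw_d2_extDiv (K := K) F_ℚ hres D₀ P = (m : ℤ) * E P + P.ord f) →
      ∃ (E₀ : Divisor K₀ (laurentBaseChange K₀ F_ℚ)) (f₀ : laurentBaseChange K₀ F_ℚ), f₀ ≠ 0 ∧
        ∀ P₀ : Place K₀ (laurentBaseChange K₀ F_ℚ), D₀ P₀ = (m : ℤ) * E₀ P₀ + P₀.ord f₀)
    (hGEN : ∀ y : Pic0 K (laurentBaseChange K F_ℚ),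
      (∀ σ ∈ (mw_d2_cl (∅ : Set K)).fixingSubgroup, σ • y = y) → ∃ z, m • z = y)
    (x : Pic0 K₀ (laurentBaseChange K₀ F_ℚ)) : ∃ y : Pic0 K₀ (laurentBaseChange K₀ F_ℚ),
      m • y = x := by
  obtain ⟨⟨D₀, hD₀⟩, rfl⟩ := Pic0.mk_surjective x
  have hD₀' : Divisor.degree D₀ = 0 := hD₀
  have hdeg : Divisor.degree (mw_d2_extDiv (K := K) F_ℚ hres D₀) = 0 := (hDEG D₀).trans hD₀'
  obtain ⟨z, hz⟩ := hGEN _ (hLINK D₀ hdeg)
  obtain ⟨⟨E, hE⟩, rfl⟩ := Pic0.mk_surjective z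
  have hE' : Divisor.degree E = 0 := hE
  have h2E : Divisor.degree (m • E) = 0 := by rw [map_nsmul, hE', smul_zero]
  have h1 : m • Pic0.mk (⟨E, hE⟩ : Divisor.degZero (K := K) (F := laurentBaseChange K F_ℚ))
      = Pic0.mk ⟨m • E, h2E⟩ := by
    unfold Pic0.mk
    exact (QuotientAddGroup.mk_nsmul _ _ m).symm
  rw [h1] at hz
  unfold mw_d2_cls at hz
  obtain ⟨f, hf0, hf⟩ := (mw_d2g_mk_eq_mk_iff h2E hdeg).1 hz
  obtain ⟨E₀, f₀, hf₀0, hE₀⟩ := hDESC D₀ hD₀' ⟨E, f, hf0, fun P => by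
    have := hf P
    rw [Finsupp.sub_apply, Finsupp.smul_apply, nsmul_eq_mul] at this
    linarith⟩
  have hDe : D₀ = m • E₀ + rt_div hx' f₀ := by
    ext P₀
    rw [Finsupp.add_apply, Finsupp.smul_apply, rt_div_apply, nsmul_eq_mul, hE₀ P₀]
  have hE₀deg : Divisor.degree E₀ = 0 := by
    have := congrArg Divisor.degree hDe
    rw [map_add, map_nsmul, rt_degree_div, add_zero, hD₀', nsmul_eq_mul] at this
    have hm' : (m : ℤ) ≠ 0 := by exact_mod_cast hm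
    rcases mul_eq_zero.mp this.symm with h | h
    · exact absurd h hm'
    · exact h
  have h2E₀ : Divisor.degree (m • E₀) = 0 := by rw [map_nsmul, hE₀deg, smul_zero]
  refine ⟨Pic0.mk ⟨E₀, hE₀deg⟩, ?_⟩
  have h2 : m • Pic0.mk (⟨E₀, hE₀deg⟩ :
      Divisor.degZero (K := K₀) (F := laurentBaseChange K₀ F_ℚ)) = Pic0.mk ⟨m • E₀, h2E₀⟩ := by
    unfold Pic0.mk
    exact (QuotientAddGroup.mk_nsmul _ _ m).symm
  rw [h2]
  refine (mw_d2g_mk_eq_mk_iff h2E₀ hD₀').2 ⟨f₀, hf₀0, fun P₀ => ?_⟩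
  rw [Finsupp.sub_apply, Finsupp.smul_apply, nsmul_eq_mul, hE₀ P₀]
  ring

end generic

section inst

open Fermat.Agent.S24.Br

variable (N : ℕ) [NeZero N]

/-- **[TORS]** at `m`: `Pic⁰(F_ℂ)[m]` is finite. -/
theorem mzs_dv_tors (m : ℕ) (hm : m ≠ 0) :
    Finite {y : Pic0 ℂ (laurentBaseChange ℂ (modularFunctionFieldFull N)) // m • y = 0} := by
  obtain ⟨T, -, hT⟩ := gw_fin (gc_ctx_complete N) (gc_ctx_rational N) (n := m) hm
  exact mw_d2tors_finite (gc_isSepGen_jF N) hm T (fun f hf hdiv => hT f ⟨hf, hdiv⟩)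

/-- **[GEN]** at `m` over `ℂ`. -/
theorem mzs_dv_gen_inst (m : ℕ) (hm : m ≠ 0) :
    ∀ y : Pic0 ℂ (laurentBaseChange ℂ (modularFunctionFieldFull N)),
      (∀ σ ∈ (mw_d2_cl (∅ : Set ℂ)).fixingSubgroup, σ • y = y) → ∃ z, m • z = y :=
  mzs_dv_gen m (x₀ := mw_d2asm_x0 N) (mw_d2asm_isSepGen_C N) (gd_nontrivial N) (mzs_dv_tors N m hm)
    mw_d2a_autI (mw_d2a_trd ℂ) (mw_d2r_fix (modularFunctionFieldFull N) (mw_d2asm_x0 N))
    (mw_d2r_orb (modularFunctionFieldFull N) (mw_d2asm_x0 N))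
    (mw_d2t_trans_closed ℂ (modularFunctionFieldFull N) (mw_d2asm_x0 N))
    (mw_d2n_nsp (modularFunctionFieldFull N) (mw_d2asm_x0 N))

/-- **[DIV-m]**: `J₀(N)(Q̄)` is `m`-divisible. -/
theorem mzs_dv_div (m : ℕ) (hm : m ≠ 0) (x : JZero N) : ∃ y : JZero N, m • y = x :=
  mzs_dv_asm_generic (modularFunctionFieldFull N) (gd_res_bar N) m hm (rt_isSepGen_jBar N)
    (mw_d2d_deg_inst N) (mw_d2d_link_inst N)
    (mzs_dv_desc (modularFunctionFieldFull N) (gd_res_bar N) (mw_d2asm_isSepGen_bar N)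
      (mw_d2asm_isSepGen_C N) m hm (mw_d2r_orb (modularFunctionFieldFull N) (mw_d2asm_x0 N))
      (mzs_dv_tors N m hm))
    (mzs_dv_gen_inst N m hm) x

/-- every class has an `r ^ k`-th root -/
theorem mzs_dv_div_pow (r k : ℕ) (hr : r ≠ 0) (x : JZero N) : ∃ y : JZero N, r ^ k • y = x :=
  mzs_dv_div N (r ^ k) (pow_ne_zero k hr) x

end inst

end Fermat.Agent.MZ

end
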