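/-
MAZUR / node (F-ASM) (helper15), part 1: the abstract descent-to-finiteness lemma.

`M` a finitely generated abelian group with an action of a commutative ring `R` (the anemic Hecke
algebra `ℤ[T_l]`), `𝔓` an ideal of `R` containing the prime `r`.  If for every `k` there are
`t_k ∈ 1 + 𝔓` and a subgroup `K_k ≤ M` of index `≤ C` (the kernel of `M → Sel_k`) with
`t_k K_k ⊆ r^k M` (Kummer injectivity), then some `t ∈ 1 + 𝔓` and some `j` have `r^j t M = 0`:
the `𝔓`-part of `M` is finite.  No completion, no localisation, no idempotent: Artin–Rees over `ℤ`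
and Nakayama (the determinant trick) only.
Prefix `mzs_`.
-/
import Mathlib

set_option autoImplicit false

namespace Fermat.Agent.MZ

open scoped Pointwise

/-- a subgroup of index `≤ C` (and `≠ 0`) contains `C ! • m` for every `m` -/
theorem mzs_factorial_smul_mem {M : Type*} [AddCommGroup M] (K : AddSubgroup M) (C : ℕ)
    (h0 : K.index ≠ 0) (hC : K.index ≤ C) (m : M) : C.factorial • m ∈ K := by
  have hdvd : K.index ∣ C.factorial := Nat.dvd_factorial (Nat.pos_of_ne_zero h0) hC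
  obtain ⟨e, he⟩ := hdvd
  rw [he, mul_comm, mul_nsmul]
  exact K.nsmul_index_mem _

/-- Artin–Rees over `ℤ`, in the form used below: for `N = D M` there is `k₁` such that every
element of `N` which is divisible by `r^(k₁+1)` in `M` is `r` times an element of `N`. -/
theorem mzs_artinRees {M : Type*} [AddCommGroup M] [Module.Finite ℤ M] (r D : ℕ) :
    ∃ k₁ : ℕ, ∀ m m' : M, D • m = r ^ (k₁ + 1) • m' → ∃ m'' : M, D • m = r • (D • m'') := by
  classical
  let N : Submodule ℤ M := (D : ℤ) • (⊤ : Submodule ℤ M)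
  obtain ⟨k₁, hk₁⟩ := Ideal.exists_pow_inf_eq_pow_smul (Ideal.span {(r : ℤ)}) N
  refine ⟨k₁, fun m m' hmm' => ?_⟩
  have hN : D • m ∈ N := by
    refine (Submodule.mem_smul_pointwise_iff_exists _ _ _).mpr ⟨m, Submodule.mem_top, ?_⟩
    rw [Nat.cast_smul_eq_nsmul]
  have hpow : D • m ∈ Ideal.span {(r : ℤ)} ^ (k₁ + 1) • (⊤ : Submodule ℤ M) := by
    rw [Ideal.span_singleton_pow, Submodule.ideal_span_singleton_smul]
    refine (Submodule.mem_smul_pointwise_iff_exists _ _ _).mpr ⟨m', Submodule.mem_top, ?_⟩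
    rw [hmm', ← Nat.cast_pow, Nat.cast_smul_eq_nsmul]
  have h1 := hk₁ (k₁ + 1) (Nat.le_succ k₁)
  have h2 : D • m ∈ Ideal.span {(r : ℤ)} ^ (k₁ + 1 - k₁) •
      (Ideal.span {(r : ℤ)} ^ k₁ • (⊤ : Submodule ℤ M) ⊓ N) := by
    rw [← h1]
    exact ⟨hpow, hN⟩
  rw [Nat.add_sub_cancel_left, pow_one, Submodule.ideal_span_singleton_smul] at h2
  obtain ⟨y, hy, hy'⟩ := (Submodule.mem_smul_pointwise_iff_exists _ _ _).mp h2
  obtain ⟨m'', -, hm''⟩ := (Submodule.mem_smul_pointwise_iff_exists _ _ _).mp hy.2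
  refine ⟨m'', ?_⟩
  rw [← hy', ← hm'', Nat.cast_smul_eq_nsmul, Nat.cast_smul_eq_nsmul]

/-- **(F-ASM), abstract core, `D`-form**: if for every `k` some `t_k ∈ 1 + 𝔓` maps `D M` into
`r^k M` (`D ≠ 0` fixed), then some `t ∈ 1 + 𝔓` and some `j` have `r^j t M = 0`. -/
theorem mzs_core {R M : Type*} [CommRing R] [AddCommGroup M] [Module R M] [Module.Finite ℤ M]
    (𝔓 : Ideal R) (r : ℕ) (hr : r.Prime) (hr𝔓 : (r : R) ∈ 𝔓) (D : ℕ) (hD0 : D ≠ 0)
    (h : ∀ k : ℕ, ∃ t : R, t - 1 ∈ 𝔓 ∧ ∀ m : M, ∃ m' : M, t • (D • m) = r ^ k • m') :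
    ∃ (t : R) (j : ℕ), t - 1 ∈ 𝔓 ∧ ∀ m : M, r ^ j • (t • m) = 0 := by
  classical
  obtain ⟨k₁, hk₁⟩ := mzs_artinRees (M := M) r D
  obtain ⟨t, ht, hK⟩ := h (k₁ + 1)
  -- the `R`-submodule `N = D M`
  let N : Submodule R M := LinearMap.range ((D : R) • (LinearMap.id : M →ₗ[R] M))
  have hmemN : ∀ x : M, x ∈ N ↔ ∃ m : M, D • m = x := by
    intro x
    constructor
    · rintro ⟨m, rfl⟩
      exact ⟨m, by simp [Nat.cast_smul_eq_nsmul]⟩
    · rintro ⟨m, rfl⟩
      exact ⟨m, by simp [Nat.cast_smul_eq_nsmul]⟩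
  have hfin : Module.Finite R M := Module.Finite.of_restrictScalars_finite ℤ R M
  have hNfg : N.FG := by
    have : Module.Finite R N := Module.Finite.range _
    exact Module.Finite.iff_fg.mp this
  -- `t N ⊆ r N`
  have htN : ∀ m : M, ∃ m'' : M, t • (D • m) = r • (D • m'') := by
    intro m
    obtain ⟨m', hm'⟩ := hK m
    have h1 : D • (t • m) = r ^ (k₁ + 1) • m' := by
      rw [← hm', smul_comm]
    obtain ⟨m'', hm''⟩ := hk₁ (t • m) m' h1
    exact ⟨m'', by rw [smul_comm, hm'']⟩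
  -- `N ≤ 𝔓 N`
  have hle : N ≤ 𝔓 • N := by
    intro x hx
    obtain ⟨m, rfl⟩ := (hmemN x).mp hx
    obtain ⟨m'', hm''⟩ := htN m
    have h1 : D • m = (r : R) • (D • m'') - (t - 1) • (D • m) := by
      rw [sub_smul, one_smul, hm'', Nat.cast_smul_eq_nsmul]
      abel
    rw [h1]
    exact Submodule.sub_mem _
      (Submodule.smul_mem_smul hr𝔓 ((hmemN _).mpr ⟨m'', rfl⟩))
      (Submodule.smul_mem_smul ht ((hmemN _).mpr ⟨m, rfl⟩))
  obtain ⟨t', ht', ht'N⟩ :=
    Submodule.exists_sub_one_mem_and_smul_eq_zero_of_fg_of_le_smul 𝔓 N hNfg hle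
  -- remove the prime-to-`r` part of `D`
  obtain ⟨j, D', hD', hDD'⟩ := Nat.exists_eq_pow_mul_and_not_dvd hD0 r hr.ne_one
  have hcop : IsCoprime (D' : ℤ) (r : ℤ) := by
    rw [Int.isCoprime_iff_gcd_eq_one, Int.gcd_natCast_natCast]
    exact (Nat.Coprime.symm ((Nat.Prime.coprime_iff_not_dvd hr).mpr hD'))
  obtain ⟨u, w, huw⟩ := hcop
  refine ⟨t' * ((u * (D' : ℤ) : ℤ) : R), j, ?_, ?_⟩
  · have h1 : t' * ((u * (D' : ℤ) : ℤ) : R) - 1 =
        (t' - 1) * ((u * (D' : ℤ) : ℤ) : R) - ((w : ℤ) : R) * (r : R) := by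
      have h2 : ((u * (D' : ℤ) : ℤ) : R) = 1 - ((w : ℤ) : R) * (r : R) := by
        have h3 : ((u * (D' : ℤ) + w * (r : ℤ) : ℤ) : R) = 1 := by rw [huw]; simp
        push_cast at h3 ⊢
        linear_combination h3
      rw [h2]
      ring
    rw [h1]
    exact 𝔓.sub_mem (𝔓.mul_mem_right _ ht') (𝔓.mul_mem_left _ hr𝔓)
  · intro m
    have h1 : r ^ j • ((t' * ((u * (D' : ℤ) : ℤ) : R)) • m) = t' • (D • (u • m)) := by
      rw [mul_smul, Int.cast_smul_eq_zsmul, hDD', mul_zsmul, mul_nsmul, natCast_zsmul]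
      rw [smul_comm (r ^ j) t', smul_comm (r ^ j) u]
      congr 1
      rw [smul_comm u (r ^ j), smul_comm u D', smul_comm (r ^ j) D']
    rw [h1]
    exact ht'N _ ((hmemN _).mpr ⟨u • m, rfl⟩)

/-- **(F-ASM), abstract core, index form**: kernels `K_k` of bounded index with `t_k K_k ⊆ r^k M`. -/
theorem mzs_main {R M : Type*} [CommRing R] [AddCommGroup M] [Module R M] [Module.Finite ℤ M]
    (𝔓 : Ideal R) (r : ℕ) (hr : r.Prime) (hr𝔓 : (r : R) ∈ 𝔓) (C : ℕ)
    (h : ∀ k : ℕ, ∃ (t : R) (K : AddSubgroup M), t - 1 ∈ 𝔓 ∧ K.index ≠ 0 ∧ K.index ≤ C ∧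
      ∀ m ∈ K, ∃ m' : M, t • m = r ^ k • m') :
    ∃ (t : R) (j : ℕ), t - 1 ∈ 𝔓 ∧ ∀ m : M, r ^ j • (t • m) = 0 := by
  refine mzs_core 𝔓 r hr hr𝔓 C.factorial (Nat.factorial_ne_zero C) fun k => ?_
  obtain ⟨t, K, ht, hK0, hKC, hK⟩ := h k
  exact ⟨t, ht, fun m => hK _ (mzs_factorial_smul_mem K C hK0 hKC m)⟩

/-- a map into a finite set whose fibres lie in cosets of `K` bounds the index of `K` -/
theorem mzs_index_le {A : Type*} [AddCommGroup A] (K : AddSubgroup A) {S : Type*} [Finite S]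
    (f : A → S) (hf : ∀ a b : A, f a = f b → a - b ∈ K) :
    K.index ≠ 0 ∧ K.index ≤ Nat.card S := by
  classical
  have hinj : Function.Injective (fun q : A ⧸ K => f q.out) := by
    intro q₁ q₂ h
    have h1 : q₁.out - q₂.out ∈ K := hf _ _ h
    rw [← QuotientAddGroup.out_eq' q₁, ← QuotientAddGroup.out_eq' q₂]
    exact (QuotientAddGroup.eq_iff_sub_mem).mpr h1
  have hfin : Finite (A ⧸ K) := Finite.of_injective _ hinj
  constructor
  · have : K.FiniteIndex := AddSubgroup.finiteIndex_of_finite_quotient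
    exact AddSubgroup.FiniteIndex.index_ne_zero
  · rw [AddSubgroup.index_eq_card]
    exact Nat.card_le_card_of_injective _ hinj

end Fermat.Agent.MZ
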