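/-
MAZUR / node (F-ASM) (helper15), part 2: the `𝔓`-primary part of a finite module and its projector.

`X` a FINITE module over a commutative ring `R`, `𝔓` any ideal.
* `mzs_prim 𝔓 X` : the `𝔓`-power torsion `{x | ∃ n, 𝔓^n x = 0}` (for `X = J[r^k]` and the Eisenstein
  ideal `𝔓 = (r, T_l - 1 - l)` this is `G_k = e_𝔓 J[r^k]`);
* `mzs_proj` : some `t ∈ 1 + 𝔓` acts on `X` as a projector onto `mzs_prim 𝔓 X`
  (Fitting decomposition for an ideal: stabilisation of `𝔓^n X` + Nakayama);  since `t ∈ R`, it commutes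
  with every additive endomorphism commuting with `R` (Galois action).
Prefix `mzs_`.
-/
import Mathlib

set_option autoImplicit false

namespace Fermat.Agent.MZ

/-- the `𝔓`-power torsion submodule -/
def mzs_prim {R : Type*} [CommRing R] (𝔓 : Ideal R) (X : Type*) [AddCommGroup X] [Module R X] :
    Submodule R X where
  carrier := {x | ∃ n : ℕ, ∀ a ∈ 𝔓 ^ n, a • x = 0}
  add_mem' := by
    rintro x y ⟨n, hn⟩ ⟨m, hm⟩
    refine ⟨n + m, fun a ha => ?_⟩
    rw [smul_add, hn a (Ideal.pow_le_pow_right (Nat.le_add_right n m) ha),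
      hm a (Ideal.pow_le_pow_right (Nat.le_add_left m n) ha), add_zero]
  zero_mem' := ⟨0, fun a _ => smul_zero a⟩
  smul_mem' := by
    rintro c x ⟨n, hn⟩
    exact ⟨n, fun a ha => by rw [smul_comm, hn a ha, smul_zero]⟩

theorem mzs_mem_prim {R : Type*} [CommRing R] (𝔓 : Ideal R) {X : Type*} [AddCommGroup X]
    [Module R X] (x : X) : x ∈ mzs_prim 𝔓 X ↔ ∃ n : ℕ, ∀ a ∈ 𝔓 ^ n, a • x = 0 := Iff.rfl

/-- the primary part is stable under every additive map commuting with `R` -/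
theorem mzs_prim_map {R : Type*} [CommRing R] (𝔓 : Ideal R) {X Y : Type*} [AddCommGroup X]
    [Module R X] [AddCommGroup Y] [Module R Y] (φ : X →+ Y) (hφ : ∀ (a : R) (x : X), φ (a • x) = a • φ x)
    {x : X} (hx : x ∈ mzs_prim 𝔓 X) : φ x ∈ mzs_prim 𝔓 Y := by
  obtain ⟨n, hn⟩ := hx
  exact ⟨n, fun a ha => by rw [← hφ, hn a ha, map_zero]⟩

/-- **Fitting decomposition for an ideal**: on a finite module some `t ∈ 1 + 𝔓` is a projector onto
the `𝔓`-primary part. -/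
theorem mzs_proj {R : Type*} [CommRing R] (𝔓 : Ideal R) (X : Type*) [AddCommGroup X] [Module R X]
    [Finite X] :
    ∃ t : R, t - 1 ∈ 𝔓 ∧ (∀ x ∈ mzs_prim 𝔓 X, t • x = x) ∧ ∀ x : X, t • x ∈ mzs_prim 𝔓 X := by
  classical
  -- stabilisation of `𝔓^n X`
  let f : ℕ →o (Submodule R X)ᵒᵈ :=
    { toFun := fun n => OrderDual.toDual (𝔓 ^ n • (⊤ : Submodule R X))
      monotone' := fun n m hnm => by
        show 𝔓 ^ m • (⊤ : Submodule R X) ≤ 𝔓 ^ n • (⊤ : Submodule R X)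
        exact Submodule.smul_mono_left (Ideal.pow_le_pow_right hnm) }
  obtain ⟨n₀, hn₀⟩ := IsArtinian.monotone_stabilizes f
  set Y : Submodule R X := 𝔓 ^ n₀ • (⊤ : Submodule R X) with hY
  have hYstab : 𝔓 • Y = Y := by
    have h1 : 𝔓 ^ (n₀ + 1) • (⊤ : Submodule R X) = 𝔓 ^ n₀ • (⊤ : Submodule R X) :=
      (congrArg OrderDual.ofDual (hn₀ (n₀ + 1) (Nat.le_succ n₀))).symm
    rw [hY, ← Submodule.mul_smul, ← pow_succ', h1]
  have hYfg : Y.FG := by
    have : Module.Finite R Y := Module.Finite.of_finite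
    exact Module.Finite.iff_fg.mp this
  obtain ⟨s, hs, hsY⟩ :=
    Submodule.exists_sub_one_mem_and_smul_eq_zero_of_fg_of_le_smul 𝔓 Y hYfg (le_of_eq hYstab.symm)
  set u : R := 1 - s with hu
  have hu𝔓 : u ∈ 𝔓 := by
    have : u = -(s - 1) := by rw [hu]; ring
    rw [this]
    exact 𝔓.neg_mem hs
  have huY : ∀ y ∈ Y, u • y = y := by
    intro y hy
    rw [hu, sub_smul, one_smul, hsY y hy, sub_zero]
  have hupowY : ∀ (n : ℕ), ∀ y ∈ Y, u ^ n • y = y := by
    intro n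
    induction n with
    | zero => intro y _; rw [pow_zero, one_smul]
    | succ n ih =>
      intro y hy
      rw [pow_succ, mul_smul, huY y hy, ih y hy]
  have hupow : ∀ n : ℕ, u ^ n ∈ 𝔓 ^ n := fun n => Ideal.pow_mem_pow hu𝔓 n
  -- `prim ∩ Y = 0`
  have hdisj : ∀ y ∈ Y, y ∈ mzs_prim 𝔓 X → y = 0 := by
    rintro y hy ⟨n, hn⟩
    rw [← hupowY n y hy]
    exact hn _ (hupow n)
  refine ⟨1 - u ^ (n₀ + 1), ?_, ?_, ?_⟩
  · have : 1 - u ^ (n₀ + 1) - 1 = -(u ^ (n₀ + 1)) := by ring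
    rw [this]
    exact 𝔓.neg_mem (Ideal.pow_le_self (Nat.succ_ne_zero n₀) (hupow (n₀ + 1)))
  · intro x hx
    have h1 : u ^ (n₀ + 1) • x ∈ Y := by
      rw [hY]
      exact Submodule.smul_mem_smul
        (Ideal.pow_le_pow_right (Nat.le_succ n₀) (hupow (n₀ + 1))) Submodule.mem_top
    have h2 : u ^ (n₀ + 1) • x = 0 :=
      hdisj _ h1 ((mzs_prim 𝔓 X).smul_mem _ hx)
    rw [sub_smul, one_smul, h2, sub_zero]
  · intro x
    refine ⟨n₀, fun a ha => ?_⟩
    have h1 : a • x ∈ Y := by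
      rw [hY]
      exact Submodule.smul_mem_smul ha Submodule.mem_top
    rw [smul_comm, sub_smul, one_smul, hupowY (n₀ + 1) _ h1, sub_self]

/-- a chosen projector `t ∈ 1 + 𝔓` onto the `𝔓`-primary part of a finite module -/
noncomputable def mzs_t {R : Type*} [CommRing R] (𝔓 : Ideal R) (X : Type*) [AddCommGroup X]
    [Module R X] [Finite X] : R :=
  Classical.choose (mzs_proj 𝔓 X)

theorem mzs_t_sub_one_mem {R : Type*} [CommRing R] (𝔓 : Ideal R) (X : Type*) [AddCommGroup X]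
    [Module R X] [Finite X] : mzs_t 𝔓 X - 1 ∈ 𝔓 :=
  (Classical.choose_spec (mzs_proj 𝔓 X)).1

theorem mzs_t_smul_of_mem {R : Type*} [CommRing R] (𝔓 : Ideal R) {X : Type*} [AddCommGroup X]
    [Module R X] [Finite X] {x : X} (hx : x ∈ mzs_prim 𝔓 X) : mzs_t 𝔓 X • x = x :=
  (Classical.choose_spec (mzs_proj 𝔓 X)).2.1 x hx

theorem mzs_t_smul_mem {R : Type*} [CommRing R] (𝔓 : Ideal R) {X : Type*} [AddCommGroup X]
    [Module R X] [Finite X] (x : X) : mzs_t 𝔓 X • x ∈ mzs_prim 𝔓 X :=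
  (Classical.choose_spec (mzs_proj 𝔓 X)).2.2 x

theorem mzs_t_idem {R : Type*} [CommRing R] (𝔓 : Ideal R) {X : Type*} [AddCommGroup X]
    [Module R X] [Finite X] (x : X) : mzs_t 𝔓 X • (mzs_t 𝔓 X • x) = mzs_t 𝔓 X • x :=
  mzs_t_smul_of_mem 𝔓 (mzs_t_smul_mem 𝔓 x)

end Fermat.Agent.MZ
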