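/-
MAZUR / node (F-ASM) (helper15), part 3: the abstract assembly
"the Kummer cocycles with values in `W_k = J[r^k][𝔓^∞]` fall into boundedly many classes"
⟹ "some `t ∈ 1 + 𝔓` and some `j` have `r^j t J^Γ = 0`".

Setting: a group `Γ` acting on an abelian group `J` (`J₀(p)(Q̄)`), a commutative ring `R` (the anemic
Hecke algebra, as a polynomial ring) acting on `J` and commuting with `Γ`; `M = J^Γ` finitely
generated; `J[r^k]` finite; rational points are `r^k`-divisible in `J`; `M' ≤ M` an `R`-stable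
subgroup containing `r^i M`.
The Selmer input is stated WITHOUT any cohomology vocabulary (`hsel`): for every `k` there is a map
`f` from `J` to a set with at most `C` elements such that two points `Q₁, Q₂` with `r^k Qᵢ ∈ M'`,
whose Kummer cocycles `σ ↦ σ Qᵢ - Qᵢ` take values in `W_k`, and with `f Q₁ = f Q₂`, have cohomologous
cocycles (`∃ g ∈ W_k, σ (Q₁ - Q₂) - (Q₁ - Q₂) = σ g - g`).
[Producer: `S := Sel_k ⊆ mzh_H1 Γ W_k`, `f Q := ` class of the cocycle; `|Sel_k| ≤ C`.]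
Prefix `mzs_`.
-/
import Mathlib
import Fermat.Agent.MZ.S.Nak
import Fermat.Agent.MZ.S.Proj

set_option autoImplicit false

universe u v w x

namespace Fermat.Agent.MZ

section Defs

variable (Γ : Type u) [Group Γ] (R : Type v) [CommRing R] (J : Type w) [AddCommGroup J]
  [DistribMulAction Γ J] [Module R J]

/-- the invariants `J^Γ` as an `R`-submodule (the actions commute) -/
def mzs_inv (hcomm : ∀ (σ : Γ) (a : R) (y : J), σ • (a • y) = a • (σ • y)) : Submodule R J where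
  carrier := {y | ∀ σ : Γ, σ • y = y}
  add_mem' := by
    intro a b ha hb σ
    rw [smul_add, ha σ, hb σ]
  zero_mem' := fun σ => smul_zero σ
  smul_mem' := by
    intro c y hy σ
    rw [hcomm, hy σ]

theorem mzs_mem_inv (hcomm : ∀ (σ : Γ) (a : R) (y : J), σ • (a • y) = a • (σ • y)) (y : J) :
    y ∈ mzs_inv Γ R J hcomm ↔ ∀ σ : Γ, σ • y = y := Iff.rfl

/-- the `n`-torsion `J[n]` as an `R`-submodule -/
def mzs_tors (n : ℕ) : Submodule R J where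
  carrier := {y | n • y = 0}
  add_mem' := by
    intro a b ha hb
    show n • (a + b) = 0
    rw [smul_add, ha, hb, add_zero]
  zero_mem' := smul_zero n
  smul_mem' := by
    intro c y hy
    show n • (c • y) = 0
    rw [smul_comm, hy, smul_zero]

theorem mzs_mem_tors (n : ℕ) (y : J) : y ∈ mzs_tors R J n ↔ n • y = 0 := Iff.rfl

/-- `W = J[n][𝔓^∞]`, the `𝔓`-primary part of the `n`-torsion -/
def mzs_W (𝔓 : Ideal R) (n : ℕ) : Submodule R J := mzs_tors R J n ⊓ mzs_prim 𝔓 J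

theorem mzs_mem_W (𝔓 : Ideal R) (n : ℕ) (y : J) :
    y ∈ mzs_W R J 𝔓 n ↔ n • y = 0 ∧ ∃ m : ℕ, ∀ a ∈ 𝔓 ^ m, a • y = 0 := Iff.rfl

end Defs

section Projector

variable {R : Type v} [CommRing R] {J : Type w} [AddCommGroup J] [Module R J]

/-- the projector of `Proj.lean` on `J[n]`, read in `J` -/
theorem mzs_exists_proj (𝔓 : Ideal R) (n : ℕ) [Finite ↥(mzs_tors R J n)] :
    ∃ t : R, t - 1 ∈ 𝔓 ∧ (∀ y : J, n • y = 0 → t • y ∈ mzs_W R J 𝔓 n) ∧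
      ∀ y ∈ mzs_W R J 𝔓 n, t • y = y := by
  refine ⟨mzs_t 𝔓 ↥(mzs_tors R J n), mzs_t_sub_one_mem 𝔓 _, ?_, ?_⟩
  · intro y hy
    obtain ⟨m, hm⟩ := mzs_t_smul_mem 𝔓 (⟨y, hy⟩ : ↥(mzs_tors R J n))
    refine ⟨?_, m, fun a ha => ?_⟩
    · show n • (mzs_t 𝔓 ↥(mzs_tors R J n) • y) = 0
      rw [smul_comm, hy, smul_zero]
    · exact congrArg Subtype.val (hm a ha)
  · rintro y ⟨hy, m, hm⟩
    have h1 : (⟨y, hy⟩ : ↥(mzs_tors R J n)) ∈ mzs_prim 𝔓 ↥(mzs_tors R J n) :=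
      ⟨m, fun a ha => Subtype.ext (hm a ha)⟩
    exact congrArg Subtype.val (mzs_t_smul_of_mem 𝔓 h1)

end Projector

/-- **(F-ASM), abstract assembly.** -/
theorem mzs_asm {Γ : Type u} [Group Γ] {R : Type v} [CommRing R] {J : Type w} [AddCommGroup J]
    [DistribMulAction Γ J] [Module R J]
    (hcomm : ∀ (σ : Γ) (a : R) (y : J), σ • (a • y) = a • (σ • y))
    (𝔓 : Ideal R) (r : ℕ) (hr : r.Prime) (hr𝔓 : (r : R) ∈ 𝔓)
    [Module.Finite ℤ ↥(mzs_inv Γ R J hcomm)]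
    (hfin : ∀ k : ℕ, Finite ↥(mzs_tors R J (r ^ k)))
    (hdiv : ∀ P : J, (∀ σ : Γ, σ • P = P) → ∀ k : ℕ, ∃ Q : J, r ^ k • Q = P)
    (M' : AddSubgroup J) (hM'R : ∀ (a : R), ∀ P ∈ M', a • P ∈ M')
    (i : ℕ) (hM'i : ∀ P : J, (∀ σ : Γ, σ • P = P) → r ^ i • P ∈ M')
    (C : ℕ)
    (hsel : ∀ k : ℕ, ∃ (S : Type x) (_ : Finite S) (f : J → S), Nat.card S ≤ C ∧
      ∀ Q₁ Q₂ : J, r ^ k • Q₁ ∈ M' → r ^ k • Q₂ ∈ M' →
        (∀ σ : Γ, σ • Q₁ - Q₁ ∈ mzs_W R J 𝔓 (r ^ k)) →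
        (∀ σ : Γ, σ • Q₂ - Q₂ ∈ mzs_W R J 𝔓 (r ^ k)) →
        f Q₁ = f Q₂ →
        ∃ g ∈ mzs_W R J 𝔓 (r ^ k), ∀ σ : Γ, σ • (Q₁ - Q₂) - (Q₁ - Q₂) = σ • g - g) :
    ∃ (t : R) (j : ℕ), t - 1 ∈ 𝔓 ∧ ∀ P : J, (∀ σ : Γ, σ • P = P) → r ^ j • (t • P) = 0 := by
  classical
  set M : Submodule R J := mzs_inv Γ R J hcomm with hM
  have hD0 : C.factorial * r ^ i ≠ 0 :=
    Nat.mul_ne_zero (Nat.factorial_ne_zero C) (pow_ne_zero i hr.ne_zero)
  obtain ⟨t, j, ht, htj⟩ := mzs_core (R := R) (M := ↥M) 𝔓 r hr hr𝔓 (C.factorial * r ^ i) hD0 (by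
    intro k
    have := hfin k
    obtain ⟨t, ht1, ht2, ht3⟩ := mzs_exists_proj (R := R) (J := J) 𝔓 (r ^ k)
    refine ⟨t, ht1, ?_⟩
    -- roots
    have hroot : ∀ P : ↥M, ∃ Q : J, r ^ k • Q = r ^ i • (P : J) := fun P =>
      hdiv (r ^ i • (P : J)) (fun σ => by rw [smul_comm, P.2 σ]) k
    choose Qf hQf using hroot
    obtain ⟨S, hS, f, hcard, hf⟩ := hsel k
    -- the kernel
    let K : AddSubgroup ↥M :=
      { carrier := {P | ∃ m' : ↥M, t • (r ^ i • P) = r ^ k • m'}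
        zero_mem' := ⟨0, by simp⟩
        add_mem' := by
          rintro a b ⟨ma, ha⟩ ⟨mb, hb⟩
          exact ⟨ma + mb, by rw [smul_add, smul_add, ha, hb, smul_add]⟩
        neg_mem' := by
          rintro a ⟨ma, ha⟩
          exact ⟨-ma, by rw [smul_neg, smul_neg, ha, smul_neg]⟩ }
    -- properties of the twisted roots
    have hQ1 : ∀ P : ↥M, r ^ k • (t • Qf P) = t • (r ^ i • (P : J)) := fun P => by
      rw [smul_comm, hQf]
    have hQ2 : ∀ P : ↥M, r ^ k • (t • Qf P) ∈ M' := fun P => by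
      rw [hQ1]
      exact hM'R t _ (hM'i _ P.2)
    have hQ3 : ∀ (P : ↥M) (σ : Γ), σ • (t • Qf P) - t • Qf P ∈ mzs_W R J 𝔓 (r ^ k) := by
      intro P σ
      rw [hcomm, ← smul_sub]
      apply ht2
      rw [smul_sub, smul_comm, hQf, smul_comm, P.2 σ, sub_self]
    have hkey : ∀ P₁ P₂ : ↥M, f (t • Qf P₁) = f (t • Qf P₂) → P₁ - P₂ ∈ K := by
      intro P₁ P₂ h
      obtain ⟨g, hgW, hg⟩ := hf _ _ (hQ2 P₁) (hQ2 P₂) (hQ3 P₁) (hQ3 P₂) h
      have hginv : ∀ σ : Γ, σ • (t • Qf P₁ - t • Qf P₂ - g) = t • Qf P₁ - t • Qf P₂ - g := by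
        intro σ
        have h1 := hg σ
        rw [smul_sub σ (t • Qf P₁ - t • Qf P₂) g]
        have h2 : σ • (t • Qf P₁ - t • Qf P₂) =
            (t • Qf P₁ - t • Qf P₂) + (σ • g - g) := by
          rw [← h1]; abel
        rw [h2]; abel
      refine ⟨⟨t • Qf P₁ - t • Qf P₂ - g, hginv⟩, Subtype.ext ?_⟩
      show t • (r ^ i • ((P₁ : J) - (P₂ : J))) = r ^ k • (t • Qf P₁ - t • Qf P₂ - g)
      rw [smul_sub (r ^ k), smul_sub (r ^ k), hQ1, hQ1, hgW.1, sub_zero, smul_sub, smul_sub]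
    obtain ⟨hK0, hKS⟩ := mzs_index_le K (fun P : ↥M => f (t • Qf P)) hkey
    intro m
    obtain ⟨m', hm'⟩ := mzs_factorial_smul_mem K C hK0 (hKS.trans hcard) m
    exact ⟨m', by rw [mul_nsmul, hm']⟩)
  refine ⟨t, j, ht, fun P hP => ?_⟩
  exact congrArg Subtype.val (htj ⟨P, hP⟩)

end Fermat.Agent.MZ
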