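/-
MAZUR project, node (F-ASM), file `MZ/S/Comm.lean` (helper15, prefix `mzs_cm_`).

ABSTRACT [COMM-D].  `J` an abelian group with an action of a group `Γ`, `M := J^Γ` finitely
generated, `J` divisible, `κ : J →+ J` commuting with `Γ` and killing the torsion of `J`
(for us: `κ = [T_ℓ, T_ℓ']`).  Then `κ` vanishes on the DIVISION HULL
`D = {Q | ∃ n ≠ 0, n • Q ∈ M}` of `M`.

* `mzs_cm_divisible_eq_zero` : a divisible subgroup of a finitely generated abelian group is `0`;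
* `mzs_cm_hull` : the statement above.
-/
import Mathlib

set_option autoImplicit false
set_option linter.style.haveILetI false

namespace Fermat.Agent.MZ

/-- a divisible subgroup of a finitely generated abelian group is trivial -/
theorem mzs_cm_divisible_eq_zero {M : Type*} [AddCommGroup M] [Module.Finite ℤ M]
    (V : AddSubgroup M) (hdiv : ∀ n : ℕ, n ≠ 0 → ∀ v ∈ V, ∃ w ∈ V, n • w = v) :
    ∀ v ∈ V, v = 0 := by
  haveI : IsNoetherian ℤ M := isNoetherian_of_isNoetherianRing_of_finite ℤ M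
  let V' : Submodule ℤ M := AddSubgroup.toIntSubmodule V
  have hV' : ∀ x, x ∈ V' ↔ x ∈ V := fun x => Iff.rfl
  have hfg : V'.FG := IsNoetherian.noetherian V'
  have hle : V' ≤ (Ideal.span {(2 : ℤ)}) • V' := by
    intro v hv
    obtain ⟨w, hw, hwv⟩ := hdiv 2 (by norm_num) v ((hV' v).1 hv)
    have h2 : (2 : ℤ) • w ∈ (Ideal.span {(2 : ℤ)}) • V' :=
      Submodule.smul_mem_smul (Ideal.mem_span_singleton_self 2) ((hV' w).2 hw)
    have : (2 : ℤ) • w = v := by rw [← hwv]; norm_num [two_smul]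
    rwa [this] at h2
  obtain ⟨a, ha1, ha⟩ :=
    Submodule.exists_sub_one_mem_and_smul_eq_zero_of_fg_of_le_smul _ V' hfg hle
  have ha0 : a ≠ 0 := by
    rintro rfl
    rw [Ideal.mem_span_singleton] at ha1
    omega
  intro v hv
  obtain ⟨w, hw, hwv⟩ := hdiv a.natAbs (by simpa using ha0) v hv
  have h1 : a • w = 0 := ha w ((hV' w).2 hw)
  have h2 : (a.natAbs : ℤ) • w = 0 := by
    rcases Int.natAbs_eq a with h | h
    · rw [← h]; exact h1
    · have : ((a.natAbs : ℤ)) = -a := by omega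
      rw [this, neg_smul, h1, neg_zero]
  rw [← hwv, ← natCast_zsmul]
  exact h2

/-- **[COMM-D]**: an additive endomorphism commuting with `Γ` and killing the torsion vanishes on
the division hull of the (finitely generated) group of invariants of a divisible `Γ`-module -/
theorem mzs_cm_hull {Γ J : Type*} [Group Γ] [AddCommGroup J] [DistribMulAction Γ J]
    (κ : J →+ J) (hκΓ : ∀ (σ : Γ) (x : J), κ (σ • x) = σ • κ x)
    (hκt : ∀ n : ℕ, n ≠ 0 → ∀ x : J, n • x = 0 → κ x = 0)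
    (hdiv : ∀ n : ℕ, n ≠ 0 → ∀ x : J, ∃ y : J, n • y = x)
    (hfg : AddGroup.FG ↥(FixedPoints.addSubgroup Γ J))
    (Q : J) (n : ℕ) (hn : n ≠ 0) (hQ : ∀ σ : Γ, σ • (n • Q) = n • Q) : κ Q = 0 := by
  haveI : Module.Finite ℤ ↥(FixedPoints.addSubgroup Γ J) := Module.Finite.iff_addGroup_fg.2 hfg
  -- `κ` maps the hull into the invariants
  have hinv : ∀ (Q : J) (n : ℕ), n ≠ 0 → (∀ σ : Γ, σ • (n • Q) = n • Q) →
      κ Q ∈ FixedPoints.addSubgroup Γ J := by
    intro Q n hn hQ σ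
    have h0 : κ (σ • Q - Q) = 0 := by
      apply hκt n hn
      rw [smul_sub, ← smul_comm σ n Q, hQ σ, sub_self]
    rw [← hκΓ]
    have : σ • Q = Q + (σ • Q - Q) := by abel
    rw [this, map_add, h0, add_zero]
  -- the image of the hull, as a subgroup of the invariants
  let V : AddSubgroup ↥(FixedPoints.addSubgroup Γ J) :=
    { carrier := {v | ∃ (Q : J) (n : ℕ), n ≠ 0 ∧ (∀ σ : Γ, σ • (n • Q) = n • Q) ∧ κ Q = v.1}
      zero_mem' := ⟨0, 1, one_ne_zero, by simp, by simp⟩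
      add_mem' := by
        rintro v w ⟨Q₁, n₁, hn₁, hQ₁, hv⟩ ⟨Q₂, n₂, hn₂, hQ₂, hw⟩
        refine ⟨Q₁ + Q₂, n₁ * n₂, mul_ne_zero hn₁ hn₂, ?_, ?_⟩
        · intro σ
          have e1 : (n₁ * n₂) • Q₁ = n₂ • (n₁ • Q₁) := by rw [mul_comm, mul_smul]
          have e2 : (n₁ * n₂) • Q₂ = n₁ • (n₂ • Q₂) := by rw [mul_smul]
          rw [smul_add, e1, e2, smul_add, smul_comm σ n₂, hQ₁ σ, smul_comm σ n₁, hQ₂ σ]
        · rw [map_add, hv, hw]; rfl
      neg_mem' := by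
        rintro v ⟨Q, n, hn, hQ, hv⟩
        refine ⟨-Q, n, hn, ?_, ?_⟩
        · intro σ
          rw [smul_neg, smul_neg, hQ σ]
        · rw [map_neg, hv]; rfl }
  have hVdiv : ∀ m : ℕ, m ≠ 0 → ∀ v ∈ V, ∃ w ∈ V, m • w = v := by
    rintro m hm v ⟨Q, n, hn, hQ, hv⟩
    obtain ⟨Q', hQ'⟩ := hdiv m hm Q
    have hQ'' : ∀ σ : Γ, σ • ((n * m) • Q') = (n * m) • Q' := by
      intro σ
      rw [mul_smul, hQ']
      exact hQ σ
    refine ⟨⟨κ Q', hinv Q' (n * m) (mul_ne_zero hn hm) hQ''⟩,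
      ⟨Q', n * m, mul_ne_zero hn hm, hQ'', rfl⟩, ?_⟩
    apply Subtype.ext
    show m • κ Q' = v.1
    rw [← map_nsmul, hQ', hv]
  have h0 := mzs_cm_divisible_eq_zero V hVdiv ⟨κ Q, hinv Q n hn hQ⟩ ⟨Q, n, hn, hQ, rfl⟩
  exact congrArg Subtype.val h0

end Fermat.Agent.MZ
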