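/-
MAZUR project, node (F-ASM), file `MZ/S/PrimGen.lean` (helper15, prefix `mzs_pg_`).

The `𝔓`-primary part of a FINITE module, read on generators of `𝔓`:
for `𝔓 = Ideal.span G`, `x ∈ mzs_prim 𝔓 X ↔ ∀ u ∈ G, ∃ m, u ^ m • x = 0`
(each generator is locally nilpotent at `x`; `G` may be infinite).
-/
import Mathlib
import Fermat.Agent.MZ.S.Proj

set_option autoImplicit false
set_option linter.style.haveILetI false

namespace Fermat.Agent.MZ

theorem mzs_pg_mem_prim_iff {R : Type*} [CommRing R] (G : Set R) {X : Type*} [AddCommGroup X]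
    [Module R X] [Finite X] (x : X) :
    x ∈ mzs_prim (Ideal.span G) X ↔ ∀ u ∈ G, ∃ m : ℕ, u ^ m • x = 0 := by
  constructor
  · rintro ⟨n, hn⟩ u hu
    exact ⟨n, hn _ (Ideal.pow_mem_pow (Ideal.subset_span hu) n)⟩
  · intro h
    set 𝔓 : Ideal R := Ideal.span G with h𝔓
    -- the annihilator of `x`
    let A : Ideal R := LinearMap.ker (LinearMap.toSpanSingleton R X x)
    have hA : ∀ a : R, a ∈ A ↔ a • x = 0 := fun a => by
      show LinearMap.toSpanSingleton R X x a = 0 ↔ _
      rw [LinearMap.toSpanSingleton_apply]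
    have hle : 𝔓 ≤ A.radical := by
      rw [h𝔓, Ideal.span_le]
      intro u hu
      obtain ⟨m, hm⟩ := h u hu
      exact ⟨m, (hA _).2 hm⟩
    set t : R := mzs_t 𝔓 X with ht
    have he : 1 - t ∈ 𝔓 := by
      have := 𝔓.neg_mem (mzs_t_sub_one_mem 𝔓 X)
      rwa [neg_sub] at this
    obtain ⟨m, hm⟩ := hle he
    have hm' : (1 - t) ^ m • x = 0 := (hA _).1 hm
    -- `1 - t` is idempotent on `X`
    have hidem : ∀ y : X, (1 - t) • ((1 - t) • y) = (1 - t) • y := by
      intro y
      have h1 := mzs_t_idem 𝔓 y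
      rw [← ht] at h1
      simp only [sub_smul, one_smul, smul_sub, h1]
      abel
    have hpow : ∀ (k : ℕ) (y : X), (1 - t) ^ (k + 1) • y = (1 - t) • y := by
      intro k
      induction k with
      | zero => intro y; rw [zero_add, pow_one]
      | succ k ih =>
        intro y
        rw [pow_succ, mul_smul, ih, hidem]
    rcases m with _ | m
    · rw [pow_zero, one_smul] at hm'
      rw [hm']
      exact (mzs_prim 𝔓 X).zero_mem
    · rw [hpow] at hm'
      have hx : t • x = x := by
        rw [sub_smul, one_smul, sub_eq_zero] at hm'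
        exact hm'.symm
      rw [← hx]
      exact mzs_t_smul_mem 𝔓 x

end Fermat.Agent.MZ
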