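/-
MAZUR project, node (F-ASM), file `MZ/S/Hull.lean` (helper15, prefix `mzs_hl_`).

FROM THE ABSTRACT ASSEMBLY `mzs_asm` TO OPERATORS THAT ARE NOT KNOWN TO COMMUTE.

`J` an abelian group with an action of `Γ`, `T i : Module.End ℤ J` operators commuting with `Γ`
and commuting WITH EACH OTHER ONLY ON THE TORSION of `J`; `J` divisible, `M = J^Γ` finitely
generated.  Then the `T i` commute on the division hull `D` of `M` (`Comm.lean`), `D` is a module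
over `R = ℤ[X_i]`, and `mzs_asm` applied to `D` gives an element `t` of the (non-commutative)
ring generated by the `T i` with `t = 1 + r b` on simultaneous eigenvectors with eigenvalues `a i`
and `r ^ j • t P = 0` on `M`.

* `mzs_hl_W T a r k` : the elementary Eisenstein-primary part of `J[r^k]`:
  `{x | r^k • x = 0 ∧ ∀ i, ∃ m, (T i - a i)^m x = 0}`;
* `mzs_hl_transfer` : the statement for an abstract `R`-module `J'` embedded in `J`;
* `mzs_hl_exists_hull` : the hull `D` as such a `J'`;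
* `mzs_hl_main` : the statement with `J' := D` constructed;
* `mzs_hl_retract` : the `Γ`-equivariant retraction `J[r^k] → W_k` in the ring generated by the `T i`;
* `mzs_hl_W_gal`, `mzs_hl_W_hecke`, `mzs_hl_W_mono` : stability of `W_k`.
-/
import Mathlib
import Fermat.Agent.MZ.S.Asm
import Fermat.Agent.MZ.S.Comm
import Fermat.Agent.MZ.S.PrimGen

set_option autoImplicit false
set_option linter.style.haveILetI false

universe u v w w' x

namespace Fermat.Agent.MZ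

open MvPolynomial

section Defs

variable {J : Type w} [AddCommGroup J] {ι : Type v}

/-- `η_i = T_i - a_i` -/
def mzs_hl_eta (T : ι → Module.End ℤ J) (a : ι → ℤ) (i : ι) : Module.End ℤ J :=
  T i - algebraMap ℤ (Module.End ℤ J) (a i)

theorem mzs_hl_eta_apply (T : ι → Module.End ℤ J) (a : ι → ℤ) (i : ι) (x : J) :
    mzs_hl_eta T a i x = T i x - a i • x := by
  rw [mzs_hl_eta, LinearMap.sub_apply, Module.algebraMap_end_apply]

/-- the elementary Eisenstein-primary part of `J[r^k]` -/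
def mzs_hl_W (T : ι → Module.End ℤ J) (a : ι → ℤ) (r k : ℕ) : AddSubgroup J where
  carrier := {x | r ^ k • x = 0 ∧ ∀ i, ∃ m : ℕ, (mzs_hl_eta T a i ^ m) x = 0}
  zero_mem' := ⟨smul_zero _, fun i => ⟨0, map_zero _⟩⟩
  add_mem' := by
    rintro x y ⟨hx, hx'⟩ ⟨hy, hy'⟩
    refine ⟨by rw [smul_add, hx, hy, add_zero], fun i => ?_⟩
    obtain ⟨m, hm⟩ := hx' i
    obtain ⟨n, hn⟩ := hy' i
    refine ⟨n + m, ?_⟩
    rw [map_add]
    have h1 : (mzs_hl_eta T a i ^ (n + m)) x = 0 := by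
      rw [pow_add, Module.End.mul_apply, hm, map_zero]
    have h2 : (mzs_hl_eta T a i ^ (n + m)) y = 0 := by
      rw [add_comm, pow_add, Module.End.mul_apply, hn, map_zero]
    rw [h1, h2, add_zero]
  neg_mem' := by
    rintro x ⟨hx, hx'⟩
    refine ⟨by rw [smul_neg, hx, neg_zero], fun i => ?_⟩
    obtain ⟨m, hm⟩ := hx' i
    exact ⟨m, by rw [map_neg, hm, neg_zero]⟩

theorem mzs_hl_mem_W (T : ι → Module.End ℤ J) (a : ι → ℤ) (r k : ℕ) (x : J) :
    x ∈ mzs_hl_W T a r k ↔ r ^ k • x = 0 ∧ ∀ i, ∃ m : ℕ, (mzs_hl_eta T a i ^ m) x = 0 :=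
  Iff.rfl

/-- the Eisenstein prime `𝔓 = (r, X_i - a_i)` of `ℤ[X_i]` -/
noncomputable def mzs_hl_P (ι : Type v) (a : ι → ℤ) (r : ℕ) : Ideal (MvPolynomial ι ℤ) :=
  Ideal.span (insert (C (r : ℤ)) (Set.range fun i => (X i - C (a i) : MvPolynomial ι ℤ)))

theorem mzs_hl_r_mem (a : ι → ℤ) (r : ℕ) : ((r : ℕ) : MvPolynomial ι ℤ) ∈ mzs_hl_P ι a r := by
  have : ((r : ℕ) : MvPolynomial ι ℤ) = C (r : ℤ) := by simp
  rw [this]
  exact Ideal.subset_span (Set.mem_insert _ _)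

/-- evaluation at `a` sends `𝔓` into `(r)` -/
theorem mzs_hl_eval_mem (a : ι → ℤ) (r : ℕ) {f : MvPolynomial ι ℤ} (hf : f ∈ mzs_hl_P ι a r) :
    ∃ b : ℤ, eval a f = (r : ℤ) * b := by
  have hle : mzs_hl_P ι a r ≤ (Ideal.span {(r : ℤ)}).comap (eval a) := by
    rw [mzs_hl_P, Ideal.span_le]
    rintro g (rfl | ⟨i, rfl⟩)
    · show eval a (C (r : ℤ)) ∈ Ideal.span {(r : ℤ)}
      rw [eval_C]
      exact Ideal.mem_span_singleton_self _
    · show eval a (X i - C (a i)) ∈ Ideal.span {(r : ℤ)}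
      rw [map_sub, eval_X, eval_C, sub_self]
      exact Ideal.zero_mem _
  have := hle hf
  rw [Ideal.mem_comap, Ideal.mem_span_singleton] at this
  obtain ⟨b, hb⟩ := this
  exact ⟨b, hb⟩

end Defs

section Transfer

variable {Γ : Type u} [Group Γ] {J : Type w} [AddCommGroup J] [DistribMulAction Γ J] {ι : Type v}
  (T : ι → Module.End ℤ J) (a : ι → ℤ)
  {J' : Type w'} [AddCommGroup J'] [Module (MvPolynomial ι ℤ) J']
  (e : J' →+ J)
  (heX : ∀ (i : ι) (y : J'), e ((X i : MvPolynomial ι ℤ) • y) = T i (e y))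

theorem mzs_hl_C_smul (n : ℤ) (y : J') : (C n : MvPolynomial ι ℤ) • y = n • y := by
  have : (C n : MvPolynomial ι ℤ) = ((n : ℤ) : MvPolynomial ι ℤ) := by simp
  rw [this, Int.cast_smul_eq_zsmul]

include heX in
/-- every polynomial acts on `J'` through an element of the ring generated by the `T i` -/
theorem mzs_hl_lift (hTΓ : ∀ (i : ι) (σ : Γ) (x : J), T i (σ • x) = σ • T i x)
    (f : MvPolynomial ι ℤ) :
    ∃ t : Module.End ℤ J, t ∈ Algebra.adjoin ℤ (Set.range T) ∧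
      (∀ y : J', e (f • y) = t (e y)) ∧
      (∀ (σ : Γ) (x : J), t (σ • x) = σ • t x) ∧
      (∀ z : J, (∀ i, T i z = a i • z) → t z = eval a f • z) := by
  induction f using MvPolynomial.induction_on with
  | C n =>
    refine ⟨algebraMap ℤ _ n, Subalgebra.algebraMap_mem _ n, fun y => ?_, fun σ x => ?_,
      fun z _ => ?_⟩
    · rw [mzs_hl_C_smul, map_zsmul, Module.algebraMap_end_apply]
    · rw [Module.algebraMap_end_apply, Module.algebraMap_end_apply, smul_comm]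
    · rw [Module.algebraMap_end_apply, eval_C]
  | add f g hf hg =>
    obtain ⟨t, ht, h1, h2, h3⟩ := hf
    obtain ⟨s, hs, k1, k2, k3⟩ := hg
    refine ⟨t + s, Subalgebra.add_mem _ ht hs, fun y => ?_, fun σ x => ?_, fun z hz => ?_⟩
    · rw [add_smul, map_add, h1, k1, LinearMap.add_apply]
    · rw [LinearMap.add_apply, LinearMap.add_apply, h2, k2, smul_add]
    · rw [LinearMap.add_apply, h3 z hz, k3 z hz, map_add, add_smul]
  | mul_X f i hf =>
    obtain ⟨t, ht, h1, h2, h3⟩ := hf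
    refine ⟨t * T i, Subalgebra.mul_mem _ ht (Algebra.subset_adjoin ⟨i, rfl⟩), fun y => ?_,
      fun σ x => ?_, fun z hz => ?_⟩
    · rw [mul_smul, h1, heX, Module.End.mul_apply]
    · rw [Module.End.mul_apply, Module.End.mul_apply, hTΓ, h2]
    · rw [Module.End.mul_apply, hz i, map_zsmul, h3 z hz, map_mul, eval_X, smul_smul, mul_comm]

include heX in
theorem mzs_hl_eta_pow (i : ι) (m : ℕ) (y : J') :
    e ((X i - C (a i) : MvPolynomial ι ℤ) ^ m • y) = (mzs_hl_eta T a i ^ m) (e y) := by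
  induction m generalizing y with
  | zero => simp
  | succ m ih =>
    rw [pow_succ, mul_smul, ih, pow_succ, Module.End.mul_apply, sub_smul, map_sub, heX,
      mzs_hl_C_smul, map_zsmul, mzs_hl_eta_apply]

include heX in
theorem mzs_hl_eta_smul (i : ι) (y : J') :
    e ((X i - C (a i) : MvPolynomial ι ℤ) • y) = mzs_hl_eta T a i (e y) := by
  have := mzs_hl_eta_pow T a e heX i 1 y
  rwa [pow_one, pow_one] at this

/-- the torsion of `J'` is finite when that of `J` is -/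
theorem mzs_hl_tors_finite (he : Function.Injective e) (n : ℕ) [Finite {x : J // n • x = 0}] :
    Finite ↥(mzs_tors (MvPolynomial ι ℤ) J' n) := by
  let ψ : ↥(mzs_tors (MvPolynomial ι ℤ) J' n) → {x : J // n • x = 0} :=
    fun y => ⟨e y.1, by rw [← map_nsmul, y.2, map_zero]⟩
  refine Finite.of_injective ψ ?_
  intro y z h
  have h1 : e y.1 = e z.1 := congrArg Subtype.val h
  exact Subtype.ext (he h1)

include heX in
/-- the ideal-theoretic and the elementary definitions of `W_k` agree -/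
theorem mzs_hl_W_iff (he : Function.Injective e) (r k : ℕ) [Finite {x : J // r ^ k • x = 0}]
    (y : J') :
    y ∈ mzs_W (MvPolynomial ι ℤ) J' (mzs_hl_P ι a r) (r ^ k) ↔ e y ∈ mzs_hl_W T a r k := by
  haveI := mzs_hl_tors_finite (ι := ι) e he (r ^ k)
  have htors : r ^ k • y = 0 ↔ r ^ k • e y = 0 := by
    rw [← map_nsmul]
    exact ⟨fun h => by rw [h, map_zero], fun h => he (by rw [h, map_zero])⟩
  constructor
  · rintro ⟨h1, n, hn⟩
    refine (mzs_hl_mem_W T a r k _).2 ⟨htors.1 h1, fun i => ⟨n, ?_⟩⟩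
    have hmem : (X i - C (a i) : MvPolynomial ι ℤ) ∈ mzs_hl_P ι a r :=
      Ideal.subset_span (Set.mem_insert_of_mem _ (Set.mem_range_self i))
    rw [← mzs_hl_eta_pow T a e heX, hn _ (Ideal.pow_mem_pow hmem n), map_zero]
  · rintro ⟨h1, h2⟩
    have hy : r ^ k • y = 0 := htors.2 h1
    refine ⟨hy, ?_⟩
    have h3 : (⟨y, hy⟩ : ↥(mzs_tors (MvPolynomial ι ℤ) J' (r ^ k))) ∈
        mzs_prim (mzs_hl_P ι a r) ↥(mzs_tors (MvPolynomial ι ℤ) J' (r ^ k)) := by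
      rw [mzs_hl_P, mzs_pg_mem_prim_iff]
      rintro u (rfl | ⟨i, rfl⟩)
      · refine ⟨k, Subtype.ext ?_⟩
        show (C (r : ℤ) : MvPolynomial ι ℤ) ^ k • y = 0
        rw [← map_pow, mzs_hl_C_smul, ← Nat.cast_pow, natCast_zsmul]
        exact hy
      · obtain ⟨m, hm⟩ := h2 i
        refine ⟨m, Subtype.ext ?_⟩
        show (X i - C (a i) : MvPolynomial ι ℤ) ^ m • y = 0
        apply he
        rw [mzs_hl_eta_pow T a e heX, hm, map_zero]
    obtain ⟨n, hn⟩ := h3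
    exact ⟨n, fun f hf => congrArg Subtype.val (hn f hf)⟩

include heX in
/-- **the retraction** `J[r^k] → W_k` inside the ring generated by the `T i` (transfer form) -/
theorem mzs_hl_retract_transfer (hTΓ : ∀ (i : ι) (σ : Γ) (x : J), T i (σ • x) = σ • T i x)
    (he : Function.Injective e) (r k : ℕ) [Finite {x : J // r ^ k • x = 0}]
    (hsat : ∀ x : J, r ^ k • x = 0 → ∃ y, e y = x) :
    ∃ t : Module.End ℤ J, t ∈ Algebra.adjoin ℤ (Set.range T) ∧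
      (∀ (σ : Γ) (x : J), t (σ • x) = σ • t x) ∧
      (∀ x : J, r ^ k • x = 0 → t x ∈ mzs_hl_W T a r k) ∧
      (∀ x ∈ mzs_hl_W T a r k, t x = x) ∧
      ∃ b : ℤ, ∀ z : J, (∀ i, T i z = a i • z) → t z = (1 + (r : ℤ) * b) • z := by
  haveI := mzs_hl_tors_finite (ι := ι) e he (r ^ k)
  obtain ⟨t, ht1, ht2, ht3⟩ :=
    mzs_exists_proj (R := MvPolynomial ι ℤ) (J := J') (mzs_hl_P ι a r) (r ^ k)
  obtain ⟨t', ht', h1, h2, h3⟩ := mzs_hl_lift (Γ := Γ) T a e heX hTΓ t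
  obtain ⟨b, hb⟩ := mzs_hl_eval_mem a r ht1
  refine ⟨t', ht', h2, fun x hx => ?_, fun x hx => ?_, b, fun z hz => ?_⟩
  · obtain ⟨y, rfl⟩ := hsat x hx
    rw [← h1]
    refine (mzs_hl_W_iff T a e heX he r k _).1 (ht2 y ?_)
    apply he
    rw [map_nsmul, hx, map_zero]
  · obtain ⟨y, rfl⟩ := hsat x hx.1
    rw [← h1, ht3 y ((mzs_hl_W_iff T a e heX he r k y).2 hx)]
  · rw [h3 z hz]
    congr 1
    rw [map_sub, map_one] at hb
    linarith

end Transfer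

/-- **the transfer**: `mzs_asm` on an `ℤ[X_i]`-module `J'` embedded in `J` -/
theorem mzs_hl_transfer
    {Γ : Type u} [Group Γ] {J : Type w} [AddCommGroup J] [DistribMulAction Γ J] {ι : Type v}
    (T : ι → Module.End ℤ J) (hTΓ : ∀ (i : ι) (σ : Γ) (x : J), T i (σ • x) = σ • T i x)
    (a : ι → ℤ) (r : ℕ) (hr : r.Prime)
    {J' : Type w'} [AddCommGroup J'] [DistribMulAction Γ J'] [Module (MvPolynomial ι ℤ) J']
    (e : J' →+ J) (he : Function.Injective e)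
    (heΓ : ∀ (σ : Γ) (y : J'), e (σ • y) = σ • e y)
    (heX : ∀ (i : ι) (y : J'), e ((X i : MvPolynomial ι ℤ) • y) = T i (e y))
    (hsat : ∀ (x : J) (n : ℕ), n ≠ 0 → (∀ σ : Γ, σ • (n • x) = n • x) → ∃ y, e y = x)
    (hfg : AddGroup.FG ↥(FixedPoints.addSubgroup Γ J))
    (hfin : ∀ k : ℕ, Finite {x : J // r ^ k • x = 0})
    (hdiv : ∀ P : J, (∀ σ : Γ, σ • P = P) → ∀ k : ℕ, ∃ Q : J, r ^ k • Q = P)
    (M' : AddSubgroup J) (hM'T : ∀ i, ∀ P ∈ M', T i P ∈ M')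
    (i₀ : ℕ) (hM'i : ∀ P : J, (∀ σ : Γ, σ • P = P) → r ^ i₀ • P ∈ M')
    (C₀ : ℕ)
    (hsel : ∀ k : ℕ, ∃ (S : Type x) (_ : Finite S) (f : J → S), Nat.card S ≤ C₀ ∧
      ∀ Q₁ Q₂ : J, r ^ k • Q₁ ∈ M' → r ^ k • Q₂ ∈ M' →
        (∀ σ : Γ, σ • Q₁ - Q₁ ∈ mzs_hl_W T a r k) →
        (∀ σ : Γ, σ • Q₂ - Q₂ ∈ mzs_hl_W T a r k) →
        f Q₁ = f Q₂ →
        ∃ g ∈ mzs_hl_W T a r k, ∀ σ : Γ, σ • (Q₁ - Q₂) - (Q₁ - Q₂) = σ • g - g) :
    ∃ (t : Module.End ℤ J) (j : ℕ) (b : ℤ), t ∈ Algebra.adjoin ℤ (Set.range T) ∧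
      (∀ z : J, (∀ i, T i z = a i • z) → t z = (1 + (r : ℤ) * b) • z) ∧
      ∀ P : J, (∀ σ : Γ, σ • P = P) → r ^ j • t P = 0 := by
  classical
  -- the two actions on `J'` commute
  have hcomm : ∀ (σ : Γ) (f : MvPolynomial ι ℤ) (y : J'), σ • (f • y) = f • (σ • y) := by
    intro σ f y
    obtain ⟨t, _, h1, h2, _⟩ := mzs_hl_lift (Γ := Γ) T a e heX hTΓ f
    apply he
    rw [heΓ, h1, h1, heΓ, h2]
  -- `M'` pulled back is stable
  have hM'R : ∀ (f : MvPolynomial ι ℤ), ∀ P ∈ M'.comap e, f • P ∈ M'.comap e := by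
    intro f
    induction f using MvPolynomial.induction_on with
    | C n =>
      intro P hP
      rw [mzs_hl_C_smul]
      exact (M'.comap e).zsmul_mem hP n
    | add f g hf hg =>
      intro P hP
      rw [add_smul]
      exact (M'.comap e).add_mem (hf P hP) (hg P hP)
    | mul_X f i hf =>
      intro P hP
      rw [mul_smul]
      apply hf
      show e ((X i : MvPolynomial ι ℤ) • P) ∈ M'
      rw [heX]
      exact hM'T i _ hP
  -- finiteness of the invariants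
  haveI : Module.Finite ℤ ↥(FixedPoints.addSubgroup Γ J) := Module.Finite.iff_addGroup_fg.2 hfg
  haveI : IsNoetherian ℤ ↥(FixedPoints.addSubgroup Γ J) :=
    isNoetherian_of_isNoetherianRing_of_finite ℤ _
  haveI : Module.Finite ℤ ↥(mzs_inv Γ (MvPolynomial ι ℤ) J' hcomm) := by
    let φ : ↥(mzs_inv Γ (MvPolynomial ι ℤ) J' hcomm) →+ ↥(FixedPoints.addSubgroup Γ J) :=
      { toFun := fun y => ⟨e y.1, fun σ => by rw [← heΓ, y.2 σ]⟩
        map_zero' := Subtype.ext (map_zero e)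
        map_add' := fun y z => Subtype.ext (map_add e y.1 z.1) }
    refine Module.Finite.of_injective φ.toIntLinearMap ?_
    intro y z h
    have h1 : e y.1 = e z.1 := congrArg Subtype.val h
    exact Subtype.ext (he h1)
  -- finiteness of the torsion
  have hfin' : ∀ k : ℕ, Finite ↥(mzs_tors (MvPolynomial ι ℤ) J' (r ^ k)) := fun k => by
    haveI := hfin k
    exact mzs_hl_tors_finite (ι := ι) e he (r ^ k)
  -- divisibility
  have hdiv' : ∀ P : J', (∀ σ : Γ, σ • P = P) → ∀ k : ℕ, ∃ Q : J', r ^ k • Q = P := by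
    intro P hP k
    have hP' : ∀ σ : Γ, σ • e P = e P := fun σ => by rw [← heΓ, hP σ]
    obtain ⟨Q₀, hQ₀⟩ := hdiv (e P) hP' k
    obtain ⟨y, hy⟩ := hsat Q₀ (r ^ k) (pow_ne_zero k hr.ne_zero) (fun σ => by rw [hQ₀, hP' σ])
    refine ⟨y, he ?_⟩
    rw [map_nsmul, hy, hQ₀]
  -- the two definitions of `W` agree
  have hW : ∀ (k : ℕ) (y : J'), y ∈ mzs_W (MvPolynomial ι ℤ) J' (mzs_hl_P ι a r) (r ^ k) ↔
      e y ∈ mzs_hl_W T a r k := fun k y => by
    haveI := hfin k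
    exact mzs_hl_W_iff T a e heX he r k y
  -- the Selmer seam
  have hsel' : ∀ k : ℕ, ∃ (S : Type x) (_ : Finite S) (f : J' → S), Nat.card S ≤ C₀ ∧
      ∀ Q₁ Q₂ : J', r ^ k • Q₁ ∈ M'.comap e → r ^ k • Q₂ ∈ M'.comap e →
        (∀ σ : Γ, σ • Q₁ - Q₁ ∈ mzs_W (MvPolynomial ι ℤ) J' (mzs_hl_P ι a r) (r ^ k)) →
        (∀ σ : Γ, σ • Q₂ - Q₂ ∈ mzs_W (MvPolynomial ι ℤ) J' (mzs_hl_P ι a r) (r ^ k)) →
        f Q₁ = f Q₂ →
        ∃ g ∈ mzs_W (MvPolynomial ι ℤ) J' (mzs_hl_P ι a r) (r ^ k),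
          ∀ σ : Γ, σ • (Q₁ - Q₂) - (Q₁ - Q₂) = σ • g - g := by
    intro k
    obtain ⟨S, hS, f, hcard, hf⟩ := hsel k
    refine ⟨S, hS, fun y => f (e y), hcard, ?_⟩
    intro Q₁ Q₂ h1 h2 h3 h4 h5
    have h1' : r ^ k • e Q₁ ∈ M' := by rw [← map_nsmul]; exact h1
    have h2' : r ^ k • e Q₂ ∈ M' := by rw [← map_nsmul]; exact h2
    have h3' : ∀ σ : Γ, σ • e Q₁ - e Q₁ ∈ mzs_hl_W T a r k := fun σ => by
      rw [← heΓ, ← map_sub]; exact (hW k _).1 (h3 σ)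
    have h4' : ∀ σ : Γ, σ • e Q₂ - e Q₂ ∈ mzs_hl_W T a r k := fun σ => by
      rw [← heΓ, ← map_sub]; exact (hW k _).1 (h4 σ)
    obtain ⟨g, hg, hg'⟩ := hf (e Q₁) (e Q₂) h1' h2' h3' h4' h5
    obtain ⟨g', rfl⟩ := hsat g (r ^ k) (pow_ne_zero k hr.ne_zero)
      (fun σ => by rw [hg.1, smul_zero])
    refine ⟨g', (hW k g').2 hg, fun σ => he ?_⟩
    rw [map_sub, heΓ, map_sub, map_sub, heΓ, hg' σ]
  obtain ⟨t, j, ht, htj⟩ := mzs_asm (Γ := Γ) (R := MvPolynomial ι ℤ) (J := J') hcomm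
    (mzs_hl_P ι a r) r hr (mzs_hl_r_mem a r) hfin' hdiv' (M'.comap e) hM'R i₀
    (fun P hP => by
      show e (r ^ i₀ • P) ∈ M'
      rw [map_nsmul]
      exact hM'i (e P) (fun σ => by rw [← heΓ, hP σ]))
    C₀ hsel'
  obtain ⟨t', ht', h1, _, h3⟩ := mzs_hl_lift (Γ := Γ) T a e heX hTΓ t
  obtain ⟨b, hb⟩ := mzs_hl_eval_mem a r ht
  refine ⟨t', j, b, ht', fun z hz => ?_, fun P hP => ?_⟩
  · rw [h3 z hz]
    congr 1
    rw [map_sub, map_one] at hb
    linarith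
  · obtain ⟨y, rfl⟩ := hsat P 1 one_ne_zero (fun σ => by rw [one_smul, hP σ])
    have hy : ∀ σ : Γ, σ • y = y := fun σ => he (by rw [heΓ, hP σ])
    rw [← h1, ← map_nsmul, htj y hy, map_zero]

open scoped IsMulCommutative in
/-- a commuting family in a `ℤ`-algebra extends to the polynomial ring -/
theorem mzs_hl_exists_rho {E : Type*} [Ring E] [Algebra ℤ E] {ι : Type*}
    (x : ι → E) (hcomm : ∀ i j, Commute (x i) (x j)) :
    ∃ ρ : MvPolynomial ι ℤ →+* E, ∀ i, ρ (X i) = x i := by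
  have hc : ∀ a ∈ Set.range x, ∀ b ∈ Set.range x, a * b = b * a := by
    rintro _ ⟨i, rfl⟩ _ ⟨j, rfl⟩
    exact (hcomm i j).eq
  have := Algebra.isMulCommutative_adjoin ℤ hc
  let ρ₀ := eval₂Hom (S₁ := Algebra.adjoin ℤ (Set.range x))
    (algebraMap ℤ (Algebra.adjoin ℤ (Set.range x)))
    (fun i => (⟨x i, Algebra.subset_adjoin ⟨i, rfl⟩⟩ : Algebra.adjoin ℤ (Set.range x)))
  refine ⟨((Algebra.adjoin ℤ (Set.range x)).val :
    Algebra.adjoin ℤ (Set.range x) →+* E).comp ρ₀, fun i => ?_⟩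
  simp [ρ₀]

/-- the division hull of the invariants: `{Q | ∃ n ≠ 0, n • Q ∈ J^Γ}` -/
def mzs_hl_D (Γ : Type u) [Group Γ] (J : Type w) [AddCommGroup J] [DistribMulAction Γ J] :
    Submodule ℤ J where
  carrier := {Q | ∃ n : ℕ, n ≠ 0 ∧ ∀ σ : Γ, σ • (n • Q) = n • Q}
  zero_mem' := ⟨1, one_ne_zero, fun σ => by rw [smul_zero, smul_zero]⟩
  add_mem' := by
    rintro Q₁ Q₂ ⟨n₁, hn₁, hQ₁⟩ ⟨n₂, hn₂, hQ₂⟩
    refine ⟨n₁ * n₂, mul_ne_zero hn₁ hn₂, fun σ => ?_⟩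
    have e1 : (n₁ * n₂) • Q₁ = n₂ • (n₁ • Q₁) := by rw [mul_comm, mul_smul]
    have e2 : (n₁ * n₂) • Q₂ = n₁ • (n₂ • Q₂) := by rw [mul_smul]
    rw [smul_add, e1, e2, smul_add, smul_comm σ n₂, hQ₁ σ, smul_comm σ n₁, hQ₂ σ]
  smul_mem' := by
    rintro c Q ⟨n, hn, hQ⟩
    refine ⟨n, hn, fun σ => ?_⟩
    rw [smul_comm n c Q, smul_comm σ c, hQ σ]

theorem mzs_hl_mem_D {Γ : Type u} [Group Γ] {J : Type w} [AddCommGroup J] [DistribMulAction Γ J]
    (Q : J) : Q ∈ mzs_hl_D Γ J ↔ ∃ n : ℕ, n ≠ 0 ∧ ∀ σ : Γ, σ • (n • Q) = n • Q := Iff.rfl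

/-- **the hull as a module**: under [COMM-D]'s hypotheses there is a `ℤ[X_i]`-module `J'` with a
`Γ`-action, embedded in `J` equivariantly, containing every `x` some nonzero multiple of which is
`Γ`-fixed. -/
theorem mzs_hl_exists_hull
    {Γ : Type u} [Group Γ] {J : Type w} [AddCommGroup J] [DistribMulAction Γ J] {ι : Type v}
    (T : ι → Module.End ℤ J) (hTΓ : ∀ (i : ι) (σ : Γ) (x : J), T i (σ • x) = σ • T i x)
    (hTt : ∀ (i j : ι) (n : ℕ), n ≠ 0 → ∀ x : J, n • x = 0 → T i (T j x) = T j (T i x))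
    (hdivJ : ∀ n : ℕ, n ≠ 0 → ∀ x : J, ∃ y : J, n • y = x)
    (hfg : AddGroup.FG ↥(FixedPoints.addSubgroup Γ J)) :
    ∃ (J' : Type w) (_ : AddCommGroup J') (_ : DistribMulAction Γ J')
      (_ : Module (MvPolynomial ι ℤ) J') (e : J' →+ J), Function.Injective e ∧
      (∀ (σ : Γ) (y : J'), e (σ • y) = σ • e y) ∧
      (∀ (i : ι) (y : J'), e ((X i : MvPolynomial ι ℤ) • y) = T i (e y)) ∧
      (∀ (x : J) (n : ℕ), n ≠ 0 → (∀ σ : Γ, σ • (n • x) = n • x) → ∃ y, e y = x) := by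
  classical
  set D : Submodule ℤ J := mzs_hl_D Γ J with hD
  have hDΓ : ∀ (σ : Γ) (Q : J), Q ∈ D → σ • Q ∈ D := by
    rintro σ Q ⟨n, hn, hQ⟩
    refine ⟨n, hn, fun τ => ?_⟩
    have h1 : n • σ • Q = n • Q := by rw [← smul_comm σ n Q, hQ σ]
    rw [h1, hQ τ]
  have hDT : ∀ i, ∀ Q ∈ D, T i Q ∈ D := by
    rintro i Q ⟨n, hn, hQ⟩
    refine ⟨n, hn, fun σ => ?_⟩
    rw [← map_nsmul, ← hTΓ, hQ σ]
  have hDcomm : ∀ i j, ∀ Q ∈ D, T i (T j Q) = T j (T i Q) := by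
    rintro i j Q ⟨n, hn, hQ⟩
    have h := mzs_cm_hull (Γ := Γ) ((T i * T j - T j * T i : Module.End ℤ J).toAddMonoidHom)
      (fun σ x => by
        show (T i * T j - T j * T i) (σ • x) = σ • (T i * T j - T j * T i) x
        simp only [LinearMap.sub_apply, Module.End.mul_apply, hTΓ, smul_sub])
      (fun m hm x hx => by
        show (T i * T j - T j * T i) x = 0
        rw [LinearMap.sub_apply, Module.End.mul_apply, Module.End.mul_apply,
          hTt i j m hm x hx, sub_self])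
      hdivJ hfg Q n hn hQ
    have h' : (T i * T j - T j * T i) Q = 0 := h
    rw [LinearMap.sub_apply, Module.End.mul_apply, Module.End.mul_apply, sub_eq_zero] at h'
    exact h'
  let actΓ : DistribMulAction Γ ↥D :=
    { smul := fun σ Q => ⟨σ • Q.1, hDΓ σ Q.1 Q.2⟩
      one_smul := fun Q => Subtype.ext (one_smul Γ Q.1)
      mul_smul := fun σ τ Q => Subtype.ext (mul_smul σ τ Q.1)
      smul_zero := fun σ => Subtype.ext (smul_zero σ)
      smul_add := fun σ P Q => Subtype.ext (smul_add σ P.1 Q.1) }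
  let T' : ι → Module.End ℤ ↥D := fun i => (T i).restrict (hDT i)
  have hT'comm : ∀ i j, Commute (T' i) (T' j) := by
    intro i j
    apply LinearMap.ext
    intro Q
    apply Subtype.ext
    exact hDcomm i j Q.1 Q.2
  obtain ⟨ρ, hρX⟩ := mzs_hl_exists_rho T' hT'comm
  let modR : Module (MvPolynomial ι ℤ) ↥D := Module.compHom ↥D ρ
  refine ⟨↥D, inferInstance, actΓ, modR, D.subtype.toAddMonoidHom, Subtype.val_injective,
    fun σ y => rfl, fun i y => ?_, fun x n hn hx => ⟨⟨x, n, hn, hx⟩, rfl⟩⟩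
  show (ρ (X i) y : ↥D).1 = T i y.1
  rw [hρX]
  rfl

/-- **(F-ASM), operators commuting only on the torsion.** -/
theorem mzs_hl_main
    {Γ : Type u} [Group Γ] {J : Type w} [AddCommGroup J] [DistribMulAction Γ J] {ι : Type v}
    (T : ι → Module.End ℤ J) (hTΓ : ∀ (i : ι) (σ : Γ) (x : J), T i (σ • x) = σ • T i x)
    (hTt : ∀ (i j : ι) (n : ℕ), n ≠ 0 → ∀ x : J, n • x = 0 → T i (T j x) = T j (T i x))
    (hdivJ : ∀ n : ℕ, n ≠ 0 → ∀ x : J, ∃ y : J, n • y = x)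
    (hfg : AddGroup.FG ↥(FixedPoints.addSubgroup Γ J))
    (a : ι → ℤ) (r : ℕ) (hr : r.Prime)
    (hfin : ∀ k : ℕ, Finite {x : J // r ^ k • x = 0})
    (M' : AddSubgroup J) (hM'T : ∀ i, ∀ P ∈ M', T i P ∈ M')
    (i₀ : ℕ) (hM'i : ∀ P : J, (∀ σ : Γ, σ • P = P) → r ^ i₀ • P ∈ M')
    (C₀ : ℕ)
    (hsel : ∀ k : ℕ, ∃ (S : Type x) (_ : Finite S) (f : J → S), Nat.card S ≤ C₀ ∧
      ∀ Q₁ Q₂ : J, r ^ k • Q₁ ∈ M' → r ^ k • Q₂ ∈ M' →
        (∀ σ : Γ, σ • Q₁ - Q₁ ∈ mzs_hl_W T a r k) →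
        (∀ σ : Γ, σ • Q₂ - Q₂ ∈ mzs_hl_W T a r k) →
        f Q₁ = f Q₂ →
        ∃ g ∈ mzs_hl_W T a r k, ∀ σ : Γ, σ • (Q₁ - Q₂) - (Q₁ - Q₂) = σ • g - g) :
    ∃ (t : Module.End ℤ J) (j : ℕ) (b : ℤ), t ∈ Algebra.adjoin ℤ (Set.range T) ∧
      (∀ z : J, (∀ i, T i z = a i • z) → t z = (1 + (r : ℤ) * b) • z) ∧
      ∀ P : J, (∀ σ : Γ, σ • P = P) → r ^ j • t P = 0 := by
  obtain ⟨J', i1, i2, i3, e, he, heΓ, heX, hsat⟩ := mzs_hl_exists_hull T hTΓ hTt hdivJ hfg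
  exact mzs_hl_transfer (J' := J') T hTΓ a r hr e he heΓ heX hsat
    hfg hfin (fun P _ k => hdivJ (r ^ k) (pow_ne_zero k hr.ne_zero) P) M' hM'T i₀ hM'i C₀ hsel

/-- **the Galois- and Hecke-equivariant retraction** `J[r^k] → W_k`, an element of the ring
generated by the `T i`, `≡ 1` modulo the Eisenstein prime. -/
theorem mzs_hl_retract
    {Γ : Type u} [Group Γ] {J : Type w} [AddCommGroup J] [DistribMulAction Γ J] {ι : Type v}
    (T : ι → Module.End ℤ J) (hTΓ : ∀ (i : ι) (σ : Γ) (x : J), T i (σ • x) = σ • T i x)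
    (hTt : ∀ (i j : ι) (n : ℕ), n ≠ 0 → ∀ x : J, n • x = 0 → T i (T j x) = T j (T i x))
    (hdivJ : ∀ n : ℕ, n ≠ 0 → ∀ x : J, ∃ y : J, n • y = x)
    (hfg : AddGroup.FG ↥(FixedPoints.addSubgroup Γ J))
    (a : ι → ℤ) (r : ℕ) (hr : r.Prime) (k : ℕ) [Finite {x : J // r ^ k • x = 0}] :
    ∃ t : Module.End ℤ J, t ∈ Algebra.adjoin ℤ (Set.range T) ∧
      (∀ (σ : Γ) (x : J), t (σ • x) = σ • t x) ∧
      (∀ x : J, r ^ k • x = 0 → t x ∈ mzs_hl_W T a r k) ∧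
      (∀ x ∈ mzs_hl_W T a r k, t x = x) ∧
      ∃ b : ℤ, ∀ z : J, (∀ i, T i z = a i • z) → t z = (1 + (r : ℤ) * b) • z := by
  obtain ⟨J', i1, i2, i3, e, he, heΓ, heX, hsat⟩ := mzs_hl_exists_hull T hTΓ hTt hdivJ hfg
  exact mzs_hl_retract_transfer (Γ := Γ) (J' := J') T a e heX hTΓ he r k
    (fun x hx => hsat x (r ^ k) (pow_ne_zero k hr.ne_zero) (fun σ => by rw [hx, smul_zero]))

/-! ### stability of `W_k` -/

section Stable

variable {Γ : Type u} [Group Γ] {J : Type w} [AddCommGroup J] [DistribMulAction Γ J] {ι : Type v}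
  (T : ι → Module.End ℤ J) (a : ι → ℤ)

theorem mzs_hl_W_le_tors {r k : ℕ} {x : J} (hx : x ∈ mzs_hl_W T a r k) : r ^ k • x = 0 := hx.1

theorem mzs_hl_eta_pow_gal (hTΓ : ∀ (i : ι) (σ : Γ) (x : J), T i (σ • x) = σ • T i x)
    (i : ι) (m : ℕ) (σ : Γ) (x : J) :
    (mzs_hl_eta T a i ^ m) (σ • x) = σ • (mzs_hl_eta T a i ^ m) x := by
  induction m generalizing x with
  | zero => simp
  | succ m ih =>
    rw [pow_succ, Module.End.mul_apply, Module.End.mul_apply, mzs_hl_eta_apply, hTΓ,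
      smul_comm (a i) σ x, ← smul_sub, ih, mzs_hl_eta_apply]

/-- `W_k` is `Γ`-stable -/
theorem mzs_hl_W_gal (hTΓ : ∀ (i : ι) (σ : Γ) (x : J), T i (σ • x) = σ • T i x)
    {r k : ℕ} (σ : Γ) {x : J} (hx : x ∈ mzs_hl_W T a r k) : σ • x ∈ mzs_hl_W T a r k := by
  refine ⟨by rw [smul_comm, hx.1, smul_zero], fun i => ?_⟩
  obtain ⟨m, hm⟩ := hx.2 i
  exact ⟨m, by rw [mzs_hl_eta_pow_gal T a hTΓ, hm, smul_zero]⟩

theorem mzs_hl_eta_pow_comm
    (hTt : ∀ (i j : ι) (n : ℕ), n ≠ 0 → ∀ x : J, n • x = 0 → T i (T j x) = T j (T i x))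
    (i j : ι) (n : ℕ) (hn : n ≠ 0) (m : ℕ) (x : J) (hx : n • x = 0) :
    (mzs_hl_eta T a i ^ m) (T j x) = T j ((mzs_hl_eta T a i ^ m) x) := by
  induction m generalizing x with
  | zero => simp
  | succ m ih =>
    have h1 : mzs_hl_eta T a i (T j x) = T j (mzs_hl_eta T a i x) := by
      rw [mzs_hl_eta_apply, mzs_hl_eta_apply, map_sub, map_zsmul, hTt i j n hn x hx]
    have h2 : n • mzs_hl_eta T a i x = 0 := by rw [← map_nsmul, hx, map_zero]
    rw [pow_succ, Module.End.mul_apply, Module.End.mul_apply, h1, ih _ h2]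

/-- `W_k` is stable under the `T j` -/
theorem mzs_hl_W_hecke
    (hTt : ∀ (i j : ι) (n : ℕ), n ≠ 0 → ∀ x : J, n • x = 0 → T i (T j x) = T j (T i x))
    {r k : ℕ} (hr : r ≠ 0) (j : ι) {x : J} (hx : x ∈ mzs_hl_W T a r k) :
    T j x ∈ mzs_hl_W T a r k := by
  refine ⟨by rw [← map_nsmul, hx.1, map_zero], fun i => ?_⟩
  obtain ⟨m, hm⟩ := hx.2 i
  exact ⟨m, by rw [mzs_hl_eta_pow_comm T a hTt i j (r ^ k) (pow_ne_zero k hr) m x hx.1, hm,
    map_zero]⟩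

theorem mzs_hl_W_mono {r k k' : ℕ} (h : k ≤ k') : mzs_hl_W T a r k ≤ mzs_hl_W T a r k' := by
  intro x hx
  refine ⟨?_, hx.2⟩
  obtain ⟨d, rfl⟩ := Nat.exists_eq_add_of_le h
  rw [pow_add, mul_comm, mul_smul, hx.1, smul_zero]

end Stable

end Fermat.Agent.MZ
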