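/-
MAZUR / (F-ASM), cell [COMM-D] input (i) (helper17, prefix `mzs_tc_`): THE HECKE OPERATORS AT PRIMES
NOT DIVIDING `N` COMMUTE ON THE WHOLE TORSION OF `J₀(N)(Q̄)`.

`mzs_tc_comm N ℓ ℓ' hℓ hℓ' hn hx : T_ℓ (T_ℓ' x) = T_ℓ' (T_ℓ x)` for `n • x = 0`, `n ≠ 0` ARBITRARY
(helper7's `mzf1i_hecke_comm` is the case `n = r ^ k`, via the Tate package).  Proof: the gateway
`gw_picEquiv N hn : Pic⁰[n] ≃+ Hom(H₁(X₀(N)), μ_n)` is Hecke equivariant (`gwh_picEquiv_heckeTorsion`)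
and the coset operators commute on characters (`t2k_T_comm`).
-/
import Mathlib
import Fermat.Agent.JT3.Gateway.HeckeEquiv
import Fermat.Agent.JT3.T2.Comm

set_option autoImplicit false
set_option linter.unusedSectionVars false
set_option linter.style.haveILetI false

noncomputable section

namespace Fermat.Agent.MZ

open ModularCurve AlgebraicCurve Fermat.Agent.JT3 Fermat.Agent.S24 Fermat.Agent.S24.Br
  CongruenceSubgroup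

variable (N : ℕ) [NeZero N]

/-- the coset operators commute on `gw_X N n` -/
theorem mzs_tc_TX_comm {ℓ ℓ' : ℕ} [Fact ℓ.Prime] [Fact ℓ'.Prime] (hℓ : ¬ ℓ ∣ N) (hℓ' : ¬ ℓ' ∣ N)
    (n : ℕ) (χ : gw_X N n) :
    gwh_TX N hℓ n (gwh_TX N hℓ' n χ) = gwh_TX N hℓ' n (gwh_TX N hℓ n χ) := by
  apply Subtype.ext
  rw [gwh_TX_coe, gwh_TX_coe, gwh_TX_coe, gwh_TX_coe]
  exact t2k_T_comm hℓ hℓ' _

/-- the Hecke operators commute on `Pic⁰(X₀(N))[n]` -/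
theorem mzs_tc_heckeTorsion_comm (ℓ ℓ' : Nat.Primes) (hℓ : ¬ (ℓ : ℕ) ∣ N) (hℓ' : ¬ (ℓ' : ℕ) ∣ N)
    {n : ℕ} (hn : n ≠ 0) (y : Pic0.torsion Kbar (Fbar N) n) :
    gwh_heckeTorsion N ℓ n (gwh_heckeTorsion N ℓ' n y) =
      gwh_heckeTorsion N ℓ' n (gwh_heckeTorsion N ℓ n y) := by
  haveI : Fact (ℓ : ℕ).Prime := ⟨ℓ.2⟩
  haveI : Fact (ℓ' : ℕ).Prime := ⟨ℓ'.2⟩
  apply (gw_picEquiv N hn).injective
  rw [gwh_picEquiv_heckeTorsion N hn ℓ hℓ, gwh_picEquiv_heckeTorsion N hn ℓ' hℓ',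
    gwh_picEquiv_heckeTorsion N hn ℓ' hℓ', gwh_picEquiv_heckeTorsion N hn ℓ hℓ]
  simp only [toMul_ofMul]
  rw [mzs_tc_TX_comm N hℓ hℓ' n]

/-- **[COMM-tors]**: `T_ℓ T_ℓ' = T_ℓ' T_ℓ` on every torsion class of `J₀(N)(Q̄)`. -/
theorem mzs_tc_comm (ℓ ℓ' : Nat.Primes) (hℓ : ¬ (ℓ : ℕ) ∣ N) (hℓ' : ¬ (ℓ' : ℕ) ∣ N)
    {n : ℕ} (hn : n ≠ 0) {x : JZero N} (hx : n • x = 0) :
    heckeOperatorBar N ℓ (heckeOperatorBar N ℓ' x) =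
      heckeOperatorBar N ℓ' (heckeOperatorBar N ℓ x) := by
  have hmem : x ∈ Pic0.torsion Kbar (Fbar N) n := by
    rw [Pic0.mem_torsion, natCast_zsmul]
    exact hx
  have h := mzs_tc_heckeTorsion_comm N ℓ ℓ' hℓ hℓ' hn ⟨x, hmem⟩
  have h' := congrArg (fun z : Pic0.torsion Kbar (Fbar N) n => (z : Pic0 Kbar (Fbar N))) h
  simpa only [gwh_heckeTorsion_coe] using h'

/-- the commutator of two Hecke operators kills the torsion of `J₀(N)(Q̄)` -/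
theorem mzs_tc_commutator (ℓ ℓ' : Nat.Primes) (hℓ : ¬ (ℓ : ℕ) ∣ N) (hℓ' : ¬ (ℓ' : ℕ) ∣ N)
    {n : ℕ} (hn : n ≠ 0) {x : JZero N} (hx : n • x = 0) :
    heckeOperatorBar N ℓ (heckeOperatorBar N ℓ' x) -
      heckeOperatorBar N ℓ' (heckeOperatorBar N ℓ x) = 0 :=
  sub_eq_zero.mpr (mzs_tc_comm N ℓ ℓ' hℓ hℓ' hn hx)

end Fermat.Agent.MZ

end
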