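/-
MAZUR project, node (F-ASM), file `MZ/S/Inst.lean` (helper15, prefix `mzs_in_`).

INSTANTIATION OF `mzs_hl_main` ON `J₀(p)(ℚ̄)`.

`S` a finite set of primes containing `p`; the Hecke operators used are the `T_ℓ`, `ℓ ∉ S`, with
Eisenstein eigenvalues `1 + ℓ`:

* `mzs_in_T p S`, `mzs_in_a S`, `mzs_in_W p r S k = J₀(p)[r^k]`'s Eisenstein-primary part
  `{x | r^k • x = 0 ∧ ∀ ℓ ∉ S, ∃ m, (T_ℓ - 1 - ℓ)^m x = 0}`;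
* `mzs_in_SEL p r` : THE REMAINING SEAM (the Selmer bound in cohomology-free form + the subgroup `M'`);
* `mzs_in_main` : `mzs_in_SEL p r S₀` ⟹ the conclusion of helper8's `(F*)` for every simultaneous
  Eisenstein eigenvector;
* `mzs_in_F` : `mzt_C_stmt C → (∀ p r S₀, …, mzs_in_SEL p r S₀) → mzt_F_stmt C`;
* `mzs_in_retract` : the retraction `J₀(p)[r^k] → W_k` in the Hecke ring.

Closed inputs used: `egh_comm` (Galois/Hecke commute), `mzs_tc_comm` (Hecke operators commute on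
the torsion), `mzs_dv_div` (divisibility), `mw_final_S17` (Mordell–Weil), `tj_finite`.
-/
import Mathlib
import Fermat.Agent.MZ.S.Hull
import Fermat.Agent.MZ.S.TorsComm
import Fermat.Agent.MZ.S.Div
import Fermat.Agent.MZ.Top.Seams
import Fermat.Agent.MW.Final
import Fermat.Agent.JT3.ES.GaloisHecke
import Fermat.Agent.JT3.Tate.JZeroLattice

set_option autoImplicit false
set_option linter.unusedSectionVars false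
set_option linter.style.haveILetI false

noncomputable section

namespace Fermat.Agent.MZ

open ModularCurve AlgebraicCurve Fermat.Agent.JT3

local notation "GQ" => (AlgebraicClosure ℚ ≃ₐ[ℚ] AlgebraicClosure ℚ)

variable (p : ℕ) [NeZero p]

/-- the Hecke operators `T_ℓ`, `ℓ ∉ S` -/
def mzs_in_T (S : Finset ℕ) : {ℓ : Nat.Primes // (ℓ : ℕ) ∉ S} → Module.End ℤ (JZero p) :=
  fun ℓ => heckeOperatorBar p ℓ.1

/-- the Eisenstein eigenvalues `1 + ℓ` -/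
def mzs_in_a (S : Finset ℕ) : {ℓ : Nat.Primes // (ℓ : ℕ) ∉ S} → ℤ :=
  fun ℓ => (1 : ℤ) + ((ℓ.1 : ℕ) : ℤ)

/-- `W_k`: the Eisenstein-primary part of `J₀(p)[r^k]` -/
def mzs_in_W (r : ℕ) (S : Finset ℕ) (k : ℕ) : AddSubgroup (JZero p) :=
  mzs_hl_W (mzs_in_T p S) (mzs_in_a S) r k

theorem mzs_in_mem_W (r : ℕ) (S : Finset ℕ) (k : ℕ) (x : JZero p) :
    x ∈ mzs_in_W p r S k ↔ r ^ k • x = 0 ∧ ∀ ℓ : {ℓ : Nat.Primes // (ℓ : ℕ) ∉ S},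
      ∃ m : ℕ, ((heckeOperatorBar p ℓ.1 - algebraMap ℤ (Module.End ℤ (JZero p))
        ((1 : ℤ) + ((ℓ.1 : ℕ) : ℤ))) ^ m) x = 0 := Iff.rfl

/-- **THE REMAINING SEAM of (F-ASM)**: a finite set `S ⊇ S₀ ∪ {p, r}` of excluded primes (the
producer may enlarge the given `S₀` at will), a Hecke-stable
subgroup `M'` containing `r^i₀ • J₀(p)(ℚ)`, and the Selmer bound: for every `k` the points `Q` with
`r^k • Q ∈ M'` whose Kummer cocycle takes values in `W_k` fall into at most `C₀` classes modulo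
coboundaries of `W_k`. -/
def mzs_in_SEL (r : ℕ) (S₀ : Finset ℕ) : Prop :=
  ∃ (S : Finset ℕ), S₀ ⊆ S ∧ p ∈ S ∧ r ∈ S ∧
  ∃ (M' : AddSubgroup (JZero p)),
    (∀ ℓ : Nat.Primes, (ℓ : ℕ) ∉ S → ∀ P ∈ M', heckeOperatorBar p ℓ P ∈ M') ∧
  ∃ (i₀ : ℕ), (∀ P : JZero p, (∀ σ : GQ, σ • P = P) → r ^ i₀ • P ∈ M') ∧
  ∃ (C₀ : ℕ), ∀ k : ℕ, ∃ (X : Type) (_ : Finite X) (f : JZero p → X), Nat.card X ≤ C₀ ∧
      ∀ Q₁ Q₂ : JZero p, r ^ k • Q₁ ∈ M' → r ^ k • Q₂ ∈ M' →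
        (∀ σ : GQ, σ • Q₁ - Q₁ ∈ mzs_in_W p r S k) →
        (∀ σ : GQ, σ • Q₂ - Q₂ ∈ mzs_in_W p r S k) →
        f Q₁ = f Q₂ →
        ∃ g ∈ mzs_in_W p r S k, ∀ σ : GQ, σ • (Q₁ - Q₂) - (Q₁ - Q₂) = σ • g - g

section Inputs

variable {p}

theorem mzs_in_not_dvd (hp : p.Prime) {S : Finset ℕ} (hpS : p ∈ S)
    (ℓ : {ℓ : Nat.Primes // (ℓ : ℕ) ∉ S}) : ¬ ((ℓ.1 : ℕ) ∣ p) := by
  intro h
  have : (ℓ.1 : ℕ) = p := (Nat.prime_dvd_prime_iff_eq ℓ.1.2 hp).1 h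
  exact ℓ.2 (this ▸ hpS)

theorem mzs_in_hTΓ (S : Finset ℕ) (ℓ : {ℓ : Nat.Primes // (ℓ : ℕ) ∉ S}) (σ : GQ) (x : JZero p) :
    mzs_in_T p S ℓ (σ • x) = σ • mzs_in_T p S ℓ x :=
  (egh_comm p ℓ.1 σ x).symm

theorem mzs_in_hTt (hp : p.Prime) {S : Finset ℕ} (hpS : p ∈ S)
    (ℓ ℓ' : {ℓ : Nat.Primes // (ℓ : ℕ) ∉ S}) (n : ℕ) (hn : n ≠ 0) (x : JZero p)
    (hx : n • x = 0) :
    mzs_in_T p S ℓ (mzs_in_T p S ℓ' x) = mzs_in_T p S ℓ' (mzs_in_T p S ℓ x) :=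
  mzs_tc_comm p ℓ.1 ℓ'.1 (mzs_in_not_dvd hp hpS ℓ) (mzs_in_not_dvd hp hpS ℓ') hn hx

theorem mzs_in_fin (r : ℕ) (hr : r.Prime) (k : ℕ) : Finite {x : JZero p // r ^ k • x = 0} :=
  haveI : Fact r.Prime := ⟨hr⟩
  tj_finite p r k

end Inputs

/-- **(F-ASM) on `J₀(p)`**: from the seam `mzs_in_SEL p r S₀` to `(F*)`, for every simultaneous
Eisenstein eigenvector `z` of the `T_ℓ`, `ℓ ∉ S₀`. -/
theorem mzs_in_main (hp : p.Prime) (hp5 : 5 ≤ p) (r : ℕ) (hr : r.Prime) (S₀ : Finset ℕ)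
    (hsel : mzs_in_SEL p r S₀) :
    ∃ (t : Module.End ℤ (JZero p)) (j : ℕ) (b : ℤ),
      t ∈ Algebra.adjoin ℤ (Set.range (mzs_in_T p S₀)) ∧
      (∀ z : JZero p, (∀ ℓ : Nat.Primes, (ℓ : ℕ) ∉ S₀ →
          heckeOperatorBar p ℓ z = ((1 : ℤ) + ((ℓ : ℕ) : ℤ)) • z) →
        t z = ((1 : ℤ) + (r : ℤ) * b) • z) ∧
      ∀ P : JZero p, (∀ σ : GQ, σ • P = P) → r ^ j • t P = 0 := by
  obtain ⟨S, hS₀, hpS, _, M', hM'T, i₀, hM'i, C₀, hs⟩ := hsel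
  obtain ⟨t, j, b, ht, htz, htP⟩ := mzs_hl_main (Γ := GQ) (mzs_in_T p S) (mzs_in_hTΓ S)
    (mzs_in_hTt hp hpS) (fun n hn x => mzs_dv_div p n hn x)
    (Fermat.Agent.MW.mw_final_S17 p hp hp5) (mzs_in_a S) r hr (mzs_in_fin r hr) M'
    (fun ℓ P hP => hM'T ℓ.1 ℓ.2 P hP) i₀ hM'i C₀ hs
  refine ⟨t, j, b, ?_, fun z hz => htz z (fun ℓ => ?_), htP⟩
  · refine Algebra.adjoin_mono ?_ ht
    rintro _ ⟨ℓ, rfl⟩
    exact ⟨⟨ℓ.1, fun h => ℓ.2 (hS₀ h)⟩, rfl⟩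
  · exact hz ℓ.1 (fun h => ℓ.2 (hS₀ h))

/-- **(F\*)** from the cuspidal seam and the Selmer seam. -/
theorem mzs_in_F (C : ∀ p : ℕ, mzt_Cusps p) (hC : mzt_C_stmt C)
    (hsel : ∀ (p : ℕ) [NeZero p], p.Prime → p ∉ ({2, 3, 5, 7, 13} : Finset ℕ) →
      ∀ r : ℕ, r.Prime → r ∣ p - 1 → ∀ S₀ : Finset ℕ, mzs_in_SEL p r S₀) :
    mzt_F_stmt C := by
  intro p _ hp hp' r hr hrc S₀
  obtain ⟨_, _, hT, hpc, _⟩ := hC p hp hp'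
  have hp5 : 5 ≤ p := by
    have h2 : p ≠ 2 := fun h => hp' (by rw [h]; decide)
    have h3 : p ≠ 3 := fun h => hp' (by rw [h]; decide)
    have h4 : p ≠ 4 := fun h => by rw [h] at hp; exact absurd hp (by decide)
    have := hp.two_le
    omega
  have hrp : r ∣ p - 1 := hrc.trans (addOrderOf_dvd_of_nsmul_eq_zero hpc)
  have hp1 : p - 1 ≠ 0 := by omega
  set S₁ : Finset ℕ := S₀ ∪ insert p (p - 1).primeFactors with hS₁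
  have hmem : ∀ ℓ : Nat.Primes, (ℓ : ℕ) ∉ S₁ →
      (ℓ : ℕ) ∉ S₀ ∧ (ℓ : ℕ) ≠ p ∧ ¬ (ℓ : ℕ) ∣ p - 1 := by
    intro ℓ hℓ
    rw [hS₁, Finset.mem_union, Finset.mem_insert, Nat.mem_primeFactors] at hℓ
    push_neg at hℓ
    refine ⟨hℓ.1, hℓ.2.1, fun h => ?_⟩
    exact hp1 (hℓ.2.2 ℓ.2 h)
  obtain ⟨t, j, b, ht, htz, htP⟩ := mzs_in_main p hp hp5 r hr S₁ (hsel p hp hp' r hr hrp S₁)
  refine ⟨t, j, b, ?_, htz _ (fun ℓ hℓ => hT ℓ (hmem ℓ hℓ).2.1 (hmem ℓ hℓ).2.2), htP⟩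
  refine Algebra.adjoin_mono ?_ ht
  rintro _ ⟨ℓ, rfl⟩
  exact ⟨⟨ℓ.1, (hmem ℓ.1 ℓ.2).2.1, (hmem ℓ.1 ℓ.2).1⟩, rfl⟩

/-- **the retraction** `J₀(p)[r^k] → W_k`: an element of the ring generated by the `T_ℓ`
(`ℓ ∉ S`), commuting with `G_ℚ`, mapping `J₀(p)[r^k]` into `W_k` and fixing `W_k` pointwise. -/
theorem mzs_in_retract (hp : p.Prime) (hp5 : 5 ≤ p) (r : ℕ) (hr : r.Prime) (S : Finset ℕ)
    (hpS : p ∈ S) (k : ℕ) :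
    ∃ t : Module.End ℤ (JZero p), t ∈ Algebra.adjoin ℤ (Set.range (mzs_in_T p S)) ∧
      (∀ (σ : GQ) (x : JZero p), t (σ • x) = σ • t x) ∧
      (∀ x : JZero p, r ^ k • x = 0 → t x ∈ mzs_in_W p r S k) ∧
      (∀ x ∈ mzs_in_W p r S k, t x = x) := by
  haveI := mzs_in_fin (p := p) r hr k
  obtain ⟨t, ht, h1, h2, h3, _⟩ := mzs_hl_retract (Γ := GQ) (mzs_in_T p S) (mzs_in_hTΓ S)
    (mzs_in_hTt hp hpS) (fun n hn x => mzs_dv_div p n hn x)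
    (Fermat.Agent.MW.mw_final_S17 p hp hp5) (mzs_in_a S) r hr k
  exact ⟨t, ht, h1, h2, h3⟩

/-- `W_k` is `G_ℚ`-stable -/
theorem mzs_in_W_gal (r : ℕ) (S : Finset ℕ) (k : ℕ) (σ : GQ) {x : JZero p}
    (hx : x ∈ mzs_in_W p r S k) : σ • x ∈ mzs_in_W p r S k :=
  mzs_hl_W_gal (mzs_in_T p S) (mzs_in_a S) (mzs_in_hTΓ S) σ hx

/-- `W_k` is stable under the `T_ℓ`, `ℓ ∉ S` -/
theorem mzs_in_W_hecke (hp : p.Prime) (r : ℕ) (hr : r ≠ 0) (S : Finset ℕ) (hpS : p ∈ S) (k : ℕ)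
    (ℓ : Nat.Primes) (hℓ : (ℓ : ℕ) ∉ S) {x : JZero p} (hx : x ∈ mzs_in_W p r S k) :
    heckeOperatorBar p ℓ x ∈ mzs_in_W p r S k :=
  mzs_hl_W_hecke (mzs_in_T p S) (mzs_in_a S) (mzs_in_hTt hp hpS) hr ⟨ℓ, hℓ⟩ hx

end Fermat.Agent.MZ
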