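/-
MAZUR project, node (F-ASM), file `MZ/S/Eis.lean` (helper15, prefix `mzs_ei_`).

`W_k = mzs_in_W p r S k` (the Eisenstein-primary part of `J₀(p)[r^k]`) IS A FINITE `𝔓`-PRIMARY
HECKE–GALOIS SUBMODULE in helper7's sense (`mzf1i_Eis`), hence by (F1) (`mzf1_main`) it has a
`G_ℚ`-stable series with graded pieces `ℤ/r` or `μ_r` (`mzf1_Series`).
-/
import Mathlib
import Fermat.Agent.MZ.S.Inst
import Fermat.Agent.MZ.F1.Final

set_option autoImplicit false
set_option linter.unusedSectionVars false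
set_option linter.style.haveILetI false

noncomputable section

namespace Fermat.Agent.MZ

open ModularCurve AlgebraicCurve Fermat.Agent.JT3

local notation "GQ" => (AlgebraicClosure ℚ ≃ₐ[ℚ] AlgebraicClosure ℚ)

variable (p : ℕ) [NeZero p]

theorem mzs_ei_eta_pow (S : Finset ℕ) (ℓ : Nat.Primes) (hℓ : (ℓ : ℕ) ∉ S) (m : ℕ) (x : JZero p) :
    (mzf1i_eta p ℓ ^ m) x = (mzs_hl_eta (mzs_in_T p S) (mzs_in_a S) ⟨ℓ, hℓ⟩ ^ m) x := by
  induction m generalizing x with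
  | zero => simp
  | succ m ih =>
    rw [pow_succ, pow_succ, Module.End.mul_apply]
    show (mzf1i_eta p ℓ ^ m) (mzf1i_eta p ℓ x) = _
    rw [ih, mzf1i_eta_apply, mzs_hl_eta_apply]
    congr 1

/-- `W_k` is a finite Eisenstein-primary Hecke–Galois submodule of `J₀(p)[r^∞]` -/
theorem mzs_ei_eis (hp : p.Prime) (r : ℕ) [hr : Fact r.Prime] (S : Finset ℕ) (hpS : p ∈ S)
    (k : ℕ) : mzf1i_Eis p r S (mzs_in_W p r S k) where
  fin := by
    haveI := mzs_in_fin (p := p) r hr.out k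
    let ψ : ↥(mzs_in_W p r S k) → {x : JZero p // r ^ k • x = 0} := fun x => ⟨x.1, x.2.1⟩
    refine Finite.of_injective ψ ?_
    intro x y h
    have h1 : (ψ x).1 = (ψ y).1 := congrArg Subtype.val h
    exact Subtype.ext h1
  tors := ⟨k, fun x hx => hx.1⟩
  gal := fun σ x hx => mzs_in_W_gal p r S k σ hx
  hecke := fun ℓ hℓ x hx => mzs_in_W_hecke p hp r hr.out.ne_zero S hpS k ℓ hℓ hx
  nil := fun ℓ hℓ x hx => by
    obtain ⟨m, hm⟩ := hx.2 ⟨ℓ, hℓ⟩
    exact ⟨m, by rw [mzs_ei_eta_pow p S ℓ hℓ m x]; exact hm⟩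

/-- **(F1) for `W_k`**: a `G_ℚ`-stable series with graded pieces `ℤ/r` or `μ_r` -/
theorem mzs_ei_series (hp : p.Prime) (r : ℕ) [hr : Fact r.Prime] (S : Finset ℕ) (hpS : p ∈ S)
    (hrS : r ∈ S) (k : ℕ) : mzf1_Series r (mzs_in_W p r S k) :=
  mzf1_main (fun _ hq hqp => ((Nat.prime_dvd_prime_iff_eq hq hp).1 hqp) ▸ hpS)
    (mzs_ei_eis p hp r S hpS k) hrS

end Fermat.Agent.MZ
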