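/-
MAZUR project, node (F-ASM), file `MZ/S/Flat.lean` (helper15, prefix `mzs_fl_`).

THE FLATNESS AT `r` OF THE KUMMER COCYCLES WITH VALUES IN `W_k` (condition (C4) of [F-DESC]).

[GEO] (`mzg_final`) gives, at a place `A ∣ r` and for a finite set `T` of points `Q` with `r^k Q` fixed
by the inertia group `I_A`, ONE order `H` on `G = J₀(p)[r^k]` for which all the Kummer cocycles
`σ ↦ σ Q - Q` are flat.  [HOPF] (`mzhp_seamQuot`) pushes it along the Galois-equivariant retraction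
`π = t_k : J₀(p)[r^k] → W_k` (`mzs_in_retract`): `mzo_pull π H` is an order on `W_k` and `π ∘ z_Q` is
flat for it; if `z_Q` takes values in `W_k` then `π ∘ z_Q = z_Q`.

* `mzs_fl_stable` : `W_k` is `G_ℚ`-stable (`mzh_Stable`), so `↥W_k` carries `mzh_subAction`;
* `mzs_fl_flat`   : the statement above.
-/
import Mathlib
import Fermat.Agent.MZ.S.Inst
import Fermat.Agent.MZ.Geo.Final
import Fermat.Agent.MZ.Hopf.Quot
import Fermat.Agent.MZ.H.Coh

set_option autoImplicit false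
set_option linter.unusedSectionVars false
set_option linter.style.haveILetI false
set_option synthInstance.maxHeartbeats 400000
set_option maxHeartbeats 1000000

noncomputable section

namespace Fermat.Agent.MZ

open ModularCurve AlgebraicCurve Fermat.Agent.JT3 Fermat.Agent.FF

local notation "GQ" => (AlgebraicClosure ℚ ≃ₐ[ℚ] AlgebraicClosure ℚ)

variable (p : ℕ) [NeZero p]

theorem mzs_fl_stable (r : ℕ) (S : Finset ℕ) (k : ℕ) : mzh_Stable GQ (mzs_in_W p r S k) :=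
  fun σ _ ha => mzs_in_W_gal p r S k σ ha

theorem mzs_fl_zsmul_iff (r k : ℕ) (x : JZero p) : ((r : ℤ) ^ k) • x = 0 ↔ r ^ k • x = 0 := by
  rw [← Nat.cast_pow, natCast_zsmul]

/-- **(C4)**: flatness at `r` of the `W_k`-valued Kummer cocycles, for the order induced on `W_k`
by the [GEO] order of `J₀(p)[r^k]` along the retraction. -/
theorem mzs_fl_flat (hp : p.Prime) (hp5 : 5 ≤ p) (r : ℕ) [hr : Fact r.Prime] (hrp : r ≠ p)
    (S : Finset ℕ) (hpS : p ∈ S) (k : ℕ)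
    (A : ValuationSubring ff_Qb) (hA : A.LiesOverPrime r)
    (T : Set (JZero p)) (hT : T.Finite)
    (hTfix : ∀ Q ∈ T, ∀ σ ∈ A.inertiaSubgroupIn ℚ, σ • (r ^ k • Q) = r ^ k • Q) :
    letI := mzh_subAction (mzs_in_W p r S k) (mzs_fl_stable p r S k)
    ∃ H : Subalgebra ↥(ffi_O A ↥(ffi_L A)) (↥(mzs_in_W p r S k) → ff_Qb),
      mzo_IsOrder A ↥(A.inertiaSubgroupIn ℚ) ↥(mzs_in_W p r S k) H ∧
      ∀ Q ∈ T, ∀ z : ↥(A.inertiaSubgroupIn ℚ) → ↥(mzs_in_W p r S k),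
        (∀ σ, ((z σ : ↥(mzs_in_W p r S k)) : JZero p) = (σ : GQ) • Q - Q) →
        mzo_Flat A ↥(A.inertiaSubgroupIn ℚ) H z := by
  letI actW := mzh_subAction (mzs_in_W p r S k) (mzs_fl_stable p r S k)
  have hrN : ¬ r ∣ p := fun h => hrp ((Nat.prime_dvd_prime_iff_eq hr.out hp).1 h)
  haveI := ff_finite_tors p r k
  haveI := mzg_ctx_dvr r A hA
  obtain ⟨t, _, htΓ, htW, htid⟩ := mzs_in_retract p hp hp5 r hr.out S hpS k
  -- the [GEO] order
  obtain ⟨H, hH, hflat⟩ := mzg_final p r hrN k A hA T hT (fun Q hQ σ hσ => by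
    have h := hTfix Q hQ σ hσ
    rw [← Nat.cast_pow, natCast_zsmul]
    exact h)
  -- the retraction as a map `G → W_k`
  let π : ↥(Submodule.torsionBy ℤ (JZero p) ((r : ℤ) ^ k)) →+ ↥(mzs_in_W p r S k) :=
    { toFun := fun x => ⟨t x.1, htW x.1 ((mzs_fl_zsmul_iff p r k x.1).1
        ((Submodule.mem_torsionBy_iff _ _).1 x.2))⟩
      map_zero' := Subtype.ext (map_zero t)
      map_add' := fun x y => Subtype.ext (map_add t x.1 y.1) }
  have hπsurj : Function.Surjective π := by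
    intro w
    have hw : (w : JZero p) ∈ Submodule.torsionBy ℤ (JZero p) ((r : ℤ) ^ k) := by
      rw [Submodule.mem_torsionBy_iff]
      exact (mzs_fl_zsmul_iff p r k w.1).2 w.2.1
    exact ⟨⟨w.1, hw⟩, Subtype.ext (htid w.1 w.2)⟩
  have hπeq : ∀ (σ : ↥(A.inertiaSubgroupIn ℚ))
      (x : ↥(Submodule.torsionBy ℤ (JZero p) ((r : ℤ) ^ k))), π (σ • x) = σ • π x := by
    intro σ x
    apply Subtype.ext
    exact htΓ (σ : GQ) x.1
  obtain ⟨hord, hpush⟩ := mzhp_seamQuot r ↥(ffi_O A ↥(ffi_L A)) ff_Qb A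
    ↥(A.inertiaSubgroupIn ℚ) (mzg_ctx r A hA)
    ↥(Submodule.torsionBy ℤ (JZero p) ((r : ℤ) ^ k)) ↥(mzs_in_W p r S k) π hπsurj hπeq H hH
  refine ⟨mzo_pull π H, hord, fun Q hQ z hz => ?_⟩
  -- the `G`-valued Kummer cocycle
  have hmem : ∀ σ : ↥(A.inertiaSubgroupIn ℚ),
      (σ : GQ) • Q - Q ∈ Submodule.torsionBy ℤ (JZero p) ((r : ℤ) ^ k) := by
    intro σ
    rw [Submodule.mem_torsionBy_iff, mzs_fl_zsmul_iff, nsmul_sub, smul_comm (r ^ k) (σ : GQ) Q,
      hTfix Q hQ σ σ.2, sub_self]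
  let z' : ↥(A.inertiaSubgroupIn ℚ) → ↥(Submodule.torsionBy ℤ (JZero p) ((r : ℤ) ^ k)) :=
    fun σ => ⟨(σ : GQ) • Q - Q, hmem σ⟩
  have hz'c : mzo_IsCocycle z' := by
    intro σ τ
    apply Subtype.ext
    show ((σ * τ : ↥(A.inertiaSubgroupIn ℚ)) : GQ) • Q - Q =
      ((σ : GQ) • Q - Q) + (σ : GQ) • ((τ : GQ) • Q - Q)
    rw [Subgroup.coe_mul, mul_smul, smul_sub]
    abel
  have hz'flat : mzo_Flat A ↥(A.inertiaSubgroupIn ℚ) H z' := hflat Q hQ z' (fun σ => rfl)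
  have hzz' : z = π ∘ z' := by
    funext σ
    apply Subtype.ext
    show (z σ : JZero p) = t ((σ : GQ) • Q - Q)
    rw [hz σ, htid]
    rw [← hz σ]
    exact (z σ).2
  rw [hzz']
  exact hpush z' hz'c hz'flat

end Fermat.Agent.MZ
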