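/-
MAZUR / (F-ASM) (helper17, prefix `mzs_ku_`): KUMMER CLASSES ARE UNRAMIFIED AT THE GOOD PRIMES, at
every level `m` (`MW/Unramified.lean` `mw_unr` is the case `m = 2`).

* `mzs_ku_unr`     : `p ∤ m N`, `σ ∈ I_P` (`P ∣ p`), `σ (m y) = m y`  ⟹  `σ y = y`
                     (`σ y - y` is `m`-torsion with zero reduction: node E + S18 + `egr_red_inertia`);
* `mzs_ku_unr_rat` : the Kummer cocycle `σ ↦ σ Q - Q` of a point `Q` with `m Q` rational vanishes on
                     the inertia groups at the primes `p ∤ m N`;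
* `mzs_ku_smooth`  : it vanishes on an open subgroup (`Gal(Q̄/K)`, `K` a number field).
-/
import Mathlib
import Fermat.Agent.MW.SeamsArith
import Fermat.Agent.MW.InputsJT3
import Fermat.Agent.JT3.ES.Torsion
import Fermat.Agent.JT3.Tate.Inputs

set_option autoImplicit false

noncomputable section

namespace Fermat.Agent.MZ

open ModularCurve AlgebraicCurve Fermat.Agent.JT3 Fermat.Agent.MW

/-- **[UNR] at level `m`.** -/
theorem mzs_ku_unr (N : ℕ) [NeZero N] (m p : ℕ) (hp : p.Prime) (hpm : ¬ p ∣ m) (hpN : ¬ p ∣ N)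
    (P : ValuationSubring (AlgebraicClosure ℚ)) (hP : P.LiesOverPrime p)
    (σ : AlgebraicClosure ℚ ≃ₐ[ℚ] AlgebraicClosure ℚ) (hσ : σ ∈ P.inertiaSubgroupIn ℚ)
    (y : JZero N) (hy : σ • (m • y) = m • y) : σ • y = y := by
  have h := tji_nodeE N p hp hpN P hP
  have hR := est_riemann_fbar N
  have h0 : σ • y - y = 0 := by
    refine tji_S18 N p hp hpN P hP h m hpm _ ?_ ?_
    · rw [nsmul_sub, smul_comm m σ y, hy, sub_self]
    · rw [map_sub, egr_red_inertia h hR σ hσ y, sub_self]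
  exact sub_eq_zero.mp h0

/-- the Kummer cocycle of a point `Q` with `m Q` rational vanishes on inertia at `p ∤ m N` -/
theorem mzs_ku_unr_rat (N : ℕ) [NeZero N] (m p : ℕ) (hp : p.Prime) (hpm : ¬ p ∣ m) (hpN : ¬ p ∣ N)
    (P : ValuationSubring (AlgebraicClosure ℚ)) (hP : P.LiesOverPrime p)
    (σ : AlgebraicClosure ℚ ≃ₐ[ℚ] AlgebraicClosure ℚ) (hσ : σ ∈ P.inertiaSubgroupIn ℚ)
    (Q : JZero N) (hQ : ∀ τ : AlgebraicClosure ℚ ≃ₐ[ℚ] AlgebraicClosure ℚ, τ • (m • Q) = m • Q) :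
    σ • Q - Q = 0 :=
  sub_eq_zero.mpr (mzs_ku_unr N m p hp hpm hpN P hP σ hσ Q (hQ σ))

/-- every Kummer cocycle vanishes on an open subgroup -/
theorem mzs_ku_smooth (N : ℕ) [NeZero N] (Q : JZero N) :
    ∃ K : IntermediateField ℚ (AlgebraicClosure ℚ), FiniteDimensional ℚ K ∧
      ∀ σ ∈ K.fixingSubgroup, σ • Q - Q = 0 := by
  obtain ⟨K, hK, h⟩ := mw_in_smooth N Q
  exact ⟨K, hK, fun σ hσ => sub_eq_zero.mpr (h σ hσ)⟩

end Fermat.Agent.MZ

end
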