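/-
MAZUR project, node (F-ASM), file `MZ/S/Local.lean` (helper15, prefix `mzs_lc_`).

THE LOCAL BEHAVIOUR AT `p` OF THE KUMMER COCYCLES WITH VALUES IN `W_k` (cocycle level).

* `mzs_lc_Fcoh p r S i₀ A` : the seam delivered by [MZ-F'] (helper14, (F'-coh) = `mzf3_ki_main`):
  `r^i₀` times every continuous `W_k`-valued cocycle of `G_ℚ` is a coboundary of `W_k` on the
  inertia group of the place `A ∣ p`;
* `mzs_lc_M' p r i₀ = r^i₀ • J₀(p)(ℚ)`, Hecke stable (`mzs_lc_M'_hecke`), contains `r^i₀ • J₀(p)(ℚ)`;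
* `mzs_lc_ip` : for `Q` with `r^k • Q ∈ M'` whose Kummer cocycle `σ ↦ σ Q - Q` takes values in `W_k`,
  the cocycle is a coboundary of `W_k` on the inertia group of `A`  (= condition (C3) of [F-DESC]);
* `mzs_lc_lc`, `mzs_lc_unr` : (C1), (C2) (from helper17's `mzs_ku_smooth`, `mzs_ku_unr_rat`).
-/
import Mathlib
import Fermat.Agent.MZ.S.Inst
import Fermat.Agent.MZ.S.KummerUnr

set_option autoImplicit false
set_option linter.unusedSectionVars false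
set_option linter.style.haveILetI false
set_option synthInstance.maxHeartbeats 400000
set_option maxHeartbeats 1000000

noncomputable section

namespace Fermat.Agent.MZ

open ModularCurve AlgebraicCurve Fermat.Agent.JT3

local notation "GQ" => (AlgebraicClosure ℚ ≃ₐ[ℚ] AlgebraicClosure ℚ)

variable (p : ℕ) [NeZero p]

/-- **(F'-coh)** [MZ-F']: `r^i₀` kills `H¹(I_p, W_k)`-restrictions of continuous global classes,
uniformly in `k`. -/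
def mzs_lc_Fcoh (r : ℕ) (S : Finset ℕ) (i₀ : ℕ)
    (A : ValuationSubring (AlgebraicClosure ℚ)) : Prop :=
  ∀ k : ℕ, ∀ c : GQ → JZero p, (∀ σ, c σ ∈ mzs_in_W p r S k) →
    (∀ σ τ : GQ, c (σ * τ) = c σ + σ • c τ) →
    (∃ K : IntermediateField ℚ (AlgebraicClosure ℚ), FiniteDimensional ℚ K ∧
      ∀ σ ∈ K.fixingSubgroup, c σ = 0) →
      ∃ g ∈ mzs_in_W p r S k, ∀ σ ∈ A.inertiaSubgroupIn ℚ, r ^ i₀ • c σ = σ • g - g

/-- `M' = r^i₀ • J₀(p)(ℚ)` -/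
def mzs_lc_M' (r i₀ : ℕ) : AddSubgroup (JZero p) :=
  (FixedPoints.addSubgroup GQ (JZero p)).map (nsmulAddMonoidHom (r ^ i₀))

theorem mzs_lc_mem_M' (r i₀ : ℕ) (x : JZero p) :
    x ∈ mzs_lc_M' p r i₀ ↔ ∃ P : JZero p, (∀ σ : GQ, σ • P = P) ∧ r ^ i₀ • P = x := by
  constructor
  · rintro ⟨P, hP, rfl⟩
    exact ⟨P, hP, rfl⟩
  · rintro ⟨P, hP, rfl⟩
    exact ⟨P, hP, rfl⟩

theorem mzs_lc_M'_hecke (r i₀ : ℕ) (ℓ : Nat.Primes) {x : JZero p} (hx : x ∈ mzs_lc_M' p r i₀) :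
    heckeOperatorBar p ℓ x ∈ mzs_lc_M' p r i₀ := by
  obtain ⟨P, hP, rfl⟩ := (mzs_lc_mem_M' p r i₀ x).1 hx
  refine (mzs_lc_mem_M' p r i₀ _).2 ⟨heckeOperatorBar p ℓ P, fun σ => ?_, ?_⟩
  · rw [egh_comm, hP σ]
  · rw [map_nsmul]

theorem mzs_lc_M'_of_fixed (r i₀ : ℕ) (P : JZero p) (hP : ∀ σ : GQ, σ • P = P) :
    r ^ i₀ • P ∈ mzs_lc_M' p r i₀ :=
  (mzs_lc_mem_M' p r i₀ _).2 ⟨P, hP, rfl⟩

theorem mzs_lc_M'_fixed (r i₀ : ℕ) {x : JZero p} (hx : x ∈ mzs_lc_M' p r i₀) (σ : GQ) :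
    σ • x = x := by
  obtain ⟨P, hP, rfl⟩ := (mzs_lc_mem_M' p r i₀ x).1 hx
  rw [← smul_comm (r ^ i₀) σ P, hP σ]

/-- (C1): Kummer cocycles are locally constant -/
theorem mzs_lc_lc (Q : JZero p) :
    ∃ K : IntermediateField ℚ (AlgebraicClosure ℚ), FiniteDimensional ℚ K ∧
      ∀ σ ∈ K.fixingSubgroup, σ • Q - Q = 0 :=
  mzs_ku_smooth p Q

/-- (C2): Kummer cocycles of points with `r^k • Q` rational are unramified outside `p r` -/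
theorem mzs_lc_unr (hp : p.Prime) (r k : ℕ) (hr : r.Prime) (Q : JZero p)
    (hQ : ∀ τ : GQ, τ • (r ^ k • Q) = r ^ k • Q) (ℓ : ℕ) (hℓ : ℓ.Prime) (hℓp : ℓ ≠ p)
    (hℓr : ℓ ≠ r) (A : ValuationSubring (AlgebraicClosure ℚ)) (hA : A.LiesOverPrime ℓ)
    (σ : GQ) (hσ : σ ∈ A.inertiaSubgroupIn ℚ) : σ • Q - Q = 0 := by
  refine mzs_ku_unr_rat p (r ^ k) ℓ hℓ ?_ ?_ A hA σ hσ Q hQ
  · intro h
    exact hℓr ((Nat.prime_dvd_prime_iff_eq hℓ hr).1 (hℓ.dvd_of_dvd_pow h))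
  · intro h
    exact hℓp ((Nat.prime_dvd_prime_iff_eq hℓ hp).1 h)

/-- **(C3)**: the Kummer cocycle of `Q` (`r^k • Q ∈ M'`, values in `W_k`) is a coboundary of `W_k`
on the inertia groups at `p`. -/
theorem mzs_lc_ip (hp : p.Prime) (hp5 : 5 ≤ p) (r : ℕ) (hr : r.Prime) (S : Finset ℕ)
    (hpS : p ∈ S) (i₀ : ℕ) (A : ValuationSubring (AlgebraicClosure ℚ))
    (hF : mzs_lc_Fcoh p r S i₀ A) (k : ℕ) (Q : JZero p)
    (hQ : r ^ k • Q ∈ mzs_lc_M' p r i₀) (hQW : ∀ σ : GQ, σ • Q - Q ∈ mzs_in_W p r S k) :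
    ∃ g ∈ mzs_in_W p r S k, ∀ σ ∈ A.inertiaSubgroupIn ℚ, σ • Q - Q = σ • g - g := by
  obtain ⟨P, hP, hPQ⟩ := (mzs_lc_mem_M' p r i₀ _).1 hQ
  obtain ⟨Q', hQ'⟩ := mzs_dv_div p (r ^ k) (pow_ne_zero k hr.ne_zero) P
  obtain ⟨t, _, htΓ, htW, htid⟩ := mzs_in_retract p hp hp5 r hr S hpS k
  -- the `W_k`-valued Kummer cocycle of `t Q'`
  have htors' : ∀ σ : GQ, r ^ k • (σ • Q' - Q') = 0 := fun σ => by
    rw [nsmul_sub, smul_comm (r ^ k) σ Q', hQ', hP σ, sub_self]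
  have hc'W : ∀ σ : GQ, σ • t Q' - t Q' ∈ mzs_in_W p r S k := fun σ => by
    rw [← htΓ, ← map_sub]
    exact htW _ (htors' σ)
  obtain ⟨g₁, hg₁, hg₁'⟩ := hF k (fun σ => σ • t Q' - t Q') hc'W
    (fun σ τ => by rw [mul_smul, smul_sub]; abel) (mzs_lc_lc p (t Q'))
  -- the correction term
  set h : JZero p := r ^ i₀ • t Q' - t Q with hh
  have hhtors : r ^ k • h = 0 := by
    rw [hh, nsmul_sub, smul_comm (r ^ k) (r ^ i₀), ← map_nsmul, hQ', ← map_nsmul t (r ^ k) Q,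
      ← hPQ, map_nsmul, sub_self]
  have htQ : ∀ σ : GQ, σ • t Q - t Q = σ • Q - Q := fun σ => by
    rw [← htΓ, ← map_sub, htid _ (hQW σ)]
  have hdh : ∀ σ : GQ, σ • h - h = r ^ i₀ • (σ • t Q' - t Q') - (σ • Q - Q) := fun σ => by
    rw [hh, ← htQ σ, smul_sub, nsmul_sub, ← smul_comm (r ^ i₀) σ (t Q')]
    abel
  have hdhW : ∀ σ : GQ, σ • h - h ∈ mzs_in_W p r S k := fun σ => by
    rw [hdh σ]
    exact (mzs_in_W p r S k).sub_mem ((mzs_in_W p r S k).nsmul_mem (hc'W σ) _) (hQW σ)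
  have hth : ∀ σ : GQ, σ • t h - t h = σ • h - h := fun σ => by
    rw [← htΓ, ← map_sub, htid _ (hdhW σ)]
  refine ⟨g₁ - t h, (mzs_in_W p r S k).sub_mem hg₁ (htW h hhtors), fun σ hσ => ?_⟩
  have e1 := hg₁' σ hσ
  have e2 := hdh σ
  have e3 := hth σ
  rw [smul_sub, ← sub_eq_zero]
  have : σ • Q - Q = r ^ i₀ • (σ • t Q' - t Q') - (σ • h - h) := by rw [e2]; abel
  rw [this, e1, ← e3]
  abel

end Fermat.Agent.MZ
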