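/-
Project MAZUR (S15), node (F-ASM), cell [SEL-ADAPT] (helper17): the ADAPTER from the cohomological
Selmer bound of [F-DESC] (`Nat.card ↥L ≤ C` for a subgroup `L ≤ mzh_H1 Γ ↥W`) to the
cohomology-free seam `hsel` of `mzs_hl_main` / `mzs_in_SEL` (helper15).

`Γ` acts on `J`; `W ≤ J` is a `Γ`-stable subgroup (action `mzh_subAction`), `M' ≤ J`, `n : ℕ`.

* `mzs_sl_Q Γ W M' n : AddSubgroup J` = `{Q | n • Q ∈ M' ∧ ∀ σ, σ • Q - Q ∈ W}`;
* `mzs_sl_coc W hW Q hQ` : the Kummer cocycle `σ ↦ ⟨σ • Q - Q, _⟩` with values in `↥W`;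
* `mzs_sl_kappa W hW M' n : ↥(mzs_sl_Q Γ W M' n) →+ mzh_H1 Γ ↥W`, `mzs_sl_L := range`;
* `mzs_sl_adapter` : `Finite ↥L → Nat.card ↥L ≤ C → hsel`-shape (with the index type `S` in ANY
  universe);
* `mzs_sl_tors_finite`, `mzs_sl_C0`, `mzs_sl_card_H0_le` : the uniform constant
  `Nat.card (W^Γ) ≤ C₀ := #(torsion of J^Γ)` for every stable torsion `W`, finite when `J^Γ` is
  finitely generated;
* `mzs_sl_hsel` : the two combined.
Prefix `mzs_sl_`.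
-/
import Mathlib
import Fermat.Agent.MZ.H.Coh

set_option autoImplicit false
set_option linter.style.haveILetI false

namespace Fermat.Agent.MZ

universe u w x

section Defs

variable (Γ : Type u) [Group Γ] {J : Type w} [AddCommGroup J] [DistribMulAction Γ J]

/-- `𝒬 = {Q | n • Q ∈ M' ∧ ∀ σ, σ • Q - Q ∈ W}`. -/
def mzs_sl_Q (W M' : AddSubgroup J) (n : ℕ) : AddSubgroup J where
  carrier := {Q | n • Q ∈ M' ∧ ∀ σ : Γ, σ • Q - Q ∈ W}
  zero_mem' := by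
    refine ⟨?_, fun σ => ?_⟩
    · rw [nsmul_zero]
      exact M'.zero_mem
    · rw [smul_zero, sub_zero]
      exact W.zero_mem
  add_mem' := by
    rintro a b ⟨ha1, ha2⟩ ⟨hb1, hb2⟩
    refine ⟨?_, fun σ => ?_⟩
    · rw [nsmul_add]
      exact M'.add_mem ha1 hb1
    · have : σ • (a + b) - (a + b) = (σ • a - a) + (σ • b - b) := by
        rw [smul_add]
        abel
      rw [this]
      exact W.add_mem (ha2 σ) (hb2 σ)
  neg_mem' := by
    rintro a ⟨ha1, ha2⟩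
    refine ⟨?_, fun σ => ?_⟩
    · rw [neg_nsmul]
      exact M'.neg_mem ha1
    · have : σ • (-a) - (-a) = -(σ • a - a) := by
        rw [smul_neg]
        abel
      rw [this]
      exact W.neg_mem (ha2 σ)

theorem mzs_sl_mem_Q {W M' : AddSubgroup J} {n : ℕ} {Q : J} :
    Q ∈ mzs_sl_Q Γ W M' n ↔ n • Q ∈ M' ∧ ∀ σ : Γ, σ • Q - Q ∈ W := Iff.rfl

end Defs

section Kummer

variable {Γ : Type u} [Group Γ] {J : Type w} [AddCommGroup J] [DistribMulAction Γ J]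

/-- The Kummer cocycle `σ ↦ σ • Q - Q` of `Q`, as a cocycle with values in the stable subgroup
`W`. -/
def mzs_sl_coc (W : AddSubgroup J) (hW : mzh_Stable Γ W) (Q : J) (hQ : ∀ σ : Γ, σ • Q - Q ∈ W) :
    ↥(@mzh_Z1 Γ _ ↥W _ (mzh_subAction W hW)) :=
  letI := mzh_subAction W hW
  ⟨fun σ => ⟨σ • Q - Q, hQ σ⟩, by
    intro σ τ
    apply Subtype.ext
    show (σ * τ) • Q - Q = (σ • Q - Q) + σ • (τ • Q - Q)
    rw [mul_smul, smul_sub]
    abel⟩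

theorem mzs_sl_coc_apply (W : AddSubgroup J) (hW : mzh_Stable Γ W) (Q : J)
    (hQ : ∀ σ : Γ, σ • Q - Q ∈ W) (σ : Γ) :
    (((mzs_sl_coc W hW Q hQ : ↥(@mzh_Z1 Γ _ ↥W _ (mzh_subAction W hW))) : Γ → ↥W) σ : J) =
      σ • Q - Q := rfl

/-- The Kummer map `κ : 𝒬 →+ H¹(Γ, W)`. -/
def mzs_sl_kappa (W : AddSubgroup J) (hW : mzh_Stable Γ W) (M' : AddSubgroup J) (n : ℕ) :
    ↥(mzs_sl_Q Γ W M' n) →+ @mzh_H1 Γ _ ↥W _ (mzh_subAction W hW) :=
  letI := mzh_subAction W hW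
  { toFun := fun Q => mzh_cls Γ ↥W (mzs_sl_coc W hW Q.1 Q.2.2)
    map_zero' := by
      rw [← map_zero (mzh_cls Γ ↥W)]
      congr 1
      apply Subtype.ext
      funext σ
      apply Subtype.ext
      show σ • (0 : J) - 0 = 0
      rw [smul_zero, sub_zero]
    map_add' := by
      intro a b
      rw [← map_add (mzh_cls Γ ↥W)]
      congr 1
      apply Subtype.ext
      funext σ
      apply Subtype.ext
      show σ • ((a : J) + (b : J)) - ((a : J) + (b : J)) =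
        (σ • (a : J) - (a : J)) + (σ • (b : J) - (b : J))
      rw [smul_add]
      abel }

theorem mzs_sl_kappa_apply (W : AddSubgroup J) (hW : mzh_Stable Γ W) (M' : AddSubgroup J) (n : ℕ)
    (Q : ↥(mzs_sl_Q Γ W M' n)) :
    mzs_sl_kappa W hW M' n Q =
      @mzh_cls Γ _ ↥W _ (mzh_subAction W hW) (mzs_sl_coc W hW Q.1 Q.2.2) := rfl

/-- `L` = the image of the Kummer map: the subgroup of `H¹(Γ, W)` to which the Selmer bound of
[F-DESC] is applied. -/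
def mzs_sl_L (W : AddSubgroup J) (hW : mzh_Stable Γ W) (M' : AddSubgroup J) (n : ℕ) :
    AddSubgroup (@mzh_H1 Γ _ ↥W _ (mzh_subAction W hW)) :=
  (mzs_sl_kappa W hW M' n).range

theorem mzs_sl_kappa_mem_L (W : AddSubgroup J) (hW : mzh_Stable Γ W) (M' : AddSubgroup J) (n : ℕ)
    (Q : ↥(mzs_sl_Q Γ W M' n)) : mzs_sl_kappa W hW M' n Q ∈ mzs_sl_L W hW M' n :=
  ⟨Q, rfl⟩

theorem mzs_sl_mem_L (W : AddSubgroup J) (hW : mzh_Stable Γ W) (M' : AddSubgroup J) (n : ℕ)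
    (y : @mzh_H1 Γ _ ↥W _ (mzh_subAction W hW)) :
    y ∈ mzs_sl_L W hW M' n ↔ ∃ (Q : J) (_ : n • Q ∈ M') (hQ : ∀ σ : Γ, σ • Q - Q ∈ W),
      @mzh_cls Γ _ ↥W _ (mzh_subAction W hW) (mzs_sl_coc W hW Q hQ) = y := by
  constructor
  · rintro ⟨Q, rfl⟩
    exact ⟨Q.1, Q.2.1, Q.2.2, rfl⟩
  · rintro ⟨Q, h1, h2, rfl⟩
    exact ⟨⟨Q, h1, h2⟩, rfl⟩

/-- Two points of `𝒬` with the same Kummer class differ by a `W`-coboundary. -/
theorem mzs_sl_kappa_eq (W : AddSubgroup J) (hW : mzh_Stable Γ W) (M' : AddSubgroup J) (n : ℕ)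
    (Q₁ Q₂ : ↥(mzs_sl_Q Γ W M' n)) (h : mzs_sl_kappa W hW M' n Q₁ = mzs_sl_kappa W hW M' n Q₂) :
    ∃ g ∈ W, ∀ σ : Γ, σ • ((Q₁ : J) - (Q₂ : J)) - ((Q₁ : J) - (Q₂ : J)) = σ • g - g := by
  letI := mzh_subAction W hW
  rw [mzs_sl_kappa_apply, mzs_sl_kappa_apply, mzh_cls_eq_iff] at h
  obtain ⟨g, hg⟩ := h
  refine ⟨g.1, g.2, fun σ => ?_⟩
  have h1 := congrArg (Subtype.val) (hg σ)
  have h2 : σ • ((Q₁ : J) - (Q₂ : J)) - ((Q₁ : J) - (Q₂ : J)) =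
      (σ • (Q₁ : J) - (Q₁ : J)) - (σ • (Q₂ : J) - (Q₂ : J)) := by
    rw [smul_sub]
    abel
  rw [h2]
  exact h1

/-- **The adapter**: a bound `Nat.card ↥L ≤ C` on the image of the Kummer map gives the
cohomology-free Selmer seam of `mzs_hl_main` (the index type in any universe `x`). -/
theorem mzs_sl_adapter (W : AddSubgroup J) (hW : mzh_Stable Γ W) (M' : AddSubgroup J) (n : ℕ)
    (C : ℕ) (hfin : Finite ↥(mzs_sl_L W hW M' n)) (hC : Nat.card ↥(mzs_sl_L W hW M' n) ≤ C) :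
    ∃ (S : Type x) (_ : Finite S) (f : J → S), Nat.card S ≤ C ∧
      ∀ Q₁ Q₂ : J, n • Q₁ ∈ M' → n • Q₂ ∈ M' →
        (∀ σ : Γ, σ • Q₁ - Q₁ ∈ W) → (∀ σ : Γ, σ • Q₂ - Q₂ ∈ W) →
        f Q₁ = f Q₂ →
        ∃ g ∈ W, ∀ σ : Γ, σ • (Q₁ - Q₂) - (Q₁ - Q₂) = σ • g - g := by
  classical
  letI := mzh_subAction W hW
  haveI := hfin
  -- an equivalence of `L` with a small type in universe `x`
  obtain ⟨e⟩ : Nonempty (↥(mzs_sl_L W hW M' n) ≃ ULift.{x} (Fin (Nat.card ↥(mzs_sl_L W hW M' n)))) :=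
    ⟨(Finite.equivFin _).trans Equiv.ulift.symm⟩
  refine ⟨ULift.{x} (Fin (Nat.card ↥(mzs_sl_L W hW M' n))), inferInstance,
    fun Q => if h : Q ∈ mzs_sl_Q Γ W M' n then
      e ⟨mzs_sl_kappa W hW M' n ⟨Q, h⟩, mzs_sl_kappa_mem_L W hW M' n ⟨Q, h⟩⟩ else e 0, ?_, ?_⟩
  · rw [Nat.card_congr Equiv.ulift, Nat.card_fin]
    exact hC
  · intro Q₁ Q₂ h1 h2 h1' h2' hf
    have m1 : Q₁ ∈ mzs_sl_Q Γ W M' n := ⟨h1, h1'⟩
    have m2 : Q₂ ∈ mzs_sl_Q Γ W M' n := ⟨h2, h2'⟩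
    beta_reduce at hf
    rw [dif_pos m1, dif_pos m2] at hf
    have := e.injective hf
    have hk : mzs_sl_kappa W hW M' n ⟨Q₁, m1⟩ = mzs_sl_kappa W hW M' n ⟨Q₂, m2⟩ :=
      congrArg Subtype.val this
    exact mzs_sl_kappa_eq W hW M' n ⟨Q₁, m1⟩ ⟨Q₂, m2⟩ hk

end Kummer

section Constant

variable (Γ : Type u) [Group Γ] (J : Type w) [AddCommGroup J] [DistribMulAction Γ J]

/-- The rational torsion of `J` as an elementary subtype. -/
def mzs_sl_Tors : Type w :=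
  {x : J // (∀ σ : Γ, σ • x = x) ∧ ∃ n : ℕ, n ≠ 0 ∧ n • x = 0}

/-- The uniform constant `C₀ = #J(ℚ)_tors`. -/
noncomputable def mzs_sl_C0 : ℕ := Nat.card (mzs_sl_Tors Γ J)

variable {Γ J}

/-- If `J^Γ` is finitely generated, its torsion is finite. -/
theorem mzs_sl_tors_finite (hfg : AddGroup.FG ↥(FixedPoints.addSubgroup Γ J)) :
    Finite (mzs_sl_Tors Γ J) := by
  haveI : AddGroup.FG ↥(FixedPoints.addSubgroup Γ J) := hfg
  haveI : Module.Finite ℤ ↥(FixedPoints.addSubgroup Γ J) := Module.Finite.iff_addGroup_fg.mpr hfg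
  haveI : IsNoetherian ℤ ↥(FixedPoints.addSubgroup Γ J) := isNoetherian_of_isNoetherianRing_of_finite ℤ _
  -- the torsion submodule is finitely generated and torsion, hence finite
  have hfgT : (Submodule.torsion ℤ ↥(FixedPoints.addSubgroup Γ J)).FG := IsNoetherian.noetherian _
  haveI : Module.Finite ℤ ↥(Submodule.torsion ℤ ↥(FixedPoints.addSubgroup Γ J)) :=
    Module.Finite.iff_fg.mpr hfgT
  haveI : Finite ↥(Submodule.torsion ℤ ↥(FixedPoints.addSubgroup Γ J)) :=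
    Module.finite_of_fg_torsion _ (Submodule.torsion_isTorsion)
  refine Finite.of_injective
    (fun x : mzs_sl_Tors Γ J =>
      (⟨⟨x.1, fun σ => x.2.1 σ⟩, by
        obtain ⟨n, hn, hx⟩ := x.2.2
        rw [Submodule.mem_torsion_iff]
        refine ⟨⟨(n : ℤ), ?_⟩, ?_⟩
        · rw [mem_nonZeroDivisors_iff_ne_zero]
          exact_mod_cast hn
        · apply Subtype.ext
          show ((n : ℤ) • (⟨x.1, _⟩ : ↥(FixedPoints.addSubgroup Γ J)) : ↥(FixedPoints.addSubgroup Γ J)).1 = 0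
          rw [AddSubgroup.coe_zsmul, natCast_zsmul]
          exact hx⟩ : ↥(Submodule.torsion ℤ ↥(FixedPoints.addSubgroup Γ J)))) ?_
  intro a b hab
  apply Subtype.ext
  exact congrArg (fun z : ↥(Submodule.torsion ℤ ↥(FixedPoints.addSubgroup Γ J)) => (z.1.1 : J)) hab

theorem mzs_sl_C0_pos (hfg : AddGroup.FG ↥(FixedPoints.addSubgroup Γ J)) :
    0 < mzs_sl_C0 Γ J := by
  haveI := mzs_sl_tors_finite hfg
  haveI : Nonempty (mzs_sl_Tors Γ J) := ⟨⟨0, fun σ => smul_zero σ, 1, one_ne_zero, by simp⟩⟩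
  exact Nat.card_pos

/-- `#(W^Γ) ≤ C₀` for every stable torsion subgroup `W` (e.g. `W ≤ J[r^k]`). -/
theorem mzs_sl_card_H0_le (hfg : AddGroup.FG ↥(FixedPoints.addSubgroup Γ J))
    (W : AddSubgroup J) (hW : mzh_Stable Γ W) (htors : ∀ x ∈ W, ∃ n : ℕ, n ≠ 0 ∧ n • x = 0) :
    Nat.card ↥(@mzh_H0 Γ _ ↥W _ (mzh_subAction W hW)) ≤ mzs_sl_C0 Γ J := by
  letI := mzh_subAction W hW
  haveI := mzs_sl_tors_finite hfg
  refine Nat.card_le_card_of_injective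
    (fun a : ↥(mzh_H0 Γ ↥W) =>
      (⟨(a.1 : J), fun σ => congrArg Subtype.val (a.2 σ), htors _ a.1.2⟩ : mzs_sl_Tors Γ J)) ?_
  intro a b hab
  apply Subtype.ext
  apply Subtype.ext
  exact congrArg (fun z : mzs_sl_Tors Γ J => (z.1 : J)) hab

/-- **The seam `hsel` from a bound by the invariants**: if for a stable torsion `W` the image `L` of
the Kummer map is finite with `#L ≤ #(W^Γ)` (the conclusion of the Selmer bound [F-DESC] after
(F2)+(F3)), then the cohomology-free seam holds with the uniform constant `C₀ = #J(ℚ)_tors`. -/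
theorem mzs_sl_hsel (hfg : AddGroup.FG ↥(FixedPoints.addSubgroup Γ J))
    (W : AddSubgroup J) (hW : mzh_Stable Γ W) (htors : ∀ x ∈ W, ∃ n : ℕ, n ≠ 0 ∧ n • x = 0)
    (M' : AddSubgroup J) (n : ℕ)
    (hfin : Finite ↥(mzs_sl_L W hW M' n))
    (hcard : Nat.card ↥(mzs_sl_L W hW M' n) ≤
      Nat.card ↥(@mzh_H0 Γ _ ↥W _ (mzh_subAction W hW))) :
    ∃ (S : Type x) (_ : Finite S) (f : J → S), Nat.card S ≤ mzs_sl_C0 Γ J ∧
      ∀ Q₁ Q₂ : J, n • Q₁ ∈ M' → n • Q₂ ∈ M' →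
        (∀ σ : Γ, σ • Q₁ - Q₁ ∈ W) → (∀ σ : Γ, σ • Q₂ - Q₂ ∈ W) →
        f Q₁ = f Q₂ →
        ∃ g ∈ W, ∀ σ : Γ, σ • (Q₁ - Q₂) - (Q₁ - Q₂) = σ • g - g :=
  mzs_sl_adapter W hW M' n _ hfin (hcard.trans (mzs_sl_card_H0_le hfg W hW htors))

end Constant

end Fermat.Agent.MZ
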