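/-
MAZUR project, node (F-ASM), file `MZ/S/Kum.lean` (helper15, prefix `mzs_km_`).

THE KUMMER MAP WITH VALUES IN A SUBMODULE, abstractly.  `Γ` acts on `J`; `E` a `Γ`-module embedded
in `J` by an injective equivariant `ι : E →+ J` (for us `E = ↥W_k`, `ι` the inclusion, action
`mzh_subAction`); `M' ≤ J`, `n : ℕ`.

* `mzs_km_Q ι M' n`  : the subgroup `{Q | n • Q ∈ M' ∧ ∀ σ, σ • Q - Q ∈ range ι}` of `J`;
* `mzs_km_coc`, `mzs_km_kappa : ↥𝒬 →+ mzh_H1 Γ E` : the Kummer cocycle and its class;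
* `mzs_km_rep`       : every representative of `κ Q` is the Kummer cocycle of `Q + ι g`;
* `mzs_km_hsel`      : a bound on `κ.range` gives the cohomology-free Selmer seam of `mzs_asm`;
* `mzs_km_finite_of_bound` : `κ.range` is finite with at most `C` elements as soon as every FINITE
  subgroup of it has at most `C` elements (the classes are killed by `n`).
-/
import Mathlib
import Fermat.Agent.MZ.H.Coh

set_option autoImplicit false
set_option linter.unusedSectionVars false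
set_option linter.style.haveILetI false

universe u v w

namespace Fermat.Agent.MZ

section Kummer

variable {Γ : Type u} [Group Γ] {J : Type v} [AddCommGroup J] [DistribMulAction Γ J]
  {E : Type w} [AddCommGroup E] [DistribMulAction Γ E]
  (ι : E →+ J) (hι : Function.Injective ι) (hιΓ : ∀ (σ : Γ) (e : E), ι (σ • e) = σ • ι e)
  (M' : AddSubgroup J) (n : ℕ)

/-- the points `Q` with `n • Q ∈ M'` whose Kummer cocycle takes values in `ι E` -/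
def mzs_km_Q : AddSubgroup J where
  carrier := {Q | n • Q ∈ M' ∧ ∀ σ : Γ, ∃ e : E, ι e = σ • Q - Q}
  zero_mem' := ⟨by rw [smul_zero]; exact M'.zero_mem, fun σ => ⟨0, by simp⟩⟩
  add_mem' := by
    rintro Q₁ Q₂ ⟨h1, h1'⟩ ⟨h2, h2'⟩
    refine ⟨by rw [smul_add]; exact M'.add_mem h1 h2, fun σ => ?_⟩
    obtain ⟨e₁, he₁⟩ := h1' σ
    obtain ⟨e₂, he₂⟩ := h2' σ
    exact ⟨e₁ + e₂, by rw [map_add, he₁, he₂, smul_add]; abel⟩
  neg_mem' := by
    rintro Q ⟨h1, h1'⟩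
    refine ⟨by rw [smul_neg]; exact M'.neg_mem h1, fun σ => ?_⟩
    obtain ⟨e, he⟩ := h1' σ
    exact ⟨-e, by rw [map_neg, he, smul_neg]; abel⟩

theorem mzs_km_mem_Q (Q : J) :
    Q ∈ mzs_km_Q (Γ := Γ) ι M' n ↔ n • Q ∈ M' ∧ ∀ σ : Γ, ∃ e : E, ι e = σ • Q - Q := Iff.rfl

/-- the values of the Kummer cocycle, read in `E` -/
noncomputable def mzs_km_val (Q : ↥(mzs_km_Q (Γ := Γ) ι M' n)) (σ : Γ) : E :=
  Classical.choose (Q.2.2 σ)

theorem mzs_km_val_spec (Q : ↥(mzs_km_Q (Γ := Γ) ι M' n)) (σ : Γ) :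
    ι (mzs_km_val ι M' n Q σ) = σ • (Q : J) - Q :=
  Classical.choose_spec (Q.2.2 σ)

include hι hιΓ in
theorem mzs_km_val_mem_Z1 (Q : ↥(mzs_km_Q (Γ := Γ) ι M' n)) :
    mzs_km_val ι M' n Q ∈ mzh_Z1 Γ E := by
  intro σ τ
  apply hι
  rw [map_add, hιΓ, mzs_km_val_spec, mzs_km_val_spec, mzs_km_val_spec, mul_smul, smul_sub]
  abel

/-- the Kummer cocycle -/
noncomputable def mzs_km_coc (Q : ↥(mzs_km_Q (Γ := Γ) ι M' n)) : ↥(mzh_Z1 Γ E) :=
  ⟨mzs_km_val ι M' n Q, mzs_km_val_mem_Z1 ι hι hιΓ M' n Q⟩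

theorem mzs_km_coc_spec (Q : ↥(mzs_km_Q (Γ := Γ) ι M' n)) (σ : Γ) :
    ι ((mzs_km_coc ι hι hιΓ M' n Q : Γ → E) σ) = σ • (Q : J) - Q :=
  mzs_km_val_spec ι M' n Q σ

/-- the Kummer map `𝒬 → H¹(Γ, E)` -/
noncomputable def mzs_km_kappa : ↥(mzs_km_Q (Γ := Γ) ι M' n) →+ mzh_H1 Γ E :=
  (mzh_cls Γ E).comp
    { toFun := mzs_km_coc ι hι hιΓ M' n
      map_zero' := by
        apply Subtype.ext
        funext σ
        apply hι
        rw [mzs_km_coc_spec]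
        simp
      map_add' := fun Q₁ Q₂ => by
        apply Subtype.ext
        funext σ
        apply hι
        show ι ((mzs_km_coc ι hι hιΓ M' n (Q₁ + Q₂) : Γ → E) σ) =
          ι ((mzs_km_coc ι hι hιΓ M' n Q₁ : Γ → E) σ + (mzs_km_coc ι hι hιΓ M' n Q₂ : Γ → E) σ)
        rw [map_add, mzs_km_coc_spec, mzs_km_coc_spec, mzs_km_coc_spec]
        show σ • ((Q₁ : J) + (Q₂ : J)) - ((Q₁ : J) + (Q₂ : J)) = _
        rw [smul_add]
        abel }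

theorem mzs_km_kappa_apply (Q : ↥(mzs_km_Q (Γ := Γ) ι M' n)) :
    mzs_km_kappa ι hι hιΓ M' n Q = mzh_cls Γ E (mzs_km_coc ι hι hιΓ M' n Q) := rfl

/-- every representative of `κ Q` is the Kummer cocycle of `Q + ι g` -/
theorem mzs_km_rep (Q : ↥(mzs_km_Q (Γ := Γ) ι M' n)) (z : ↥(mzh_Z1 Γ E))
    (hz : mzh_cls Γ E z = mzs_km_kappa ι hι hιΓ M' n Q) :
    ∃ g : E, ∀ σ : Γ, ι ((z : Γ → E) σ) = σ • ((Q : J) + ι g) - ((Q : J) + ι g) := by
  rw [mzs_km_kappa_apply, mzh_cls_eq_iff] at hz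
  obtain ⟨a, ha⟩ := hz
  refine ⟨a, fun σ => ?_⟩
  have h1 : (z : Γ → E) σ = (mzs_km_coc ι hι hιΓ M' n Q : Γ → E) σ + (σ • a - a) := by
    rw [← ha σ]; abel
  rw [h1, map_add, mzs_km_coc_spec, map_sub, hιΓ, smul_add]
  abel

/-- `κ Q = 0` iff the Kummer cocycle of `Q` is a coboundary of `E` -/
theorem mzs_km_kappa_eq_zero_iff (Q : ↥(mzs_km_Q (Γ := Γ) ι M' n)) :
    mzs_km_kappa ι hι hιΓ M' n Q = 0 ↔ ∃ g : E, ∀ σ : Γ, σ • (Q : J) - Q = σ • ι g - ι g := by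
  rw [mzs_km_kappa_apply, mzh_cls_eq_zero_iff]
  constructor
  · rintro ⟨g, hg⟩
    exact ⟨g, fun σ => by rw [← mzs_km_coc_spec ι hι hιΓ M' n Q σ, hg σ, map_sub, hιΓ]⟩
  · rintro ⟨g, hg⟩
    refine ⟨g, fun σ => hι ?_⟩
    rw [mzs_km_coc_spec, hg σ, map_sub, hιΓ]

/-- **the adapter**: a bound on the image of the Kummer map gives the cohomology-free Selmer seam -/
theorem mzs_km_hsel (C : ℕ) (hfin : Finite ↥(mzs_km_kappa ι hι hιΓ M' n).range)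
    (hcard : Nat.card ↥(mzs_km_kappa ι hι hιΓ M' n).range ≤ C) :
    ∃ (X : Type (max u w)) (_ : Finite X) (f : J → X), Nat.card X ≤ C ∧
      ∀ Q₁ Q₂ : J, n • Q₁ ∈ M' → n • Q₂ ∈ M' →
        (∀ σ : Γ, ∃ e : E, ι e = σ • Q₁ - Q₁) → (∀ σ : Γ, ∃ e : E, ι e = σ • Q₂ - Q₂) →
        f Q₁ = f Q₂ →
        ∃ g : E, ∀ σ : Γ, σ • (Q₁ - Q₂) - (Q₁ - Q₂) = σ • ι g - ι g := by
  classical
  let f : J → ↥(mzs_km_kappa ι hι hιΓ M' n).range := fun Q =>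
    if h : Q ∈ mzs_km_Q (Γ := Γ) ι M' n then
      ⟨mzs_km_kappa ι hι hιΓ M' n ⟨Q, h⟩, AddMonoidHom.mem_range.2 ⟨_, rfl⟩⟩ else 0
  refine ⟨↥(mzs_km_kappa ι hι hιΓ M' n).range, hfin, f, hcard, ?_⟩
  intro Q₁ Q₂ h1 h2 h1' h2' hf
  have hQ₁ : Q₁ ∈ mzs_km_Q (Γ := Γ) ι M' n := ⟨h1, h1'⟩
  have hQ₂ : Q₂ ∈ mzs_km_Q (Γ := Γ) ι M' n := ⟨h2, h2'⟩
  have hf₁ : f Q₁ = ⟨mzs_km_kappa ι hι hιΓ M' n ⟨Q₁, hQ₁⟩, AddMonoidHom.mem_range.2 ⟨_, rfl⟩⟩ :=
    dif_pos hQ₁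
  have hf₂ : f Q₂ = ⟨mzs_km_kappa ι hι hιΓ M' n ⟨Q₂, hQ₂⟩, AddMonoidHom.mem_range.2 ⟨_, rfl⟩⟩ :=
    dif_pos hQ₂
  rw [hf₁, hf₂] at hf
  have hk : mzs_km_kappa ι hι hιΓ M' n ⟨Q₁, hQ₁⟩ = mzs_km_kappa ι hι hιΓ M' n ⟨Q₂, hQ₂⟩ :=
    congrArg Subtype.val hf
  have hk' : mzs_km_kappa ι hι hιΓ M' n (⟨Q₁, hQ₁⟩ - ⟨Q₂, hQ₂⟩) = 0 := by
    rw [map_sub, hk, sub_self]
  exact (mzs_km_kappa_eq_zero_iff ι hι hιΓ M' n _).1 hk'

/-- the classes in the image of the Kummer map are killed by `n` when `E` is -/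
theorem mzs_km_nsmul_eq_zero (hn : ∀ e : E, n • e = 0)
    (x : mzh_H1 Γ E) : n • x = 0 := by
  obtain ⟨c, rfl⟩ := mzh_cls_surjective Γ E x
  rw [← map_nsmul]
  have : n • c = 0 := by
    apply Subtype.ext
    funext σ
    show n • (c : Γ → E) σ = 0
    exact hn _
  rw [this, map_zero]

/-- **the finite-subgroup trick**: a subgroup of `H¹(Γ, E)` (`n • E = 0`, `n ≠ 0`) all of whose
finite subgroups have at most `C` elements is finite with at most `C` elements -/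
theorem mzs_km_finite_of_bound (hn0 : n ≠ 0) (hn : ∀ e : E, n • e = 0)
    (L : AddSubgroup (mzh_H1 Γ E)) (C : ℕ)
    (hb : ∀ L' : AddSubgroup (mzh_H1 Γ E), L' ≤ L → Finite ↥L' → Nat.card ↥L' ≤ C) :
    Finite ↥L ∧ Nat.card ↥L ≤ C := by
  classical
  have key : ∀ s : Finset ↥L, s.card ≤ C := by
    intro s
    -- the subgroup generated by `s`
    let T : Set (mzh_H1 Γ E) := (fun x : ↥L => (x : mzh_H1 Γ E)) '' (s : Set ↥L)
    have hTfin : T.Finite := (Finset.finite_toSet s).image _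
    let L' : AddSubgroup (mzh_H1 Γ E) := AddSubgroup.closure T
    have hL'le : L' ≤ L := by
      rw [AddSubgroup.closure_le]
      rintro _ ⟨x, _, rfl⟩
      exact x.2
    haveI hfg : AddGroup.FG ↥L' := (AddGroup.fg_iff_addSubgroup_fg L').2
      ((AddSubgroup.fg_iff L').2 ⟨T, rfl, hTfin⟩)
    have htor : IsAddTorsion ↥L' := by
      intro x
      rw [isOfFinAddOrder_iff_nsmul_eq_zero]
      refine ⟨n, Nat.pos_of_ne_zero hn0, Subtype.ext ?_⟩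
      show n • (x : mzh_H1 Γ E) = 0
      exact mzs_km_nsmul_eq_zero n hn _
    haveI hL'fin : Finite ↥L' := AddCommGroup.finite_of_fg_isAddTorsion _ htor
    have hcard := hb L' hL'le hL'fin
    -- `s` embeds into `L'`
    let φ : {x : ↥L // x ∈ s} → ↥L' := fun x =>
      ⟨((x : ↥L) : mzh_H1 Γ E), AddSubgroup.subset_closure ⟨x.1, x.2, rfl⟩⟩
    have hφ : Function.Injective φ := by
      intro x y h
      have h1 : (φ x : mzh_H1 Γ E) = (φ y : mzh_H1 Γ E) := congrArg Subtype.val h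
      exact Subtype.ext (Subtype.ext h1)
    have h2 : Nat.card {x : ↥L // x ∈ s} ≤ Nat.card ↥L' := Nat.card_le_card_of_injective φ hφ
    have h3 : Nat.card {x : ↥L // x ∈ s} = s.card := by
      rw [Nat.card_eq_fintype_card, Fintype.card_coe]
    omega
  haveI : Fintype ↥L := fintypeOfFinsetCardLe C key
  refine ⟨inferInstance, ?_⟩
  rw [Nat.card_eq_fintype_card]
  exact key Finset.univ

end Kummer

end Fermat.Agent.MZ
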