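/-
MAZUR project, node (F-ASM), file `MZ/S/SelAsm.lean` (helper15, prefix `mzs_sa_`).

THE SEAM `mzs_in_SEL p r S₀` FROM THE SELMER BOUND OF [F-DESC] AND (F'-coh) OF [MZ-F'].

* `mzs_sa_Bound p r S Ap Ar c k` : the Selmer bound for `W_k = mzs_in_W p r S k`, stated in helper9's
  shapes (`mzds_bound2`, version 2 of [F-DESC], with the series, the context and the two balances
  discharged): every subgroup `L ≤ H¹(G_ℚ, W_k)` of classes that are continuous (C1), unramified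
  outside `p r` (C2), trivial on `I_{Ap}` (C3), flat at `Ar` (C4, per class: `mzds_FlatAt`) and
  trivial on `⟨c⟩` (C5) is finite with `#L ≤ #(W_k^{G_ℚ})`;
* `mzs_sa_sel` : `(F'-coh)` at ONE place `Ap ∣ p` + `c * c = 1` + `∀ k, mzs_sa_Bound … k`
  ⟹ `mzs_in_SEL p r S₀`.

Proof: `M' := r^i₀ • J₀(p)(ℚ)`; `L_k :=` the image of the Kummer map (`mzs_sl_L`, helper17); every
FINITE subgroup `L' ≤ L_k` satisfies (C1)–(C4) (`Local.lean`, `Flat.lean`), and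
`L'' := L' ⊓ ker res_⟨c⟩` has index at most `#W_k[2]` in `L'` (helper4's `mzs_ri_real_index`), so
`#L' ≤ #J[2] · #(W_k^{G_ℚ})`; the finite-subgroup trick (`mzs_km_finite_of_bound`) and helper17's
adapter `mzs_sl_adapter` conclude, with the uniform constant `C₀ = #J[2] · #J(ℚ)_tors`.
-/
import Mathlib
import Fermat.Agent.MZ.S.Sel
import Fermat.Agent.MZ.S.Kum
import Fermat.Agent.MZ.S.Local
import Fermat.Agent.MZ.S.Flat
import Fermat.Agent.MZ.S.RealIdx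
import Fermat.Agent.MZ.Desc.Leaf2

set_option autoImplicit false
set_option linter.unusedSectionVars false
set_option linter.style.haveILetI false
set_option synthInstance.maxHeartbeats 400000
set_option maxHeartbeats 1000000

noncomputable section

namespace Fermat.Agent.MZ

open ModularCurve AlgebraicCurve Fermat.Agent.JT3 Fermat.Agent.FF

local notation "Qb" => AlgebraicClosure ℚ
local notation "GQ" => (AlgebraicClosure ℚ ≃ₐ[ℚ] AlgebraicClosure ℚ)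

variable (p : ℕ) [NeZero p]

/-- **the Selmer bound for `W_k`**, in the shapes of [F-DESC] version 2 (`mzds_bound2`). -/
def mzs_sa_Bound (r : ℕ) (S : Finset ℕ) (Ap Ar : ValuationSubring Qb) (c : GQ) (k : ℕ) : Prop :=
  letI := mzh_subAction (mzs_in_W p r S k) (mzs_fl_stable p r S k)
  ∀ L : AddSubgroup (mzh_H1 GQ ↥(mzs_in_W p r S k)),
    (∀ x ∈ L, mzq_Cont x) →
    (∀ ℓ : ℕ, ℓ.Prime → ℓ ≠ p → ℓ ≠ r → ∃ A : ValuationSubring Qb, A.LiesOverPrime ℓ ∧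
      (∀ σ ∈ A.inertiaSubgroupIn ℚ, ∀ g : ↥(mzs_in_W p r S k), σ • g = g) ∧
      ∀ x ∈ L, mzh_H1resSub (A.inertiaSubgroupIn ℚ) x = 0) →
    (∀ x ∈ L, mzh_H1resSub (Ap.inertiaSubgroupIn ℚ) x = 0) →
    (∀ x ∈ L, mzds_FlatAt ↥(ffi_O Ar ↥(ffi_L Ar)) Ar x) →
    (∀ x ∈ L, mzh_H1resSub (Subgroup.zpowers c) x = 0) →
    Finite ↥L ∧ Nat.card ↥L ≤ Nat.card ↥(mzh_H0 GQ ↥(mzs_in_W p r S k))

/-- the core, for an abstract `G_ℚ`-module `J`: the image of the Kummer map is finite with at most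
`#W[2] · #(W^{G_ℚ})` elements, given the four local inputs and an involution `c` -/
theorem mzs_sa_core {J : Type} [AddCommGroup J] [DistribMulAction GQ J] (p r k : ℕ)
    (hrk : r ^ k ≠ 0)
    (W : AddSubgroup J) (hW : mzh_Stable GQ W) (hWtors : ∀ x ∈ W, r ^ k • x = 0)
    [Finite ↥W] (M' : AddSubgroup J) (hM'fix : ∀ x ∈ M', ∀ σ : GQ, σ • x = x)
    (Ap Ar : ValuationSubring Qb) (c : GQ) (hcc : c * c = 1)
    (hlc : ∀ Q : J, ∃ K : IntermediateField ℚ Qb, FiniteDimensional ℚ K ∧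
      ∀ σ ∈ K.fixingSubgroup, σ • Q - Q = 0)
    (hunr : ∀ ℓ : ℕ, ℓ.Prime → ℓ ≠ p → ℓ ≠ r → ∃ A : ValuationSubring Qb, A.LiesOverPrime ℓ ∧
      ∀ σ ∈ A.inertiaSubgroupIn ℚ, ∀ Q : J, (∀ τ : GQ, τ • (r ^ k • Q) = r ^ k • Q) →
        σ • Q - Q = 0)
    (hip : ∀ Q : J, r ^ k • Q ∈ M' → (∀ σ : GQ, σ • Q - Q ∈ W) →
      ∃ g ∈ W, ∀ σ ∈ Ap.inertiaSubgroupIn ℚ, σ • Q - Q = σ • g - g)
    {O : Type} [CommRing O] [Algebra O Qb]
    (hflat : letI := mzh_subAction W hW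
      ∀ T : Set J, T.Finite →
      (∀ Q ∈ T, ∀ σ ∈ Ar.inertiaSubgroupIn ℚ, σ • (r ^ k • Q) = r ^ k • Q) →
      ∃ H : Subalgebra O (↥W → Qb), mzo_IsOrder Ar ↥(Ar.inertiaSubgroupIn ℚ) ↥W H ∧
        ∀ Q ∈ T, ∀ z : ↥(Ar.inertiaSubgroupIn ℚ) → ↥W,
          (∀ σ, ((z σ : ↥W) : J) = (σ : GQ) • Q - Q) →
          mzo_Flat Ar ↥(Ar.inertiaSubgroupIn ℚ) H z)
    (hB : letI := mzh_subAction W hW
      ∀ L : AddSubgroup (mzh_H1 GQ ↥W),
        (∀ x ∈ L, mzq_Cont x) →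
        (∀ ℓ : ℕ, ℓ.Prime → ℓ ≠ p → ℓ ≠ r → ∃ A : ValuationSubring Qb, A.LiesOverPrime ℓ ∧
          (∀ σ ∈ A.inertiaSubgroupIn ℚ, ∀ g : ↥W, σ • g = g) ∧
          ∀ x ∈ L, mzh_H1resSub (A.inertiaSubgroupIn ℚ) x = 0) →
        (∀ x ∈ L, mzh_H1resSub (Ap.inertiaSubgroupIn ℚ) x = 0) →
        (∀ x ∈ L, mzds_FlatAt O Ar x) →
        (∀ x ∈ L, mzh_H1resSub (Subgroup.zpowers c) x = 0) →
        Finite ↥L ∧ Nat.card ↥L ≤ Nat.card ↥(mzh_H0 GQ ↥W)) :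
    letI := mzh_subAction W hW
    Finite ↥(mzs_sl_L W hW M' (r ^ k)) ∧
      Nat.card ↥(mzs_sl_L W hW M' (r ^ k)) ≤
        Nat.card {x : ↥W // 2 • x = 0} * Nat.card ↥(mzh_H0 GQ ↥W) := by
  classical
  letI actW : DistribMulAction GQ ↥W := mzh_subAction W hW
  -- the bound for the finite subgroups
  have hb : ∀ L' : AddSubgroup (mzh_H1 GQ ↥W), L' ≤ mzs_sl_L W hW M' (r ^ k) → Finite ↥L' →
      Nat.card ↥L' ≤ Nat.card {x : ↥W // 2 • x = 0} * Nat.card ↥(mzh_H0 GQ ↥W) := by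
    intro L' hL'L _
    -- the classes of `L'` which are trivial at the real place
    have hidx := mzs_ri_real_index (Γ := GQ) (W := ↥W) c hcc L'
    refine hidx.trans (Nat.mul_le_mul_left _ ?_)
    -- representatives
    have hrep : ∀ x ∈ L' ⊓ (mzh_H1resSub (A := ↥W) (Subgroup.zpowers c)).ker,
        ∃ Q : J, r ^ k • Q ∈ M' ∧ ∃ hQ : ∀ σ : GQ, σ • Q - Q ∈ W,
          mzh_cls GQ ↥W (mzs_sl_coc W hW Q hQ) = x := by
      intro x hx
      obtain ⟨Q, h1, h2, h3⟩ := (mzs_sl_mem_L W hW M' (r ^ k) _).1 (hL'L hx.1)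
      exact ⟨Q, h1, h2, h3⟩
    refine (hB (L' ⊓ (mzh_H1resSub (A := ↥W) (Subgroup.zpowers c)).ker) ?_ ?_ ?_ ?_ ?_).2
    · -- (C1)
      intro x hx
      obtain ⟨Q, _, hQ2, hQ3⟩ := hrep x hx
      obtain ⟨K, hK, hKQ⟩ := hlc Q
      refine ⟨mzs_sl_coc W hW Q hQ2, hQ3, K, hK, fun σ hσ => ?_⟩
      apply Subtype.ext
      exact hKQ σ hσ
    · -- (C2)
      intro ℓ hℓ hℓp hℓr
      obtain ⟨A, hA, hAu⟩ := hunr ℓ hℓ hℓp hℓr
      refine ⟨A, hA, fun σ hσ g => ?_, fun x hx => ?_⟩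
      · apply Subtype.ext
        have := hAu σ hσ (g : J) (fun τ => by rw [hWtors _ g.2, smul_zero])
        exact sub_eq_zero.1 this
      · obtain ⟨Q, hQ1, hQ2, hQ3⟩ := hrep x hx
        have h0 : mzh_H1resSub (A.inertiaSubgroupIn ℚ)
            (mzh_cls GQ ↥W (mzs_sl_coc W hW Q hQ2)) = 0 := by
          rw [mzh_H1resSub_eq_zero_iff]
          refine ⟨0, fun σ hσ => ?_⟩
          rw [smul_zero, sub_zero]
          apply Subtype.ext
          exact hAu σ hσ Q (fun τ => hM'fix _ hQ1 τ)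
        exact hQ3 ▸ h0
    · -- (C3)
      intro x hx
      obtain ⟨Q, hQ1, hQ2, hQ3⟩ := hrep x hx
      obtain ⟨g, hg, hg'⟩ := hip Q hQ1 hQ2
      have h0 : mzh_H1resSub (Ap.inertiaSubgroupIn ℚ)
          (mzh_cls GQ ↥W (mzs_sl_coc W hW Q hQ2)) = 0 := by
        rw [mzh_H1resSub_eq_zero_iff]
        refine ⟨⟨g, hg⟩, fun σ hσ => ?_⟩
        apply Subtype.ext
        exact hg' σ hσ
      exact hQ3 ▸ h0
    · -- (C4), per class
      intro x hx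
      obtain ⟨Q, hQ1, hQ2, hQ3⟩ := hrep x hx
      obtain ⟨H, hH, hfl⟩ := hflat {Q} (Set.finite_singleton Q) (by
        intro Q' hQ' σ _
        rw [Set.mem_singleton_iff.1 hQ']
        exact hM'fix _ hQ1 σ)
      refine ⟨H, hH, mzs_sl_coc W hW Q hQ2, hQ3, ?_⟩
      exact hfl Q (Set.mem_singleton Q) _ (fun σ => rfl)
    · -- (C5)
      intro x hx
      exact AddMonoidHom.mem_ker.1 hx.2
  exact mzs_km_finite_of_bound (Γ := GQ) (E := ↥W) (r ^ k) hrk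
    (fun e => Subtype.ext (hWtors _ e.2)) (mzs_sl_L W hW M' (r ^ k)) _ hb

/-- **(F-ASM), the Selmer seam**: `(F'-coh)` at one place `Ap ∣ p`, an involution `c` and the Selmer
bounds of [F-DESC] (version 2) for all the `W_k` give `mzs_in_SEL p r S₀`. -/
theorem mzs_sa_sel (hp : p.Prime) (hp5 : 5 ≤ p) (r : ℕ) [hr : Fact r.Prime] (hrp : r ≠ p)
    (S : Finset ℕ) (hpS : p ∈ S) (hrS : r ∈ S) (S₀ : Finset ℕ) (hS₀ : S₀ ⊆ S)
    (Ap Ar : ValuationSubring Qb) (hAr : Ar.LiesOverPrime r)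
    (hplace : ∀ ℓ : ℕ, ℓ.Prime → ∃ A : ValuationSubring Qb, A.LiesOverPrime ℓ)
    (c : GQ) (hcc : c * c = 1)
    (i₀ : ℕ) (hF : mzs_lc_Fcoh p r S i₀ Ap)
    (hB : ∀ k : ℕ, mzs_sa_Bound p r S Ap Ar c k) :
    mzs_in_SEL p r S₀ := by
  classical
  have hfg := Fermat.Agent.MW.mw_final_S17 p hp hp5
  haveI hJ2 : Finite {x : JZero p // 2 • x = 0} := by
    haveI : Fact (Nat.Prime 2) := ⟨Nat.prime_two⟩
    have h := tj_finite p 2 1
    rwa [pow_one] at h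
  refine ⟨S, hS₀, hpS, hrS, mzs_lc_M' p r i₀, fun ℓ _ P hP => mzs_lc_M'_hecke p r i₀ ℓ hP, i₀,
    fun P hP => mzs_lc_M'_of_fixed p r i₀ P hP,
    Nat.card {x : JZero p // 2 • x = 0} * mzs_sl_C0 GQ (JZero p), fun k => ?_⟩
  have hWtors : ∀ x ∈ mzs_in_W p r S k, r ^ k • x = 0 := fun x hx => hx.1
  have hrk : r ^ k ≠ 0 := pow_ne_zero k hr.out.ne_zero
  haveI hWfin : Finite ↥(mzs_in_W p r S k) := by
    haveI := mzs_in_fin (p := p) r hr.out k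
    let ψ : ↥(mzs_in_W p r S k) → {x : JZero p // r ^ k • x = 0} := fun x => ⟨x.1, hWtors x.1 x.2⟩
    refine Finite.of_injective ψ ?_
    intro x y h
    have h1 : (ψ x).1 = (ψ y).1 := congrArg Subtype.val h
    exact Subtype.ext h1
  have hunr : ∀ ℓ : ℕ, ℓ.Prime → ℓ ≠ p → ℓ ≠ r → ∃ A : ValuationSubring Qb,
      A.LiesOverPrime ℓ ∧ ∀ σ ∈ A.inertiaSubgroupIn ℚ, ∀ Q : JZero p,
        (∀ τ : GQ, τ • (r ^ k • Q) = r ^ k • Q) → σ • Q - Q = 0 := by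
    intro ℓ hℓ hℓp hℓr
    obtain ⟨A, hA⟩ := hplace ℓ hℓ
    exact ⟨A, hA, fun σ hσ Q hQ => mzs_lc_unr p hp r k hr.out Q hQ ℓ hℓ hℓp hℓr A hA σ hσ⟩
  obtain ⟨hLfin, hLcard⟩ := mzs_sa_core (J := JZero p) p r k hrk (mzs_in_W p r S k)
    (mzs_fl_stable p r S k) hWtors (mzs_lc_M' p r i₀)
    (fun x hx σ => mzs_lc_M'_fixed p r i₀ hx σ) Ap Ar c hcc (mzs_lc_lc p) hunr
    (fun Q h1 h2 => mzs_lc_ip p hp hp5 r hr.out S hpS i₀ Ap hF k Q h1 h2)
    (fun T hT hTfix => mzs_fl_flat p hp hp5 r hrp S hpS k Ar hAr T hT hTfix)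
    (hB k)
  -- the two constants
  have h2 : Nat.card {x : ↥(mzs_in_W p r S k) // 2 • x = 0} ≤
      Nat.card {x : JZero p // 2 • x = 0} := by
    let ψ : {x : ↥(mzs_in_W p r S k) // 2 • x = 0} → {x : JZero p // 2 • x = 0} :=
      fun x => ⟨(x.1 : JZero p), congrArg Subtype.val x.2⟩
    refine Nat.card_le_card_of_injective ψ ?_
    intro x y h
    have h1 : (ψ x).1 = (ψ y).1 := congrArg Subtype.val h
    exact Subtype.ext (Subtype.ext h1)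
  have h0 := mzs_sl_card_H0_le hfg (mzs_in_W p r S k) (mzs_fl_stable p r S k)
    (fun x hx => ⟨r ^ k, hrk, hWtors x hx⟩)
  exact mzs_sl_adapter (mzs_in_W p r S k) (mzs_fl_stable p r S k) (mzs_lc_M' p r i₀) (r ^ k) _
    hLfin (hLcard.trans (Nat.mul_le_mul h2 h0))

end Fermat.Agent.MZ
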