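/-
MAZUR project, node (F-ASM) / [MZ-F'], cell (CNT-I), layer 2a (helper6, prefix `mzs_cb_`).

THE ZERO SUBGROUP IS ADMISSIBLE IN [F-DESC].

`mzs_cb_bot`: let `hmain` be the Selmer inequality of [F-DESC] (`mzds_main`, with all its seams and
contexts already supplied) for a `G_ℚ`-module `W`, as a statement about ALL subgroups
`L ≤ H¹(G_ℚ, W)` satisfying (C1)–(C4) (`hL1`–`hL4`, verbatim).  If inertia at the primes
`ℓ ≠ p, r` acts trivially on `W` and all coboundaries `σ ↦ σ a - a` (`a ∈ W`) are `H`-flat at `r`,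
then `hmain` applies to `L = ⊥` and gives
    `Z · |W^{I_p}| ≤ |W^{G_ℚ}| · |W|`.
-/
import Mathlib
import Fermat.Agent.MZ.Desc.Seams
import Fermat.Agent.MZ.Hopf.Defs

set_option autoImplicit false
set_option linter.style.haveILetI false

namespace Fermat.Agent.MZ

local notation "Qb" => AlgebraicClosure ℚ
local notation "GQ" => (AlgebraicClosure ℚ ≃ₐ[ℚ] AlgebraicClosure ℚ)

/-- the zero class is continuous -/
theorem mzs_cb_cont_zero {W : Type*} [AddCommGroup W] [DistribMulAction GQ W] :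
    mzds_Cont (0 : mzh_H1 GQ W) :=
  ⟨0, map_zero _, ⊥, inferInstance, fun _ _ => rfl⟩

/-- **`L = ⊥` in the Selmer inequality.** -/
theorem mzs_cb_bot {W : Type} [AddCommGroup W] [DistribMulAction GQ W]
    (p r : ℕ) (Ap Ar : ValuationSubring Qb)
    {O : Type} [CommRing O] [Algebra O Qb]
    (H : Subalgebra O (W → Qb)) (Z : ℕ)
    (hmain : ∀ L : AddSubgroup (mzh_H1 GQ W),
      (∀ x ∈ L, mzds_Cont x) →
      (∀ ℓ : ℕ, ℓ.Prime → ℓ ≠ p → ℓ ≠ r → ∃ A : ValuationSubring Qb, A.LiesOverPrime ℓ ∧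
        (∀ σ ∈ A.inertiaSubgroupIn ℚ, ∀ g : W, σ • g = g) ∧
        ∀ x ∈ L, mzh_H1resSub (A.inertiaSubgroupIn ℚ) x = 0) →
      (∀ x ∈ L, mzh_H1resSub (Ap.inertiaSubgroupIn ℚ) x = 0) →
      (∀ x ∈ L, ∀ z : ↥(mzh_Z1 GQ W), mzh_cls GQ W z = x →
        mzo_Flat Ar ↥(Ar.inertiaSubgroupIn ℚ) H (fun σ => (z : GQ → W) σ)) →
      Finite ↥L ∧ Nat.card ↥L * Z * Nat.card ↥(mzh_H0 ↥(Ap.inertiaSubgroupIn ℚ) W) ≤
        Nat.card ↥(mzh_H0 GQ W) * Nat.card W)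
    (hunr : ∀ ℓ : ℕ, ℓ.Prime → ℓ ≠ p → ℓ ≠ r → ∃ A : ValuationSubring Qb, A.LiesOverPrime ℓ ∧
      ∀ σ ∈ A.inertiaSubgroupIn ℚ, ∀ g : W, σ • g = g)
    (hflat : ∀ a : W, mzo_Flat Ar ↥(Ar.inertiaSubgroupIn ℚ) H
      (fun σ : ↥(Ar.inertiaSubgroupIn ℚ) => (σ : GQ) • a - a)) :
    Z * Nat.card ↥(mzh_H0 ↥(Ap.inertiaSubgroupIn ℚ) W) ≤
      Nat.card ↥(mzh_H0 GQ W) * Nat.card W := by
  have h := hmain ⊥ ?_ ?_ ?_ ?_
  · have h2 := h.2
    rw [AddSubgroup.card_bot, one_mul] at h2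
    exact h2
  · intro x hx
    rw [AddSubgroup.mem_bot] at hx
    subst hx
    exact mzs_cb_cont_zero
  · intro ℓ hℓ hℓp hℓr
    obtain ⟨A, hA, hA'⟩ := hunr ℓ hℓ hℓp hℓr
    refine ⟨A, hA, hA', fun x hx => ?_⟩
    rw [AddSubgroup.mem_bot] at hx
    subst hx
    exact map_zero _
  · intro x hx
    rw [AddSubgroup.mem_bot] at hx
    subst hx
    exact map_zero _
  · intro x hx z hz
    rw [AddSubgroup.mem_bot] at hx
    subst hx
    obtain ⟨a, ha⟩ := (mzh_cls_eq_zero_iff GQ W z).mp hz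
    have : (fun σ : ↥(Ar.inertiaSubgroupIn ℚ) => (z : GQ → W) σ) =
        fun σ : ↥(Ar.inertiaSubgroupIn ℚ) => (σ : GQ) • a - a := by
      funext σ
      exact ha σ
    rw [this]
    exact hflat a

end Fermat.Agent.MZ
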