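/-
Project MAZUR (S15), node (F-ASM), cell (T) (helper17): the uniform bound on the invariants of a
`G_ℚ`-stable torsion subgroup of `J₀(p)`:

  `mzs_to_main : ∃ C₁, ∀ W hW n, n ≠ 0 → (∀ x ∈ W, n • x = 0) → #(W^{G_ℚ}) ≤ C₁`

with `C₁ = #J₀(p)(ℚ)_tors` (`mzs_sl_C0`, finite by Mordell–Weil `mw_final_S17`), and the explicit
form `mzs_to_card_le`.  The abstract statement is `mzs_sl_card_H0_le` of `MZ/S/Sel.lean`.
Prefix `mzs_to_`.
-/
import Mathlib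
import Fermat.Agent.MZ.S.Sel
import Fermat.Agent.MW.Final

set_option autoImplicit false
set_option linter.style.haveILetI false

namespace Fermat.Agent.MZ

open ModularCurve

local notation "GQ" => (AlgebraicClosure ℚ ≃ₐ[ℚ] AlgebraicClosure ℚ)

/-- The explicit form: `#(W^{G_ℚ}) ≤ #J₀(p)(ℚ)_tors`. -/
theorem mzs_to_card_le (p : ℕ) [NeZero p] (hp : p.Prime) (hp5 : 5 ≤ p)
    (W : AddSubgroup (JZero p)) (hW : mzh_Stable GQ W) (n : ℕ) (hn : n ≠ 0)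
    (hWn : ∀ x ∈ W, n • x = 0) :
    Nat.card ↥(@mzh_H0 GQ _ ↥W _ (mzh_subAction W hW)) ≤ mzs_sl_C0 GQ (JZero p) :=
  mzs_sl_card_H0_le (Fermat.Agent.MW.mw_final_S17 p hp hp5) W hW
    (fun x hx => ⟨n, hn, hWn x hx⟩)

/-- The constant is positive (and finite: `mzs_sl_tors_finite`). -/
theorem mzs_to_C_pos (p : ℕ) [NeZero p] (hp : p.Prime) (hp5 : 5 ≤ p) :
    0 < mzs_sl_C0 GQ (JZero p) :=
  mzs_sl_C0_pos (Fermat.Agent.MW.mw_final_S17 p hp hp5)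

/-- **(T)**: a uniform bound for the invariants of all `G_ℚ`-stable torsion subgroups. -/
theorem mzs_to_main (p : ℕ) [NeZero p] (hp : p.Prime) (hp5 : 5 ≤ p) :
    ∃ C₁ : ℕ, ∀ (W : AddSubgroup (JZero p)) (hW : mzh_Stable GQ W) (n : ℕ), n ≠ 0 →
      (∀ x ∈ W, n • x = 0) →
      Nat.card ↥(@mzh_H0 GQ _ ↥W _ (mzh_subAction W hW)) ≤ C₁ :=
  ⟨mzs_sl_C0 GQ (JZero p), fun W hW n hn hWn => mzs_to_card_le p hp hp5 W hW n hn hWn⟩

/-- The same bound for the invariants written as an elementary subtype of `↥W`. -/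
theorem mzs_to_card_fixed_le (p : ℕ) [NeZero p] (hp : p.Prime) (hp5 : 5 ≤ p)
    (W : AddSubgroup (JZero p)) (n : ℕ) (hn : n ≠ 0) (hWn : ∀ x ∈ W, n • x = 0) :
    Nat.card {x : ↥W // ∀ σ : GQ, σ • (x : JZero p) = x} ≤ mzs_sl_C0 GQ (JZero p) := by
  haveI := mzs_sl_tors_finite (Fermat.Agent.MW.mw_final_S17 p hp hp5)
  refine Nat.card_le_card_of_injective
    (fun a : {x : ↥W // ∀ σ : GQ, σ • (x : JZero p) = x} =>
      (⟨(a.1 : JZero p), a.2, n, hn, hWn _ a.1.2⟩ : mzs_sl_Tors GQ (JZero p))) ?_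
  intro a b hab
  apply Subtype.ext
  apply Subtype.ext
  exact congrArg (fun z : mzs_sl_Tors GQ (JZero p) => (z.1 : JZero p)) hab

end Fermat.Agent.MZ
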