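/-
MAZUR project, node (F-ASM) / [MZ-F'], cell (CNT-I), layer 2b (helper6, prefix `mzs_cd_`).

THE TWO INPUTS `hdesc`, `hF2` OF helper14's BRIDGE `mzf3_cb_main`, FOR `W_k = mzs_in_W p r S k`
(`r` odd), from
* [F-DESC] `mzds_main` at `L = ⊥` (`mzs_cb_bot`): the zero class is continuous, unramified and its
  representatives (the coboundaries of `W_k`) are flat for the [GEO] order with `T := W_k`;
* (F2) in helper20's form `mzf2_half_of_sq`.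

`mzs_cd_gen`  : the statement for a general `G_ℚ`-stable `W ≤ J₀(p)` (so that the series can be
                substituted: `F 0 = W`);
`mzs_cd_main` : `∃ a : ℕ → ℕ, (∀ k, r^(a k) · |W_k^{I_p}| ≤ |W_k^{G_ℚ}| · |W_k|) ∧ ∀ k, |W_k| ≤ r^(2 a k)`;
`mzs_cd_hcnt` : **(CNT-I)** = the hypothesis `hcnt` of `mzf3_ki_main` / `mzf3_ki_all` VERBATIM, with
                `C = (#J₀(p)(ℚ)_tors)²` (`mzs_sl_C0`), by `mzf3_cb_main` + (T) `mzs_to_card_fixed_le`.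
-/
import Mathlib
import Fermat.Agent.MZ.S.CntBot
import Fermat.Agent.MZ.S.Flat
import Fermat.Agent.MZ.S.Eis
import Fermat.Agent.MZ.S.KummerUnr
import Fermat.Agent.MZ.Desc.Main
import Fermat.Agent.MZ.F2.CountSeries
import Fermat.Agent.MZ.F3.CntBridge
import Fermat.Agent.MZ.Geo.Ctx
import Fermat.Agent.MZ.S.Tors

set_option autoImplicit false
set_option linter.unusedSectionVars false
set_option linter.style.haveILetI false
set_option synthInstance.maxHeartbeats 400000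
set_option maxHeartbeats 1000000

noncomputable section

namespace Fermat.Agent.MZ

open ModularCurve AlgebraicCurve Fermat.Agent.JT3 Fermat.Agent.FF Fermat.Agent.DS

local notation "Qb" => AlgebraicClosure ℚ
local notation "GQ" => (AlgebraicClosure ℚ ≃ₐ[ℚ] AlgebraicClosure ℚ)

variable (p : ℕ) [NeZero p]

/-- **general form** -/
theorem mzs_cd_gen (r : ℕ) [hr : Fact r.Prime] (hr2 : r ≠ 2) (Ap Ar : ValuationSubring Qb)
    (hAr : Ar.LiesOverPrime r)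
    (hTriv : mzds_SeamTriv p r Ap) (hMu : mzds_SeamMu p r Ap)
    (hCyc : mzds_SeamCycT r (mzf1_cyc r))
    (hQuot : mzo_SeamQuot) (hConn : mzo_SeamConn) (hMuO : mzo_SeamMuOrder)
    (hMuU : mzo_SeamMuUnit)
    (W : AddSubgroup (JZero p)) (hW : mzh_Stable GQ W) (hser : mzf1_Series r W)
    (hunr : ∀ ℓ : ℕ, ℓ.Prime → ℓ ≠ p → ℓ ≠ r → ∃ A : ValuationSubring Qb, A.LiesOverPrime ℓ ∧
      ∀ σ ∈ A.inertiaSubgroupIn ℚ, ∀ g ∈ W, σ • g = g)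
    (hopen : ∀ g ∈ W, ∃ K : IntermediateField ℚ Qb, FiniteDimensional ℚ K ∧
      ∀ σ ∈ K.fixingSubgroup, σ • g = g)
    {O : Type} [CommRing O] [IsDomain O] [IsDiscreteValuationRing O] [Algebra O Qb]
    (hctx : mzo_Ctx r O Qb Ar ↥(Ar.inertiaSubgroupIn ℚ))
    (hflat : letI := mzh_subAction W hW
      ∃ H : Subalgebra O (↥W → Qb), mzo_IsOrder Ar ↥(Ar.inertiaSubgroupIn ℚ) ↥W H ∧
        ∀ a : ↥W, mzo_Flat Ar ↥(Ar.inertiaSubgroupIn ℚ) H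
          (fun σ : ↥(Ar.inertiaSubgroupIn ℚ) => (σ : GQ) • a - a))
    (c : GQ) (hχc : ((dspk_cyc r c : (ZMod r)ˣ) : ZMod r) = -1)
    (hc2 : ∀ x ∈ W, c • c • x = x)
    (hsq : Nat.card ↥W ≤ Nat.card ↥(mzf2_fix c W) ^ 2) :
    ∃ a : ℕ,
      r ^ a * Nat.card {x : ↥W // ∀ σ ∈ Ap.inertiaSubgroupIn ℚ, σ • (x : JZero p) = x} ≤
        Nat.card {x : ↥W // ∀ σ : GQ, σ • (x : JZero p) = x} * Nat.card ↥W ∧
      Nat.card ↥W ≤ r ^ (2 * a) := by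
  obtain ⟨n, F, eps, rfl, hn, hstep⟩ := hser
  have hS : mzds_IsSeries r (mzf1_cyc r) n F eps := ⟨hn, fun i hi => hstep i hi⟩
  letI iW : DistribMulAction GQ ↥(F 0) := mzh_subAction (F 0) hW
  have hcompat : ∀ (σ : GQ) (w : ↥(F 0)), ((σ • w : ↥(F 0)) : JZero p) = σ • (w : JZero p) :=
    fun _ _ => rfl
  obtain ⟨H, hH, hfl⟩ := hflat
  have hopen' : ∀ g : ↥(F 0), ∃ K : IntermediateField ℚ Qb, FiniteDimensional ℚ K ∧
      ∀ σ ∈ K.fixingSubgroup, σ • g = g := by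
    intro g
    obtain ⟨K, hK, h⟩ := hopen g.1 g.2
    exact ⟨K, hK, fun σ hσ => Subtype.ext (h σ hσ)⟩
  have hunr' : ∀ ℓ : ℕ, ℓ.Prime → ℓ ≠ p → ℓ ≠ r → ∃ A : ValuationSubring Qb,
      A.LiesOverPrime ℓ ∧ ∀ σ ∈ A.inertiaSubgroupIn ℚ, ∀ g : ↥(F 0), σ • g = g := by
    intro ℓ hℓ hℓp hℓr
    obtain ⟨A, hA, h⟩ := hunr ℓ hℓ hℓp hℓr
    exact ⟨A, hA, fun σ hσ g => Subtype.ext (h σ hσ g.1 g.2)⟩
  have hb := mzs_cb_bot (W := ↥(F 0)) p r Ap Ar H (r ^ mzds_cnt eps n)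
    (fun L h1 h2 h3 h4 => mzds_main p r hr.out hr2 Ap Ar hAr hS hcompat hTriv hMu hCyc hQuot
      hConn hMuO hMuU hctx H hH hopen' L h1 h2 h3 h4) hunr' hfl
  rw [mzf3_cb_card (F 0) hcompat (Ap.inertiaSubgroupIn ℚ), mzf3_cb_card_top (F 0) hcompat] at hb
  refine ⟨mzds_cnt eps n, hb, ?_⟩
  have h2 := (mzf2_half_of_sq hr2 c hχc rfl hn hstep hc2 hsq).2
  rw [← pow_mul, mul_comm] at h2
  exact h2

/-- above every prime there is a valuation subring of `ℚ̄` (copy of `mzt_exists_place`) -/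
theorem mzs_cd_exists_place (ℓ : ℕ) (hℓ : ℓ.Prime) :
    ∃ A : ValuationSubring Qb, A.LiesOverPrime ℓ := by
  let Z : Subring Qb := (algebraMap ℤ Qb).range
  let l : Z := ⟨(ℓ : Qb), ⟨(ℓ : ℤ), by simp⟩⟩
  have hne : Ideal.span ({l} : Set Z) ≠ ⊤ := by
    intro h
    rw [Ideal.span_singleton_eq_top] at h
    obtain ⟨⟨b, hb⟩, hbl⟩ := h.exists_right_inv
    obtain ⟨n, rfl⟩ := hb
    have h1 : ((ℓ : ℤ) * n : ℤ) = 1 := by
      have h2 : (algebraMap ℤ Qb) ((ℓ : ℤ) * n) = (algebraMap ℤ Qb) 1 := by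
        rw [map_mul, map_one]
        have := congrArg Subtype.val hbl
        simpa [l] using this
      exact (algebraMap ℤ Qb).injective_int h2
    have h3 : (ℓ : ℤ) ∣ 1 := ⟨n, h1.symm⟩
    have h4 : ℓ ∣ 1 := by exact_mod_cast h3
    exact hℓ.one_lt.ne' (Nat.dvd_one.1 h4)
  obtain ⟨B, -, hB⟩ := Ideal.image_subset_nonunits_valuationSubring (Ideal.span ({l} : Set Z)) hne
  exact ⟨B, hB ⟨l, Ideal.subset_span rfl, rfl⟩⟩

/-- `W_k` is unramified outside `p r` -/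
theorem mzs_cd_unr (hp : p.Prime) (r : ℕ) (hr : r.Prime) (S : Finset ℕ) (k : ℕ) (ℓ : ℕ)
    (hℓ : ℓ.Prime) (hℓp : ℓ ≠ p) (hℓr : ℓ ≠ r) :
    ∃ A : ValuationSubring Qb, A.LiesOverPrime ℓ ∧
      ∀ σ ∈ A.inertiaSubgroupIn ℚ, ∀ g ∈ mzs_in_W p r S k, σ • g = g := by
  obtain ⟨A, hA⟩ := mzs_cd_exists_place ℓ hℓ
  refine ⟨A, hA, fun σ hσ g hg => ?_⟩
  have hg0 : r ^ k • g = 0 := ((mzs_in_mem_W p r S k g).1 hg).1
  have h := mzs_ku_unr_rat p (r ^ k) ℓ hℓ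
    (fun h => hℓr ((Nat.prime_dvd_prime_iff_eq hℓ hr).1 (hℓ.dvd_of_dvd_pow h)))
    (fun h => hℓp ((Nat.prime_dvd_prime_iff_eq hℓ hp).1 h)) A hA σ hσ g
    (fun τ => by rw [hg0]; exact smul_zero (A := JZero p) τ)
  exact sub_eq_zero.mp h

/-- the action on `W_k` is smooth -/
theorem mzs_cd_open (r : ℕ) (S : Finset ℕ) (k : ℕ) (g : JZero p) (_hg : g ∈ mzs_in_W p r S k) :
    ∃ K : IntermediateField ℚ Qb, FiniteDimensional ℚ K ∧
      ∀ σ ∈ K.fixingSubgroup, σ • g = g := by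
  obtain ⟨K, hK, h⟩ := mzs_ku_smooth p g
  exact ⟨K, hK, fun σ hσ => sub_eq_zero.mp (h σ hσ)⟩

/-- the [GEO] order on `W_k` for which ALL coboundaries of `W_k` are flat -/
theorem mzs_cd_flat (hp : p.Prime) (hp5 : 5 ≤ p) (r : ℕ) [hr : Fact r.Prime] (hrp : r ≠ p)
    (S : Finset ℕ) (hpS : p ∈ S) (k : ℕ) (A : ValuationSubring Qb) (hA : A.LiesOverPrime r) :
    letI := mzh_subAction (mzs_in_W p r S k) (mzs_fl_stable p r S k)
    ∃ H : Subalgebra ↥(ffi_O A ↥(ffi_L A)) (↥(mzs_in_W p r S k) → Qb),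
      mzo_IsOrder A ↥(A.inertiaSubgroupIn ℚ) ↥(mzs_in_W p r S k) H ∧
      ∀ a : ↥(mzs_in_W p r S k), mzo_Flat A ↥(A.inertiaSubgroupIn ℚ) H
        (fun σ : ↥(A.inertiaSubgroupIn ℚ) => (σ : GQ) • a - a) := by
  letI := mzh_subAction (mzs_in_W p r S k) (mzs_fl_stable p r S k)
  haveI hfin : Finite ↥(mzs_in_W p r S k) := (mzs_ei_eis p hp r S hpS k).fin
  have hT : ((mzs_in_W p r S k : AddSubgroup (JZero p)) : Set (JZero p)).Finite :=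
    Set.toFinite _
  obtain ⟨H, hH, hfl⟩ := mzs_fl_flat p hp hp5 r hrp S hpS k A hA
    ((mzs_in_W p r S k : AddSubgroup (JZero p)) : Set (JZero p)) hT
    (fun Q hQ σ _ => by
      have hQ0 : r ^ k • Q = 0 := ((mzs_in_mem_W p r S k Q).1 hQ).1
      rw [hQ0]; exact smul_zero (A := JZero p) σ)
  exact ⟨H, hH, fun a => hfl a.1 a.2 _ (fun σ => rfl)⟩

/-- **(CNT-I) inputs for `W_k`** (`r` odd): the Selmer inequality at `L = ⊥` and (F2), with a common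
exponent function `a`. -/
theorem mzs_cd_main (hp : p.Prime) (hp5 : 5 ≤ p) (r : ℕ) [hr : Fact r.Prime] (hr2 : r ≠ 2)
    (hrp : r ≠ p) (S : Finset ℕ) (hpS : p ∈ S) (hrS : r ∈ S)
    (Ap Ar : ValuationSubring Qb) (hAr : Ar.LiesOverPrime r)
    (hTriv : mzds_SeamTriv p r Ap) (hMu : mzds_SeamMu p r Ap)
    (hCyc : mzds_SeamCycT r (mzf1_cyc r))
    (hQuot : mzo_SeamQuot) (hConn : mzo_SeamConn) (hMuO : mzo_SeamMuOrder)
    (hMuU : mzo_SeamMuUnit)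
    (c : GQ) (hχc : ((dspk_cyc r c : (ZMod r)ˣ) : ZMod r) = -1)
    (hc2 : ∀ x : JZero p, c • c • x = x)
    (hsq : ∀ k, Nat.card ↥(mzs_in_W p r S k) ≤ Nat.card ↥(mzf2_fix c (mzs_in_W p r S k)) ^ 2) :
    ∃ a : ℕ → ℕ,
      (∀ k, r ^ a k * Nat.card {x : ↥(mzs_in_W p r S k) //
          ∀ σ ∈ Ap.inertiaSubgroupIn ℚ, σ • (x : JZero p) = x} ≤
        Nat.card {x : ↥(mzs_in_W p r S k) // ∀ σ : GQ, σ • (x : JZero p) = x} *
          Nat.card ↥(mzs_in_W p r S k)) ∧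
      ∀ k, Nat.card ↥(mzs_in_W p r S k) ≤ r ^ (2 * a k) := by
  haveI := mzg_ctx_dvr r Ar hAr
  have key : ∀ k, ∃ a : ℕ,
      r ^ a * Nat.card {x : ↥(mzs_in_W p r S k) //
          ∀ σ ∈ Ap.inertiaSubgroupIn ℚ, σ • (x : JZero p) = x} ≤
        Nat.card {x : ↥(mzs_in_W p r S k) // ∀ σ : GQ, σ • (x : JZero p) = x} *
          Nat.card ↥(mzs_in_W p r S k) ∧
      Nat.card ↥(mzs_in_W p r S k) ≤ r ^ (2 * a) := fun k =>
    mzs_cd_gen p r hr2 Ap Ar hAr hTriv hMu hCyc hQuot hConn hMuO hMuU (mzs_in_W p r S k)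
      (mzs_fl_stable p r S k) (mzs_ei_series p hp r S hpS hrS k)
      (mzs_cd_unr p hp r hr.out S k) (mzs_cd_open p r S k) (mzg_ctx r Ar hAr)
      (mzs_cd_flat p hp hp5 r hrp S hpS k Ar hAr) c hχc (fun x _ => hc2 x) (hsq k)
  choose a ha using key
  exact ⟨a, fun k => (ha k).1, fun k => (ha k).2⟩

/-- **(CNT-I)** for `W_k = mzs_in_W p r S k`, `r` odd: `|W_k^{I_p}|² ≤ C · |W_k|`, uniformly in `k`
(= `hcnt` of `mzf3_ki_main` / `mzf3_ki_all` with `W := mzs_in_W p r S`, `A := Ap`). -/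
theorem mzs_cd_hcnt (hp : p.Prime) (hp5 : 5 ≤ p) (r : ℕ) [hr : Fact r.Prime] (hr2 : r ≠ 2)
    (hrp : r ≠ p) (S : Finset ℕ) (hpS : p ∈ S) (hrS : r ∈ S)
    (Ap Ar : ValuationSubring Qb) (hAr : Ar.LiesOverPrime r)
    (hTriv : mzds_SeamTriv p r Ap) (hMu : mzds_SeamMu p r Ap)
    (hCyc : mzds_SeamCycT r (mzf1_cyc r))
    (hQuot : mzo_SeamQuot) (hConn : mzo_SeamConn) (hMuO : mzo_SeamMuOrder)
    (hMuU : mzo_SeamMuUnit)
    (c : GQ) (hχc : ((dspk_cyc r c : (ZMod r)ˣ) : ZMod r) = -1)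
    (hc2 : ∀ x : JZero p, c • c • x = x)
    (hsq : ∀ k, Nat.card ↥(mzs_in_W p r S k) ≤ Nat.card ↥(mzf2_fix c (mzs_in_W p r S k)) ^ 2) :
    ∀ k, Nat.card {x : ↥(mzs_in_W p r S k) //
        ∀ σ ∈ Ap.inertiaSubgroupIn ℚ, σ • (x : JZero p) = x} ^ 2 ≤
      (mzs_sl_C0 GQ (JZero p)) ^ 2 * Nat.card ↥(mzs_in_W p r S k) := by
  obtain ⟨a, ha1, ha2⟩ := mzs_cd_main p hp hp5 r hr2 hrp S hpS hrS Ap Ar hAr hTriv hMu hCyc hQuot
    hConn hMuO hMuU c hχc hc2 hsq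
  exact mzf3_cb_main (Ap.inertiaSubgroupIn ℚ) (fun k => mzs_in_W p r S k) r a
    (mzs_sl_C0 GQ (JZero p)) (fun k => (mzs_ei_eis p hp r S hpS k).fin) ha1 ha2
    (fun k => mzs_to_card_fixed_le p hp hp5 (mzs_in_W p r S k) (r ^ k)
      (pow_ne_zero k hr.out.ne_zero) (fun x hx => ((mzs_in_mem_W p r S k x).1 hx).1))

end Fermat.Agent.MZ
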