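/-
MAZUR project, node (F-ASM), file `MZ/S/Final.lean` (helper15, prefix `mzs_fn_`).

THE FINAL INSTANTIATION OF (F*): `mzt_F_stmt C` from the cuspidal seam `mzt_C_stmt C` and the two
counting seams

* `mzs_fn_F2_stmt`   : (F2) `#W_k ≤ #(W_k^{⟨c⟩})²`, `c = complexConjugation`;
* `mzs_fn_CntI_stmt` : (CNT-I) `#(W_k^{I_p})² ≤ C · #W_k` at one place `Ap ∣ p`.

Everything else is closed:
* `mzs_fn_bound` : `mzs_sa_Bound p r S Ap Ar complexConjugation k` from helper9's `mzds_bound_series`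
  ([F-DESC] v2) with the series `mzs_ei_series` ((F1), helper7), the context `mzg_ctx` ([GEO],
  helper5), (F3) `mzf3_ci_card` (helper14) and (F2);
* `mzs_fn_Fcoh`  : `∃ i₀, mzs_lc_Fcoh p r S i₀ Ap` from helper14's `mzf3_final` ([MZ-F'], with
  helper26's toric input inside) and (CNT-I);
* `mzs_fn_SEL`   : `mzs_in_SEL p r S₀` (`mzs_sa_sel`);
* `mzs_fn_F`     : `mzt_F_stmt C` (`mzs_in_F`).
-/
import Mathlib
import Fermat.Agent.MZ.S.SelAsm
import Fermat.Agent.MZ.S.Eis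
import Fermat.Agent.MZ.Desc.Final2
import Fermat.Agent.MZ.F3.CountInertia
import Fermat.Agent.MZ.F3.CntBridge
import Fermat.Agent.MZ.F3.Final
import Fermat.Agent.MZ.F2.ConjCyc
import Fermat.Agent.MZ.Top.Asm

set_option autoImplicit false
set_option linter.unusedSectionVars false
set_option linter.style.haveILetI false
set_option synthInstance.maxHeartbeats 400000
set_option maxHeartbeats 1000000

noncomputable section

namespace Fermat.Agent.MZ

open ModularCurve AlgebraicCurve Fermat.Agent.JT3 Fermat.Agent.FF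

local notation "Qb" => AlgebraicClosure ℚ
local notation "GQ" => (AlgebraicClosure ℚ ≃ₐ[ℚ] AlgebraicClosure ℚ)

/-- **the seam (F2)**: complex conjugation fixes at least a "half" of every `W_k`. -/
def mzs_fn_F2_stmt : Prop :=
  ∀ (p : ℕ) [NeZero p], p.Prime → 5 ≤ p → ∀ r : ℕ, r.Prime → r ≠ p →
    ∀ S : Finset ℕ, p ∈ S → r ∈ S → ∀ k : ℕ,
    letI := mzh_subAction (mzs_in_W p r S k) (mzs_fl_stable p r S k)
    Nat.card ↥(mzs_in_W p r S k) ≤
      Nat.card ↥(mzh_H0 ↥(Subgroup.zpowers (complexConjugation : GQ)) ↥(mzs_in_W p r S k)) ^ 2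

/-- **the seam (CNT-I)**: the inertia invariants at `p` of the `W_k` have at most
"half" of the size of `W_k`, up to a constant. -/
def mzs_fn_CntI_stmt : Prop :=
  ∀ (p : ℕ) [NeZero p], p.Prime → 5 ≤ p → ∀ r : ℕ, r.Prime → r ≠ p →
    ∀ S : Finset ℕ, p ∈ S → r ∈ S →
    ∀ Ap : ValuationSubring Qb, Ap.LiesOverPrime p →
    ∃ C : ℕ, ∀ k : ℕ,
      Nat.card {x : ↥(mzs_in_W p r S k) // ∀ σ ∈ Ap.inertiaSubgroupIn ℚ,
        σ • (x : JZero p) = x} ^ 2 ≤ C * Nat.card ↥(mzs_in_W p r S k)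

variable (p : ℕ) [NeZero p]

/-- **the Selmer bound for `W_k`** from [F-DESC] v2. -/
theorem mzs_fn_bound (hp : p.Prime) (r : ℕ) [hr : Fact r.Prime] (hrp : r ≠ p)
    (S : Finset ℕ) (hpS : p ∈ S) (hrS : r ∈ S)
    (Ap Ar : ValuationSubring Qb) (hAp : Ap.LiesOverPrime p) (hAr : Ar.LiesOverPrime r) (k : ℕ)
    (hF2 : letI := mzh_subAction (mzs_in_W p r S k) (mzs_fl_stable p r S k)
      Nat.card ↥(mzs_in_W p r S k) ≤
        Nat.card ↥(mzh_H0 ↥(Subgroup.zpowers (complexConjugation : GQ))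
          ↥(mzs_in_W p r S k)) ^ 2) :
    mzs_sa_Bound p r S Ap Ar complexConjugation k := by
  letI actW : DistribMulAction GQ ↥(mzs_in_W p r S k) :=
    mzh_subAction (mzs_in_W p r S k) (mzs_fl_stable p r S k)
  intro L hL1 hL2 hL3 hL4 hL5
  haveI : NeZero r := ⟨hr.out.ne_zero⟩
  haveI := mzg_ctx_dvr r Ar hAr
  have hWt : ∀ x ∈ mzs_in_W p r S k, r ^ k • x = 0 := fun x hx => hx.1
  have hWs : ∀ σ : GQ, ∀ x ∈ mzs_in_W p r S k, σ • x ∈ mzs_in_W p r S k :=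
    fun σ x hx => mzs_fl_stable p r S k σ x hx
  have hp2 : ¬ p ^ 2 ∣ p := by
    intro h
    have h1 := Nat.le_of_dvd hp.pos h
    have h2 := hp.two_le
    nlinarith
  have hF3 : Nat.card ↥(mzs_in_W p r S k) ≤
      Nat.card ↥(mzh_H0 ↥(Ap.inertiaSubgroupIn ℚ) ↥(mzs_in_W p r S k)) ^ 2 := by
    rw [mzf3_cb_card (mzs_in_W p r S k) (fun _ _ => rfl) (Ap.inertiaSubgroupIn ℚ)]
    exact mzf3_ci_card p p hp (dvd_refl p) hp2 Ap hAp r hr.out hrp k (mzs_in_W p r S k) hWt hWs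
  have hopen : ∀ g : ↥(mzs_in_W p r S k), ∃ K : IntermediateField ℚ Qb,
      FiniteDimensional ℚ K ∧ ∀ σ ∈ K.fixingSubgroup, σ • g = g := by
    intro g
    obtain ⟨K, hK, hKg⟩ := mzs_lc_lc p (g : JZero p)
    refine ⟨K, hK, fun σ hσ => ?_⟩
    apply Subtype.ext
    exact sub_eq_zero.1 (hKg σ hσ)
  exact mzds_bound_series p r hp hr.out hrp Ap Ar hAp hAr
    (complexEmbedding : Qb →ₐ[ℚ] ℂ).toRingHom complexConjugation mzf2cc_isConj_ringHom
    (mzs_in_W p r S k) (mzs_ei_series p hp r S hpS hrS k) (fun _ _ => rfl)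
    (mzg_ctx r Ar hAr) hopen L hL1 hL2 hL3 hL4 hL5 hF3 hF2

/-- **(F'-coh) for the `W_k`** from [MZ-F'] and (CNT-I). -/
theorem mzs_fn_Fcoh (hp : p.Prime) (r : ℕ) (hr : r.Prime) (hrp : r ≠ p) (S : Finset ℕ)
    (Ap : ValuationSubring Qb) (hAp : Ap.LiesOverPrime p)
    (hcnt : ∃ C : ℕ, ∀ k : ℕ,
      Nat.card {x : ↥(mzs_in_W p r S k) // ∀ σ ∈ Ap.inertiaSubgroupIn ℚ,
        σ • (x : JZero p) = x} ^ 2 ≤ C * Nat.card ↥(mzs_in_W p r S k)) :
    ∃ i₀ : ℕ, mzs_lc_Fcoh p r S i₀ Ap := by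
  obtain ⟨C, hC⟩ := hcnt
  obtain ⟨i₀, h⟩ := mzf3_final p hp r hr hrp Ap hAp (fun k => mzs_in_W p r S k)
    (fun k x hx => hx.1) (fun k σ x hx => mzs_in_W_gal p r S k σ hx) C hC
  refine ⟨i₀, fun k c hcW hcoc hcont => ?_⟩
  obtain ⟨K, hK, hKc⟩ := hcont
  refine h k c hcW hcoc ⟨K, hK, fun σ hσ => hKc σ ?_⟩ Ap hAp
  rw [IntermediateField.mem_fixingSubgroup_iff]
  exact hσ

/-- **the Selmer seam `mzs_in_SEL`**, from (F2) and (CNT-I). -/
theorem mzs_fn_SEL (hF2 : mzs_fn_F2_stmt) (hcnt : mzs_fn_CntI_stmt) (hp : p.Prime) (hp5 : 5 ≤ p)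
    (r : ℕ) (hr : r.Prime) (hrp : r ≠ p) (S₀ : Finset ℕ) : mzs_in_SEL p r S₀ := by
  classical
  haveI : Fact r.Prime := ⟨hr⟩
  obtain ⟨Ap, hAp⟩ := mzt_exists_place p hp
  obtain ⟨Ar, hAr⟩ := mzt_exists_place r hr
  set S : Finset ℕ := S₀ ∪ {p, r} with hS
  have hS₀ : S₀ ⊆ S := Finset.subset_union_left
  have hpS : p ∈ S := Finset.mem_union_right _ (by simp)
  have hrS : r ∈ S := Finset.mem_union_right _ (by simp)
  obtain ⟨i₀, hF⟩ := mzs_fn_Fcoh p hp r hr hrp S Ap hAp (hcnt p hp hp5 r hr hrp S hpS hrS Ap hAp)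
  exact mzs_sa_sel p hp hp5 r hrp S hpS hrS S₀ hS₀ Ap Ar hAr mzt_exists_place
    complexConjugation mzf2cc_mul_self i₀ hF
    (fun k => mzs_fn_bound p hp r hrp S hpS hrS Ap Ar hAp hAr k
      (hF2 p hp hp5 r hr hrp S hpS hrS k))

/-- **(F\*)** from the cuspidal seam and the two counting seams. -/
theorem mzs_fn_F (C : ∀ p : ℕ, mzt_Cusps p) (hC : mzt_C_stmt C) (hF2 : mzs_fn_F2_stmt)
    (hcnt : mzs_fn_CntI_stmt) : mzt_F_stmt C := by
  refine mzs_in_F C hC (fun p _ hp hp' r hr hrp S₀ => ?_)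
  have hp5 : 5 ≤ p := by
    have h2 : p ≠ 2 := fun h => hp' (by rw [h]; decide)
    have h3 : p ≠ 3 := fun h => hp' (by rw [h]; decide)
    have h4 : p ≠ 4 := fun h => by rw [h] at hp; exact absurd hp (by decide)
    have := hp.two_le
    omega
  have hrp' : r ≠ p := by
    intro h
    rw [h] at hrp
    have := Nat.le_of_dvd (by omega) hrp
    omega
  exact mzs_fn_SEL p hF2 hcnt hp hp5 r hr hrp' S₀

end Fermat.Agent.MZ
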