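/-
Project MAZUR (S15), node (F-ASM), cell [SEL-INST] (helper17): the seam `mzs_in_SEL p r S₀` of
`MZ/S/Inst.lean` from a COHOMOLOGICAL bound on the image of the Kummer map
(`MZ/S/Sel.lean`), for `J₀(p)`:

* `mzs_si_stable` : `W_k = mzs_in_W p r S k` is `G_ℚ`-stable in the shape `mzh_Stable`;
* `mzs_si_L p r S M' k` : the image `L_k ≤ H¹(G_ℚ, W_k)` of the Kummer map on
  `{Q | r^k • Q ∈ M' ∧ ∀ σ, σ • Q - Q ∈ W_k}`;
* `mzs_si_M p r i₀ := r^i₀ • J₀(p)(ℚ)`, Hecke-stable (`mzs_si_M_hecke`), rational (`mzs_si_M_fixed`);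
* `mzs_si_SEL_of_bound` : `(∀ k, Finite L_k ∧ #L_k ≤ #(W_k^{G_ℚ})) → mzs_in_SEL p r S₀` for any
  admissible `(S, M', i₀)`; `mzs_si_SEL_of_bound'` : the same with `M' := mzs_si_M p r i₀`.
The uniform constant is `C₀ = #J₀(p)(ℚ)_tors` (`mzs_sl_C0`), finite by Mordell–Weil (S17).
Prefix `mzs_si_`.
-/
import Mathlib
import Fermat.Agent.MZ.S.Inst
import Fermat.Agent.MZ.S.Sel

set_option autoImplicit false
set_option linter.unusedSectionVars false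
set_option linter.style.haveILetI false

noncomputable section

namespace Fermat.Agent.MZ

open ModularCurve AlgebraicCurve Fermat.Agent.JT3

local notation "GQ" => (AlgebraicClosure ℚ ≃ₐ[ℚ] AlgebraicClosure ℚ)

variable (p : ℕ) [NeZero p]

/-- `W_k` is `G_ℚ`-stable (in the shape consumed by `mzh_subAction`). -/
theorem mzs_si_stable (r : ℕ) (S : Finset ℕ) (k : ℕ) : mzh_Stable GQ (mzs_in_W p r S k) :=
  fun σ _ hx => mzs_in_W_gal p r S k σ hx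

/-- `W_k ⊆ J₀(p)[r^k]`. -/
theorem mzs_si_tors (r : ℕ) (S : Finset ℕ) (k : ℕ) {x : JZero p} (hx : x ∈ mzs_in_W p r S k) :
    r ^ k • x = 0 :=
  ((mzs_in_mem_W p r S k x).1 hx).1

/-- `L_k`: the image of the Kummer map `{Q | r^k • Q ∈ M', c_Q W_k-valued} → H¹(G_ℚ, W_k)`. -/
def mzs_si_L (r : ℕ) (S : Finset ℕ) (M' : AddSubgroup (JZero p)) (k : ℕ) :
    AddSubgroup (@mzh_H1 GQ _ ↥(mzs_in_W p r S k) _
      (mzh_subAction (mzs_in_W p r S k) (mzs_si_stable p r S k))) :=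
  mzs_sl_L (mzs_in_W p r S k) (mzs_si_stable p r S k) M' (r ^ k)

theorem mzs_si_mem_L (r : ℕ) (S : Finset ℕ) (M' : AddSubgroup (JZero p)) (k : ℕ)
    (y : @mzh_H1 GQ _ ↥(mzs_in_W p r S k) _
      (mzh_subAction (mzs_in_W p r S k) (mzs_si_stable p r S k))) :
    y ∈ mzs_si_L p r S M' k ↔ ∃ (Q : JZero p) (_ : r ^ k • Q ∈ M')
      (hQ : ∀ σ : GQ, σ • Q - Q ∈ mzs_in_W p r S k),
      @mzh_cls GQ _ ↥(mzs_in_W p r S k) _
        (mzh_subAction (mzs_in_W p r S k) (mzs_si_stable p r S k))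
        (mzs_sl_coc (mzs_in_W p r S k) (mzs_si_stable p r S k) Q hQ) = y :=
  mzs_sl_mem_L (mzs_in_W p r S k) (mzs_si_stable p r S k) M' (r ^ k) y

/-- **`mzs_in_SEL` from the cohomological Selmer bound** `#L_k ≤ #(W_k^{G_ℚ})`. -/
theorem mzs_si_SEL_of_bound (hp : p.Prime) (hp5 : 5 ≤ p) (r : ℕ) (hr : r ≠ 0)
    (S₀ S : Finset ℕ) (hS : S₀ ⊆ S) (hpS : p ∈ S) (hrS : r ∈ S)
    (M' : AddSubgroup (JZero p))
    (hM'T : ∀ ℓ : Nat.Primes, (ℓ : ℕ) ∉ S → ∀ P ∈ M', heckeOperatorBar p ℓ P ∈ M')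
    (i₀ : ℕ) (hM'i : ∀ P : JZero p, (∀ σ : GQ, σ • P = P) → r ^ i₀ • P ∈ M')
    (hbound : ∀ k : ℕ, Finite ↥(mzs_si_L p r S M' k) ∧
      Nat.card ↥(mzs_si_L p r S M' k) ≤
        Nat.card ↥(@mzh_H0 GQ _ ↥(mzs_in_W p r S k) _
          (mzh_subAction (mzs_in_W p r S k) (mzs_si_stable p r S k)))) :
    mzs_in_SEL p r S₀ := by
  refine ⟨S, hS, hpS, hrS, M', hM'T, i₀, hM'i, mzs_sl_C0 GQ (JZero p), fun k => ?_⟩
  exact mzs_sl_hsel (Fermat.Agent.MW.mw_final_S17 p hp hp5) (mzs_in_W p r S k)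
    (mzs_si_stable p r S k)
    (fun x hx => ⟨r ^ k, pow_ne_zero k hr, mzs_si_tors p r S k hx⟩) M' (r ^ k)
    (hbound k).1 (hbound k).2

/-- `M' := r^i₀ • J₀(p)(ℚ)`. -/
def mzs_si_M (r i₀ : ℕ) : AddSubgroup (JZero p) :=
  (FixedPoints.addSubgroup GQ (JZero p)).map (nsmulAddMonoidHom (r ^ i₀))

theorem mzs_si_mem_M (r i₀ : ℕ) (x : JZero p) :
    x ∈ mzs_si_M p r i₀ ↔ ∃ P : JZero p, (∀ σ : GQ, σ • P = P) ∧ r ^ i₀ • P = x := by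
  unfold mzs_si_M
  rw [AddSubgroup.mem_map]
  constructor
  · rintro ⟨P, hP, rfl⟩
    exact ⟨P, fun σ => hP σ, rfl⟩
  · rintro ⟨P, hP, rfl⟩
    exact ⟨P, fun σ => hP σ, rfl⟩

/-- `M'` consists of rational points. -/
theorem mzs_si_M_fixed (r i₀ : ℕ) {x : JZero p} (hx : x ∈ mzs_si_M p r i₀) (σ : GQ) :
    σ • x = x := by
  obtain ⟨P, hP, rfl⟩ := (mzs_si_mem_M p r i₀ x).1 hx
  have h := map_nsmul (DistribSMul.toAddMonoidHom (JZero p) σ) (r ^ i₀) P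
  rw [DistribSMul.toAddMonoidHom_apply, DistribSMul.toAddMonoidHom_apply, hP σ] at h
  exact h

theorem mzs_si_M_of_fixed (r i₀ : ℕ) (P : JZero p) (hP : ∀ σ : GQ, σ • P = P) :
    r ^ i₀ • P ∈ mzs_si_M p r i₀ :=
  (mzs_si_mem_M p r i₀ _).2 ⟨P, hP, rfl⟩

/-- `M'` is stable under every Hecke operator. -/
theorem mzs_si_M_hecke (r i₀ : ℕ) (ℓ : Nat.Primes) {P : JZero p} (hP : P ∈ mzs_si_M p r i₀) :
    heckeOperatorBar p ℓ P ∈ mzs_si_M p r i₀ := by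
  obtain ⟨P₀, hP₀, rfl⟩ := (mzs_si_mem_M p r i₀ P).1 hP
  refine (mzs_si_mem_M p r i₀ _).2 ⟨heckeOperatorBar p ℓ P₀, fun σ => ?_, ?_⟩
  · rw [egh_comm p ℓ σ P₀, hP₀ σ]
  · rw [map_nsmul]

/-- **`mzs_in_SEL` from the cohomological Selmer bound, with `M' = r^i₀ • J₀(p)(ℚ)`.** -/
theorem mzs_si_SEL_of_bound' (hp : p.Prime) (hp5 : 5 ≤ p) (r : ℕ) (hr : r ≠ 0)
    (S₀ S : Finset ℕ) (hS : S₀ ⊆ S) (hpS : p ∈ S) (hrS : r ∈ S) (i₀ : ℕ)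
    (hbound : ∀ k : ℕ, Finite ↥(mzs_si_L p r S (mzs_si_M p r i₀) k) ∧
      Nat.card ↥(mzs_si_L p r S (mzs_si_M p r i₀) k) ≤
        Nat.card ↥(@mzh_H0 GQ _ ↥(mzs_in_W p r S k) _
          (mzh_subAction (mzs_in_W p r S k) (mzs_si_stable p r S k)))) :
    mzs_in_SEL p r S₀ :=
  mzs_si_SEL_of_bound p hp hp5 r hr S₀ S hS hpS hrS (mzs_si_M p r i₀)
    (fun ℓ _ _ hP => mzs_si_M_hecke p r i₀ ℓ hP) i₀
    (fun P hP => mzs_si_M_of_fixed p r i₀ P hP) hbound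

end Fermat.Agent.MZ
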